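/-
S56 / brick W (typed by helper146; compiled, extended and landed by helper97): change of the
level set for the leveled `H¹` over `ℚ`.

* `Z1_mono`, `isDisc_mono`, `incl1`, `incl1_mk`, `incl1_injective` : for `S ⊆ S'` the level-`S`
  cocycles are level-`S'` cocycles and `H¹(level S, N) → H¹(level S', N)` is injective;
* `rH1_incl1` : `incl1` commutes with the restriction maps `rH1` at the primes of `S`;
* `rho_inertia_eq` : a module of level `S` is fixed by every inertia subgroup at `q ∉ S`;
* `mem_Z1_of_inertia_vanish` (**level lowering**, inertia form): a level-`S'` cocycle with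
  values in a module `N` unramified outside `S`, vanishing on the inertia subgroup of the
  distinguished place above every prime `q ∉ S` of `S'`, is a level-`S` cocycle;
* `mem_Z1_of_local_trivial` (**level lowering**, local form): the same when the restriction to
  the local group at every prime `q ∉ S` of `S'` is a coboundary;
* `exists_incl1_eq`, `exists_incl1_eq_of_unramified` : the same for classes (with the
  restriction maps `rH1`, resp. with representatives vanishing on inertia);
* `mem_range_incl1_iff` : a class of level `S'` comes from level `S` iff it has a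
  representative of level `S`.
-/
import Fermat.Agent.S55.Count.TopBridge
import Fermat.Agent.S55.Glue.LocalRange
import Fermat.Agent.S55.Glue.LevelGalois
import Fermat.Agent.S55.Glue.PlacesAbove
import Fermat.Agent.S55.Base.Fact

set_option autoImplicit false

open CategoryTheory groupCohomology ExtCitation
open scoped Pointwise

namespace Fermat.Agent.S56.GW

open Fermat.Agent.S55.Abs Fermat.Agent.S55.Count Fermat.Agent.S55.Glue

local notation "Qb" => AlgebraicClosure ℚ
local notation "GQ" => (AlgebraicClosure ℚ ≃ₐ[ℚ] AlgebraicClosure ℚ)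

variable {k : Type} [Field k]

/-! ### Monotonicity -/

theorem globalLevel_sets_mono {S S' : Finset Nat.Primes} (h : S ⊆ S') :
    (globalLevel S).sets ⊆ (globalLevel S').sets := by
  rintro U ⟨F, hF, rfl⟩
  exact ⟨F, hF.mono h, rfl⟩

theorem Z1_mono {S S' : Finset Nat.Primes} (h : S ⊆ S') (N : Rep.{0} k GQ) :
    Z1 (globalLevel S) N ≤ Z1 (globalLevel S') N := by
  rintro f ⟨⟨U, hU, hf⟩, hc⟩
  exact ⟨⟨U, globalLevel_sets_mono h hU, hf⟩, hc⟩

theorem isDisc_mono {S S' : Finset Nat.Primes} (h : S ⊆ S') {N : Rep.{0} k GQ}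
    (hN : IsDisc (globalLevel S) N) : IsDisc (globalLevel S') N := by
  obtain ⟨U, hU, hf⟩ := hN
  exact ⟨U, globalLevel_sets_mono h hU, hf⟩

/-- The natural map `H¹(level S, N) → H¹(level S', N)` for `S ⊆ S'`. -/
noncomputable def incl1 {S S' : Finset Nat.Primes} (h : S ⊆ S') (N : Rep.{0} k GQ) :
    S55.Abs.H1 (globalLevel S) N →ₗ[k] S55.Abs.H1 (globalLevel S') N :=
  subquotMap LinearMap.id (Z1 (globalLevel S) N) (coboundaries₁ N) (Z1 (globalLevel S') N)
    (coboundaries₁ N) (fun _ hf => Z1_mono h N hf) (fun _ _ hf => hf)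

theorem incl1_mk {S S' : Finset Nat.Primes} (h : S ⊆ S') (N : Rep.{0} k GQ)
    (f : ↥(Z1 (globalLevel S) N)) :
    incl1 h N (Submodule.Quotient.mk f) = Submodule.Quotient.mk ⟨f.1, Z1_mono h N f.2⟩ := rfl

theorem incl1_injective {S S' : Finset Nat.Primes} (h : S ⊆ S') (N : Rep.{0} k GQ) :
    Function.Injective (incl1 h N) := by
  rw [← LinearMap.ker_eq_bot, Submodule.eq_bot_iff]
  intro x hx
  induction x using Submodule.Quotient.induction_on with
  | H f =>
    rw [LinearMap.mem_ker, incl1_mk, Submodule.Quotient.mk_eq_zero, Submodule.mem_comap] at hx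
    rw [Submodule.Quotient.mk_eq_zero, Submodule.mem_comap]
    exact hx

/-- `incl1` commutes with the restriction to the local group at a prime of the smaller set
(both sides live in `H¹(localLevel q, N|_q)`). -/
theorem rH1_incl1 {S S' : Finset Nat.Primes} (hSS' : S ⊆ S') (N : Rep.{0} k GQ)
    (q : Nat.Primes) (hq : q ∈ S) (y : S55.Abs.H1 (globalLevel S) N) :
    rH1 (globalLevel S') (fun q : ↥S' => primeLocalToGlobal q.1)
        (fun q : ↥S' => localLevel (primeLocalToGlobal q.1))
        (fun q : ↥S' => isLevelMap_localLevel (primeLocalToGlobal q.1) S') N ⟨q, hSS' hq⟩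
        (incl1 hSS' N y) =
      rH1 (globalLevel S) (fun q : ↥S => primeLocalToGlobal q.1)
        (fun q : ↥S => localLevel (primeLocalToGlobal q.1))
        (fun q : ↥S => isLevelMap_localLevel (primeLocalToGlobal q.1) S) N ⟨q, hq⟩ y := by
  induction y using Submodule.Quotient.induction_on with
  | H f => rfl

/-- A class of level `S'` is in the range of `incl1` iff it has a representative of level
`S`. -/
theorem mem_range_incl1_iff {S S' : Finset Nat.Primes} (hSS' : S ⊆ S') (N : Rep.{0} k GQ)
    (x : S55.Abs.H1 (globalLevel S') N) :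
    x ∈ LinearMap.range (incl1 hSS' N) ↔
      ∃ f : ↥(Z1 (globalLevel S') N), Submodule.Quotient.mk f = x ∧
        (f : GQ → N) ∈ Z1 (globalLevel S) N := by
  constructor
  · rintro ⟨y, rfl⟩
    induction y using Submodule.Quotient.induction_on with
    | H f => exact ⟨⟨f.1, Z1_mono hSS' N f.2⟩, rfl, f.2⟩
  · rintro ⟨f, rfl, hf⟩
    exact ⟨Submodule.Quotient.mk ⟨(f : GQ → N), hf⟩, rfl⟩

/-! ### Level lowering -/

/-- A module of level `S` is fixed by every inertia subgroup at a prime outside `S`. -/
theorem rho_inertia_eq {S : Finset Nat.Primes} {N : Rep.{0} k GQ}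
    (hN : IsDisc (globalLevel S) N) {q : Nat.Primes} (hq : q ∉ S)
    {A : ValuationSubring Qb} (hA : A.LiesOverPrime (q : ℕ)) {τ : GQ}
    (hτ : τ ∈ A.inertiaSubgroupIn ℚ) (x : N) : N.ρ τ x = x := by
  obtain ⟨_, ⟨F₁, hF₁, rfl⟩, hNF⟩ := hN
  exact hNF τ (hF₁.2 q hq A hA hτ) x

/-- **Level lowering, inertia form.** Let `N` be unramified outside `S` and `f` a level-`S'`
cocycle vanishing on the inertia subgroup of the distinguished place above every prime
`q ∉ S` of `S'`.  Then `f` is a level-`S` cocycle. -/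
theorem mem_Z1_of_inertia_vanish {S S' : Finset Nat.Primes} (N : Rep.{0} k GQ)
    (hN : IsDisc (globalLevel S) N) (f : GQ → N) (hf : f ∈ Z1 (globalLevel S') N)
    (hvan : ∀ q : Nat.Primes, q ∈ S' → q ∉ S →
      ∀ τ : GQ, τ ∈ (primeLocalPlace q).inertiaSubgroupIn ℚ → f τ = 0) :
    f ∈ Z1 (globalLevel S) N := by
  have hgal : IsGalois ℚ Qb := S55.Base.Fact.isGalois_Qb_fact
  have htriv : ∀ q : Nat.Primes, q ∉ S → ∀ (B : ValuationSubring Qb), B.LiesOverPrime (q : ℕ) →
      ∀ t ∈ B.inertiaSubgroupIn ℚ, ∀ x : N, N.ρ t x = x := fun q hq B hB t ht x =>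
    rho_inertia_eq hN hq hB ht x
  obtain ⟨⟨_, ⟨K, hK, rfl⟩, hfU⟩, hcoc⟩ := hf
  obtain ⟨_, ⟨F₁, hF₁, rfl⟩, hNF⟩ := hN
  have hc : ∀ g h : GQ, f (g * h) = N.ρ g (f h) + f g := (mem_cocycles₁_iff f).1 hcoc
  have hf1 : f 1 = 0 := by
    have h1 := hc 1 1
    rw [mul_one, map_one, Module.End.one_apply] at h1
    have h2 : f 1 + f 1 = f 1 + 0 := by rw [add_zero]; exact h1.symm
    exact add_left_cancel h2
  -- the subgroup of elements acting trivially on which `f` vanishes
  let V : Subgroup GQ :=
    { carrier := {s | (∀ x : N, N.ρ s x = x) ∧ f s = 0}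
      mul_mem' := fun {a b} ha hb => by
        refine ⟨fun x => ?_, ?_⟩
        · rw [map_mul, Module.End.mul_apply, hb.1, ha.1]
        · rw [hc, hb.2, map_zero, ha.2, add_zero]
      one_mem' := ⟨fun x => by rw [map_one, Module.End.one_apply], hf1⟩
      inv_mem' := fun {a} ha => by
        have hinv : ∀ x : N, N.ρ a⁻¹ x = x := fun x => by
          have h1 : N.ρ a⁻¹ (N.ρ a x) = x := by
            rw [← Module.End.mul_apply, ← map_mul, inv_mul_cancel, map_one, Module.End.one_apply]
          rw [ha.1] at h1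
          exact h1
        refine ⟨hinv, ?_⟩
        have h1 := hc a a⁻¹
        rw [mul_inv_cancel, hf1, ha.2, add_zero, ha.1] at h1
        exact h1.symm }
  have hVmem : ∀ s : GQ, s ∈ V ↔ (∀ x : N, N.ρ s x = x) ∧ f s = 0 := fun s => Iff.rfl
  -- `V` contains an open subgroup
  have hKF : (K ⊔ F₁).fixingSubgroup ≤ V := by
    intro s hs
    rw [IntermediateField.fixingSubgroup_sup] at hs
    refine ⟨fun x => hNF s hs.2 x, ?_⟩
    have h1 := hfU 1 s hs.1
    rw [one_mul] at h1
    rw [h1, hf1]
  -- `V` contains every inertia subgroup at a prime outside `S`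
  have hin : ∀ q : Nat.Primes, q ∉ S → ∀ A : ValuationSubring Qb, A.LiesOverPrime (q : ℕ) →
      A.inertiaSubgroupIn ℚ ≤ V := by
    intro q hq A hA τ hτ
    refine ⟨htriv q hq A hA τ hτ, ?_⟩
    by_cases hqS' : q ∈ S'
    · -- conjugate to the distinguished place
      obtain ⟨σ, hσ⟩ := PlacesAbove.exists_smul_eq q.2
        (S55.Base.Fact.liesOverPrime_primeLocalPlace q) hA
      have h1 : σ⁻¹ * τ * σ⁻¹⁻¹ ∈ (σ⁻¹ • A).inertiaSubgroupIn ℚ :=
        conj_mem_inertiaSubgroupIn hτ σ⁻¹
      rw [← hσ, inv_smul_smul, inv_inv] at h1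
      have hτ'triv : ∀ x : N, N.ρ (σ⁻¹ * τ * σ) x = x :=
        htriv q hq _ (S55.Base.Fact.liesOverPrime_primeLocalPlace q) _ h1
      have hfτ' : f (σ⁻¹ * τ * σ) = 0 := hvan q hqS' hq _ h1
      have hτeq : τ = σ * ((σ⁻¹ * τ * σ) * σ⁻¹) := by group
      rw [hτeq, hc, hc, hτ'triv, hfτ', add_zero, ← hc, mul_inv_cancel, hf1]
    · have h1 := hfU 1 τ (hK.2 q hqS' A hA hτ)
      rw [one_mul] at h1
      rw [h1, hf1]
  -- `V` is closed, hence the fixing subgroup of its fixed field
  have hfd : FiniteDimensional ℚ ↥(K ⊔ F₁) := by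
    have := hK.1
    have := hF₁.1
    exact IntermediateField.finiteDimensional_sup K F₁
  obtain ⟨hfix, hle⟩ := S55.Base.Fact.fixedField_spec_of_le (F := K ⊔ F₁) (U := V) hKF
  have hfd' : FiniteDimensional ℚ ↥(IntermediateField.fixedField V) :=
    FiniteDimensional.of_injective (IntermediateField.inclusion hle).toLinearMap
      (IntermediateField.inclusion hle).injective
  have hunr : (IntermediateField.fixedField V).IsUnramifiedOutside S :=
    ⟨hfd', fun q hq A hA => by rw [hfix]; exact hin q hq A hA⟩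
  refine ⟨⟨_, ⟨IntermediateField.fixedField V, hunr, rfl⟩, fun g s hs => ?_⟩, hcoc⟩
  rw [hfix] at hs
  rw [hc, ((hVmem s).1 hs).2, map_zero, zero_add]

/-- **Level lowering, local form.** Let `N` be unramified outside `S` and `f` a level-`S'`
cocycle whose restriction to the local group at every prime `q ∉ S` of `S'` is a coboundary.
Then `f` is a level-`S` cocycle. -/
theorem mem_Z1_of_local_trivial {S S' : Finset Nat.Primes} (N : Rep.{0} k GQ)
    (hN : IsDisc (globalLevel S) N) (f : GQ → N) (hf : f ∈ Z1 (globalLevel S') N)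
    (hloc : ∀ q : Nat.Primes, q ∈ S' → q ∉ S → ∃ m : N, ∀ h : primeLocalGaloisGroup q,
      f (primeLocalToGlobal q h) = N.ρ (primeLocalToGlobal q h) m - m) :
    f ∈ Z1 (globalLevel S) N := by
  refine mem_Z1_of_inertia_vanish N hN f hf fun q hqS' hq τ hτ => ?_
  have hrange : τ ∈ (primeLocalToGlobal q).range := by
    rw [LocalRange.range_primeLocalToGlobal]
    exact S55.Base.Fact.inertiaSubgroupIn_le_decompositionSubgroup _ hτ
  obtain ⟨h, rfl⟩ := hrange
  obtain ⟨m, hm⟩ := hloc q hqS' hq
  rw [hm h, rho_inertia_eq hN hq (S55.Base.Fact.liesOverPrime_primeLocalPlace q) hτ, sub_self]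

/-- **Level lowering for classes.** A class of level `S'` with coefficients unramified
outside `S ⊆ S'`, whose restrictions at the primes of `S'` outside `S` vanish, comes from
level `S`. -/
theorem exists_incl1_eq {S S' : Finset Nat.Primes} (hSS' : S ⊆ S') (N : Rep.{0} k GQ)
    (hN : IsDisc (globalLevel S) N) (x : S55.Abs.H1 (globalLevel S') N)
    (hx : ∀ v : ↥S', v.1 ∉ S →
      rH1 (globalLevel S') (fun q : ↥S' => primeLocalToGlobal q.1)
        (fun q : ↥S' => localLevel (primeLocalToGlobal q.1))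
        (fun q : ↥S' => isLevelMap_localLevel (primeLocalToGlobal q.1) S') N v x = 0) :
    ∃ y : S55.Abs.H1 (globalLevel S) N, incl1 hSS' N y = x := by
  induction x using Submodule.Quotient.induction_on with
  | H f =>
    have hloc : ∀ q : Nat.Primes, q ∈ S' → q ∉ S → ∃ m : N, ∀ h : primeLocalGaloisGroup q,
        (f : GQ → N) (primeLocalToGlobal q h) = N.ρ (primeLocalToGlobal q h) m - m := by
      intro q hqS' hq
      have h1 := hx ⟨q, hqS'⟩ hq
      rw [TopBridge.rH1_mk_eq_zero_iff] at h1
      obtain ⟨m, hm⟩ := h1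
      refine ⟨m, fun h => ?_⟩
      have h2 := congrFun hm h
      rw [d₀₁_hom_apply] at h2
      exact h2.symm
    have hmem := mem_Z1_of_local_trivial N hN (f : GQ → N) f.2 hloc
    exact ⟨Submodule.Quotient.mk ⟨(f : GQ → N), hmem⟩, rfl⟩

/-- **Level lowering for classes, unramified form.** A class of level `S'` with coefficients
unramified outside `S ⊆ S'` which is unramified at every prime `q ∉ S` of `S'` (it has a
representative vanishing on the inertia subgroup of the distinguished place above `q`)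
comes from level `S`. -/
theorem exists_incl1_eq_of_unramified {S S' : Finset Nat.Primes} (hSS' : S ⊆ S')
    (N : Rep.{0} k GQ) (hN : IsDisc (globalLevel S) N) (x : S55.Abs.H1 (globalLevel S') N)
    (hx : ∀ q : Nat.Primes, q ∈ S' → q ∉ S →
      ∃ f : ↥(Z1 (globalLevel S') N), Submodule.Quotient.mk f = x ∧
        ∀ τ : GQ, τ ∈ (primeLocalPlace q).inertiaSubgroupIn ℚ → (f : GQ → N) τ = 0) :
    ∃ y : S55.Abs.H1 (globalLevel S) N, incl1 hSS' N y = x := by
  induction x using Submodule.Quotient.induction_on with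
  | H f =>
    have hvan : ∀ q : Nat.Primes, q ∈ S' → q ∉ S →
        ∀ τ : GQ, τ ∈ (primeLocalPlace q).inertiaSubgroupIn ℚ → (f : GQ → N) τ = 0 := by
      intro q hqS' hq τ hτ
      obtain ⟨f', hf', hv⟩ := hx q hqS' hq
      have h1 : f' - f ∈ (coboundaries₁ N).comap (Z1 (globalLevel S') N).subtype :=
        (Submodule.Quotient.eq _).1 hf'
      rw [Submodule.mem_comap] at h1
      obtain ⟨m, hm⟩ := h1
      have h2 := congrFun hm τ
      rw [d₀₁_hom_apply, rho_inertia_eq hN hq (S55.Base.Fact.liesOverPrime_primeLocalPlace q) hτ,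
        sub_self] at h2
      have h3 : (f' : GQ → N) τ - (f : GQ → N) τ = 0 := h2.symm
      rw [hv τ hτ, zero_sub, neg_eq_zero] at h3
      exact h3
    have hmem := mem_Z1_of_inertia_vanish N hN (f : GQ → N) f.2 hvan
    exact ⟨Submodule.Quotient.mk ⟨(f : GQ → N), hmem⟩, rfl⟩

end Fermat.Agent.S56.GW
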