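/-
S56 / brick W (helper165): LEVEL LOWERING, "unramified" variant, and the unramified local
classes.

`S ⊆ T` finite sets of primes, `N` a module discrete at level `S`, `w` a prime.

* `H1ur w M ≤ H¹(G_w, M)` : the unramified classes of the local group at `w` (classes of the
  local 1-cocycles which are constant modulo the preimage of `Fix(F)`, `F` a finite extension of
  `ℚ` unramified at `w`; `Base/EvalQ.urLevel w`);
* `mk_mem_H1ur_iff` : the class of a local cocycle `t` is unramified iff `t - d m` is an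
  unramified cochain for some `m`;
* `mem_Z1_of_ur` (**level lowering, unramified variant**) : a 1-cocycle of level `T` whose
  restriction at every `w ∈ T`, `w ∉ S`, is an unramified cochain up to a coboundary is of
  level `S` (corollary of helper86's FACT `Base/FactAbs.mem_C1_of_ur_mod_coboundary`);
* `rH1_mem_H1ur` : the restriction at `w ∉ S` of a class of level `S` is unramified;
* `exists_level_of_rH1_mem_H1ur`, `level_iff_rH1_mem_H1ur` : a class of `H¹(G_T, N)` is
  represented by a cocycle of level `S` iff its restrictions at all `w ∈ T`, `w ∉ S`, are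
  unramified;
* `r1_mem_H1ur`, `exists_level_of_r1_mem_H1ur` : the same for the counting data `dataS`.
-/
import Fermat.Agent.S55.Base.FactAbs
import Fermat.Agent.S55.Count.Top

set_option autoImplicit false

open CategoryTheory groupCohomology ExtCitation

namespace Fermat.Agent.S56.GW.LevelLowerUr

open Fermat.Agent.S55 Fermat.Agent.S55.Abs Fermat.Agent.S55.Count Fermat.Agent.S55.Base
  Fermat.Agent.S55.Base.EvalQ

variable {k : Type} [Field k]

/-! ### Unramified local classes -/

section Local

variable (w : Nat.Primes) (M : Rep.{0} k (primeLocalGaloisGroup w))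

/-- The unramified classes in the level cohomology `H¹` of the local group at `w`: the classes
of the unramified 1-cocycles. -/
noncomputable def H1ur : Submodule k (Abs.H1 (localLevel (primeLocalToGlobal w)) M) :=
  Submodule.map (Submodule.mkQ _)
    (Submodule.comap (Z1 (localLevel (primeLocalToGlobal w)) M).subtype (C1 (urLevel w) M))

variable {w M}

theorem mem_H1ur_iff (y : Abs.H1 (localLevel (primeLocalToGlobal w)) M) :
    y ∈ H1ur w M ↔ ∃ t : ↥(Z1 (localLevel (primeLocalToGlobal w)) M),
      (t : primeLocalGaloisGroup w → M) ∈ C1 (urLevel w) M ∧ Submodule.Quotient.mk t = y :=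
  Iff.rfl

/-- The class of a local cocycle `t` is unramified iff `t` is an unramified cochain up to a
coboundary. -/
theorem mk_mem_H1ur_iff (t : ↥(Z1 (localLevel (primeLocalToGlobal w)) M)) :
    (Submodule.Quotient.mk t : Abs.H1 (localLevel (primeLocalToGlobal w)) M) ∈ H1ur w M ↔
      ∃ m : M, (t : primeLocalGaloisGroup w → M) - (d₀₁ M).hom m ∈ C1 (urLevel w) M := by
  constructor
  · rintro ⟨t', ht', h⟩
    have h1 : t' - t ∈ (coboundaries₁ M).comap (Z1 (localLevel (primeLocalToGlobal w)) M).subtype :=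
      (Submodule.Quotient.eq _).1 h
    obtain ⟨m, hm⟩ := h1
    refine ⟨-m, ?_⟩
    have h2 : (t : primeLocalGaloisGroup w → M) - (d₀₁ M).hom (-m) =
        (t' : primeLocalGaloisGroup w → M) := by
      rw [map_neg, hm]
      simp
    rw [h2]
    exact ht'
  · rintro ⟨m, hm⟩
    have hcob : (d₀₁ M).hom m ∈ cocycles₁ M := coboundaries₁_le_cocycles₁ M ⟨m, rfl⟩
    have hZ : (t : primeLocalGaloisGroup w → M) - (d₀₁ M).hom m
        ∈ Z1 (localLevel (primeLocalToGlobal w)) M :=
      ⟨C1_urLevel_le w M hm, Submodule.sub_mem _ t.2.2 hcob⟩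
    refine ⟨⟨_, hZ⟩, hm, ?_⟩
    refine (Submodule.Quotient.eq _).2 ?_
    refine ⟨-m, ?_⟩
    rw [map_neg]
    simp

end Local

/-! ### Level lowering, unramified variant -/

section Global

variable {S T : Finset Nat.Primes} {N : Rep.{0} k GQ}

/-- **Level lowering, unramified variant.**  Let `N` be discrete at level `S`.  A 1-cocycle of
level `T` whose restriction to the local group at every `w ∈ T`, `w ∉ S`, is an unramified
cochain up to a coboundary is of level `S`. -/
theorem mem_Z1_of_ur (hN : IsDisc (globalLevel S) N) {c : GQ → N}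
    (hc : c ∈ Z1 (globalLevel T) N)
    (hur : ∀ w ∈ T, w ∉ S → ∃ m : N,
      res₁ (fun w : Nat.Primes => primeLocalToGlobal w) N w c
          - (d₀₁ (Rep.res (primeLocalToGlobal w) N)).hom m
        ∈ C1 (urLevel w) (Rep.res (primeLocalToGlobal w) N)) :
    c ∈ Z1 (globalLevel S) N := by
  have hd : (d₁₂ N).hom c = 0 := hc.2
  refine ⟨FactAbs.mem_C1_of_ur_mod_coboundary hN hc.1 ?_ hur, hc.2⟩
  rw [hd]
  exact zero_mem _

/-- A cocycle of level `S` restricts to an unramified cochain at every `w ∉ S`. -/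
theorem res₁_mem_C1_urLevel {c : GQ → N} (hc : c ∈ Z1 (globalLevel S) N) {w : Nat.Primes}
    (hw : w ∉ S) :
    res₁ (fun w : Nat.Primes => primeLocalToGlobal w) N w c
      ∈ C1 (urLevel w) (Rep.res (primeLocalToGlobal w) N) :=
  IsLev₁.precomp (isLevelMap_urLevel hw) hc.1

/-- The local restriction maps of level `T`, in the explicit `rH1` form. -/
noncomputable abbrev resT (T : Finset Nat.Primes) (N : Rep.{0} k GQ) (v : ↥T) :
    Abs.H1 (globalLevel T) N →ₗ[k]
      Abs.H1 (localLevel (primeLocalToGlobal v.1)) (Rep.res (primeLocalToGlobal v.1) N) :=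
  rH1 (globalLevel T) (fun q : ↥T => primeLocalToGlobal q.1)
    (fun q : ↥T => localLevel (primeLocalToGlobal q.1))
    (fun q : ↥T => isLevelMap_localLevel (primeLocalToGlobal q.1) T) N v

/-- The restriction at `w ∈ T`, `w ∉ S`, of a class represented by a cocycle of level `S` is
unramified. -/
theorem rH1_mem_H1ur (c : ↥(Z1 (globalLevel T) N)) (hc : (c : GQ → N) ∈ Z1 (globalLevel S) N)
    (v : ↥T) (hv : v.1 ∉ S) :
    resT T N v (Submodule.Quotient.mk c) ∈ H1ur v.1 (Rep.res (primeLocalToGlobal v.1) N) :=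
  ⟨_, res₁_mem_C1_urLevel hc hv, rfl⟩

/-- **Level lowering on `H¹`, unramified variant.**  Let `N` be discrete at level `S`.  A class
of `H¹(G_T, N)` whose restrictions at all `w ∈ T`, `w ∉ S`, are unramified is represented by a
cocycle of level `S`. -/
theorem exists_level_of_rH1_mem_H1ur (hN : IsDisc (globalLevel S) N)
    (y : Abs.H1 (globalLevel T) N)
    (hy : ∀ v : ↥T, v.1 ∉ S →
      resT T N v y ∈ H1ur v.1 (Rep.res (primeLocalToGlobal v.1) N)) :
    ∃ c : ↥(Z1 (globalLevel T) N), (c : GQ → N) ∈ Z1 (globalLevel S) N ∧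
      Submodule.Quotient.mk c = y := by
  obtain ⟨c, rfl⟩ := Submodule.Quotient.mk_surjective _ y
  refine ⟨c, mem_Z1_of_ur hN c.2 fun w hwT hwS => ?_, rfl⟩
  exact (mk_mem_H1ur_iff _).1 (hy ⟨w, hwT⟩ hwS)

/-- A class of `H¹(G_T, N)`, `N` discrete at level `S`, is of level `S` iff it is unramified at
all `w ∈ T`, `w ∉ S`. -/
theorem level_iff_rH1_mem_H1ur (hN : IsDisc (globalLevel S) N) (y : Abs.H1 (globalLevel T) N) :
    (∃ c : ↥(Z1 (globalLevel T) N), (c : GQ → N) ∈ Z1 (globalLevel S) N ∧
      Submodule.Quotient.mk c = y) ↔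
    ∀ v : ↥T, v.1 ∉ S → resT T N v y ∈ H1ur v.1 (Rep.res (primeLocalToGlobal v.1) N) :=
  ⟨fun ⟨c, hc, h⟩ v hv => h ▸ rH1_mem_H1ur c hc v hv, exists_level_of_rH1_mem_H1ur hN y⟩

end Global

/-! ### The same for the counting data `dataS` -/

section Data

variable {p : ℕ} [Fact p.Prime] {S T : Finset Nat.Primes} {N : Rep.{0} (ZMod p) GQ}

theorem r1_eq_resT (hpT : pPrime p ∈ T) (invT : InvS p T) (N : Rep.{0} (ZMod p) GQ) (v : ↥T) :
    (dataS p T hpT invT).r1 N v = resT T N v := rfl

theorem r1_mem_H1ur (hpT : pPrime p ∈ T) (invT : InvS p T)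
    (c : ↥(Z1 (globalLevel T) N)) (hc : (c : GQ → N) ∈ Z1 (globalLevel S) N)
    (v : ↥T) (hv : v.1 ∉ S) :
    (dataS p T hpT invT).r1 N v (Submodule.Quotient.mk c)
      ∈ H1ur v.1 (Rep.res (primeLocalToGlobal v.1) N) :=
  rH1_mem_H1ur c hc v hv

theorem exists_level_of_r1_mem_H1ur (hpT : pPrime p ∈ T) (invT : InvS p T)
    (hN : IsDisc (globalLevel S) N) (y : Abs.H1 (globalLevel T) N)
    (hy : ∀ v : ↥T, v.1 ∉ S →
      (dataS p T hpT invT).r1 N v y ∈ H1ur v.1 (Rep.res (primeLocalToGlobal v.1) N)) :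
    ∃ c : ↥(Z1 (globalLevel T) N), (c : GQ → N) ∈ Z1 (globalLevel S) N ∧
      Submodule.Quotient.mk c = y :=
  exists_level_of_rH1_mem_H1ur hN y hy

end Data

end Fermat.Agent.S56.GW.LevelLowerUr
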