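/-
S56 / brick W + TW interface (helper165): unramified local classes and Frobenius.

`w` a prime, `Γ = primeLocalGaloisGroup w`, `r = primeLocalToGlobal w : Γ →* G_ℚ` (its range is
the decomposition group of `primeLocalPlace w`), `φ` a Frobenius element.

Local statements (`M : Rep k Γ` unramified, i.e. `IsDisc (urLevel w) M`):
* `eq_zero_of_apply_frob` : an unramified 1-cocycle of `Γ` vanishing at a lift `γ` of a Frobenius
  element is zero (every element of `Γ` is `γ ^ j * s`, `s` in the level; landed (UR1));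
* `mem_coboundaries₁_iff_apply_frob` : an unramified 1-cocycle `t` is a coboundary iff
  `t γ ∈ (γ - 1) M`;
* `mem_invariants_of_frob` : `M ^ Γ = ker (γ - 1)`;
* `finrank_H1ur_le` : `dim H¹_ur(Γ, M) ≤ dim H⁰(Γ, M)`.

Global statements (`N : Rep k G_ℚ` discrete at level `S`, `w ∉ S`, `c` a 1-cocycle of level
`S`, `A` ANY valuation subring above `w`, `φ` a Frobenius element at `A`):
* `res₁_mem_coboundaries₁_iff` (**Frobenius criterion**) : the restriction of `c` to the local
  group at `w` is a coboundary iff `c φ ∈ (φ - 1) N`;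
* `resT_mk_eq_zero_iff` : the same for the restriction maps on `H¹`;
* `exists_eq_sub_conj_iff` : the condition `c φ ∈ (φ - 1) N` is invariant under conjugation
  of `φ`;
* `finrank_H1ur_res_le` : `dim H¹_ur(G_w, N) ≤ dim H⁰(G_w, N)`.
-/
import Fermat.Agent.S56.GW.LevelLowerUr
import Fermat.Agent.S55.Glue.UnramLevel
import Fermat.Agent.S48.Dens.Basic

set_option autoImplicit false

open CategoryTheory groupCohomology ExtCitation

namespace Fermat.Agent.S56.GW.UrFrob

open Fermat.Agent.S55 Fermat.Agent.S55.Abs Fermat.Agent.S55.Count Fermat.Agent.S55.Base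
  Fermat.Agent.S55.Base.EvalQ Fermat.Agent.S55.Glue Fermat.Agent.S56.GW.LevelLowerUr

local notation "Qb" => AlgebraicClosure ℚ

variable {k : Type} [Field k]

/-! ### Local statements -/

section Local

variable {w : Nat.Primes} {M : Rep.{0} k (primeLocalGaloisGroup w)}

/-- A 1-cocycle vanishing at `γ` vanishes at the powers of `γ`. -/
theorem cocycle_pow_eq_zero {G : Type} [Group G] {A : Rep.{0} k G} {t : G → A}
    (ht : t ∈ cocycles₁ A) {γ : G} (h0 : t γ = 0) (j : ℕ) : t (γ ^ j) = 0 := by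
  have hc := (mem_cocycles₁_iff t).1 ht
  induction j with
  | zero =>
    have h1 := hc 1 1
    rw [mul_one, map_one, Module.End.one_apply] at h1
    rw [pow_zero]
    have h2 : t 1 + t 1 = t 1 + 0 := by rw [add_zero]; exact h1.symm
    exact add_left_cancel h2
  | succ j ih => rw [pow_succ, hc, h0, map_zero, ih, add_zero]

/-- **An unramified cocycle is determined by its value at Frobenius.**  Let `F/ℚ` be finite
Galois, unramified at the distinguished place above `w`, and `t` a 1-cocycle of the local group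
at `w`, right-invariant modulo the preimage of `Fix(F)`.  If `t` vanishes at a lift `γ` of a
Frobenius element, then `t = 0`. -/
theorem eq_zero_of_apply_frob (F : IntermediateField ℚ Qb) [FiniteDimensional ℚ F] [Normal ℚ F]
    (hF : (primeLocalPlace w).inertiaSubgroupIn ℚ ≤ F.fixingSubgroup)
    {t : primeLocalGaloisGroup w → M} (ht : t ∈ cocycles₁ M)
    (hinv : ∀ g s, primeLocalToGlobal w s ∈ F.fixingSubgroup → t (g * s) = t g)
    {φ : GQ} (hφ : (primeLocalPlace w).IsFrobeniusAt φ (w : ℕ))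
    {γ : primeLocalGaloisGroup w} (hγ : primeLocalToGlobal w γ = φ) (h0 : t γ = 0) : t = 0 := by
  funext τ
  have hτD : primeLocalToGlobal w τ ∈ (primeLocalPlace w).decompositionSubgroup ℚ := by
    rw [← LocalRange.range_primeLocalToGlobal]
    exact ⟨τ, rfl⟩
  obtain ⟨j, hj⟩ := UnramLevel.exists_frob_pow_eq_on (primeLocalPlace w) w.2
    (UnramLevel.liesOverPrime_primeLocalPlace w) hφ F hF hτD
  have hs : primeLocalToGlobal w ((γ ^ j)⁻¹ * τ) ∈ F.fixingSubgroup := by
    rw [IntermediateField.mem_fixingSubgroup_iff]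
    intro x hx
    rw [map_mul, map_inv, map_pow, hγ]
    show (φ ^ j)⁻¹ (primeLocalToGlobal w τ x) = x
    rw [hj x hx]
    exact AlgEquiv.symm_apply_apply (φ ^ j) x
  have h1 := hinv (γ ^ j) _ hs
  rw [mul_inv_cancel_left] at h1
  rw [h1, Pi.zero_apply]
  exact cocycle_pow_eq_zero ht h0 j

/-- A common finite Galois level, unramified at `w`, of an unramified module and an unramified
cochain. -/
theorem exists_urField (hM : IsDisc (urLevel w) M) {t : primeLocalGaloisGroup w → M}
    (ht : t ∈ C1 (urLevel w) M) :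
    ∃ F : IntermediateField ℚ Qb, FiniteDimensional ℚ F ∧ Normal ℚ F ∧
      (primeLocalPlace w).inertiaSubgroupIn ℚ ≤ F.fixingSubgroup ∧
      (∀ s : primeLocalGaloisGroup w, primeLocalToGlobal w s ∈ F.fixingSubgroup →
        ∀ x : M, M.ρ s x = x) ∧
      (∀ g s, primeLocalToGlobal w s ∈ F.fixingSubgroup → t (g * s) = t g) := by
  classical
  obtain ⟨_, ⟨T₁, F₁, hw₁, hF₁, rfl⟩, hM⟩ := hM
  obtain ⟨_, ⟨T₂, F₂, hw₂, hF₂, rfl⟩, ht⟩ := ht
  obtain ⟨F, h1, h2, hF, hn⟩ := Glue.exists_normal_isUnramifiedOutside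
    (hF₁.mono (Finset.subset_union_left (s₂ := T₂)))
    (hF₂.mono (Finset.subset_union_right (s₁ := T₁)))
  have hw : w ∉ T₁ ∪ T₂ := by simp [hw₁, hw₂]
  exact ⟨F, hF.1, hn, hF.2 w hw _ (UnramLevel.liesOverPrime_primeLocalPlace w),
    fun s hs x => hM s (IntermediateField.fixingSubgroup_antitone h1 hs) x,
    fun g s hs => ht g s (IntermediateField.fixingSubgroup_antitone h2 hs)⟩

/-- Coboundaries with values in an unramified module are unramified cochains. -/
theorem d₀₁_mem_C1_urLevel (hM : IsDisc (urLevel w) M) (m : M) :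
    (d₀₁ M).hom m ∈ C1 (urLevel w) M := by
  obtain ⟨U, hU, hM⟩ := hM
  refine ⟨U, hU, fun g s hs => ?_⟩
  rw [d₀₁_hom_apply, d₀₁_hom_apply, map_mul, Module.End.mul_apply, hM s hs m]

/-- **Local Frobenius criterion.**  An unramified 1-cocycle `t` with values in an unramified
module is a coboundary iff its value at a lift `γ` of a Frobenius element lies in
`(γ - 1) M`. -/
theorem mem_coboundaries₁_iff_apply_frob (hM : IsDisc (urLevel w) M)
    {t : primeLocalGaloisGroup w → M} (ht : t ∈ cocycles₁ M) (htur : t ∈ C1 (urLevel w) M)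
    {φ : GQ} (hφ : (primeLocalPlace w).IsFrobeniusAt φ (w : ℕ))
    {γ : primeLocalGaloisGroup w} (hγ : primeLocalToGlobal w γ = φ) :
    t ∈ coboundaries₁ M ↔ ∃ m : M, t γ = M.ρ γ m - m := by
  constructor
  · rintro ⟨m, rfl⟩
    exact ⟨m, by rw [d₀₁_hom_apply]⟩
  · rintro ⟨m, hm⟩
    have hd : (d₀₁ M).hom m ∈ C1 (urLevel w) M := d₀₁_mem_C1_urLevel hM m
    obtain ⟨F, hfd, hn, hI, -, hinv⟩ := exists_urField hM (Submodule.sub_mem _ htur hd)
    have h0 : (t - (d₀₁ M).hom m) γ = 0 := by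
      rw [Pi.sub_apply, d₀₁_hom_apply, hm, sub_self]
    have h1 := eq_zero_of_apply_frob F hI
      (Submodule.sub_mem _ ht (coboundaries₁_le_cocycles₁ M ⟨m, rfl⟩)) hinv hφ hγ h0
    exact ⟨m, (sub_eq_zero.1 h1).symm⟩

/-- The invariants of an unramified module are the invariants of (a lift of) Frobenius. -/
theorem mem_invariants_of_frob (hM : IsDisc (urLevel w) M)
    {φ : GQ} (hφ : (primeLocalPlace w).IsFrobeniusAt φ (w : ℕ))
    {γ : primeLocalGaloisGroup w} (hγ : primeLocalToGlobal w γ = φ) {m : M}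
    (hm : M.ρ γ m = m) : m ∈ M.ρ.invariants := by
  have hd : (d₀₁ M).hom m ∈ C1 (urLevel w) M := d₀₁_mem_C1_urLevel hM m
  obtain ⟨F, hfd, hn, hI, -, hinv⟩ := exists_urField hM hd
  have h0 : (d₀₁ M).hom m γ = 0 := by rw [d₀₁_hom_apply, hm, sub_self]
  have h1 := eq_zero_of_apply_frob F hI (coboundaries₁_le_cocycles₁ M ⟨m, rfl⟩) hinv hφ hγ h0
  intro τ
  have h2 := congrFun h1 τ
  rw [d₀₁_hom_apply, Pi.zero_apply, sub_eq_zero] at h2
  exact h2

/-- **`dim H¹_ur ≤ dim H⁰`** for an unramified finite-dimensional module of the local group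
at `w`. -/
theorem finrank_H1ur_le [Module.Finite k M] (hM : IsDisc (urLevel w) M) :
    Module.finrank k (H1ur w M) ≤ Module.finrank k (Abs.H0 M) := by
  obtain ⟨φ, hφ⟩ := Fermat.Agent.Lib.Frobenius.exists_isFrobeniusAt (primeLocalPlace w) w.2
    (UnramLevel.liesOverPrime_primeLocalPlace w)
  obtain ⟨γ, hγ⟩ : φ ∈ (primeLocalToGlobal w).range := by
    rw [LocalRange.range_primeLocalToGlobal]
    exact hφ.mem_decompositionSubgroup
  -- `R = (γ - 1) M`
  let R : Submodule k M := LinearMap.range (M.ρ γ - 1)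
  have hR : ∀ x : M, x ∈ R ↔ ∃ m : M, x = M.ρ γ m - m := by
    intro x
    constructor
    · rintro ⟨m, rfl⟩
      exact ⟨m, rfl⟩
    · rintro ⟨m, rfl⟩
      exact ⟨m, rfl⟩
  -- evaluation at `γ`, modulo `R`
  let ev : ↥(Z1 (localLevel (primeLocalToGlobal w)) M) →ₗ[k] M ⧸ R :=
    R.mkQ ∘ₗ (LinearMap.proj γ : (primeLocalGaloisGroup w → M) →ₗ[k] M) ∘ₗ
      (Z1 (localLevel (primeLocalToGlobal w)) M).subtype
  have hev : ∀ t : ↥(Z1 (localLevel (primeLocalToGlobal w)) M),
      ev t = Submodule.Quotient.mk ((t : primeLocalGaloisGroup w → M) γ) := fun t => rfl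
  have hker : (coboundaries₁ M).comap (Z1 (localLevel (primeLocalToGlobal w)) M).subtype ≤
      LinearMap.ker ev := by
    rintro t ⟨m, hm⟩
    rw [LinearMap.mem_ker, hev, Submodule.Quotient.mk_eq_zero, hR]
    refine ⟨m, ?_⟩
    have h1 := congrFun hm γ
    rw [d₀₁_hom_apply] at h1
    exact h1.symm
  let Φ : Abs.H1 (localLevel (primeLocalToGlobal w)) M →ₗ[k] M ⧸ R :=
    Submodule.liftQ _ ev hker
  have hΦ : ∀ t : ↥(Z1 (localLevel (primeLocalToGlobal w)) M),
      Φ (Submodule.Quotient.mk t) = Submodule.Quotient.mk ((t : primeLocalGaloisGroup w → M) γ) :=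
    fun t => rfl
  -- `Φ` is injective on the unramified classes
  have hinj : Function.Injective (Φ.domRestrict (H1ur w M)) := by
    rw [injective_iff_map_eq_zero]
    rintro ⟨y, hy⟩ h
    obtain ⟨t, ht, rfl⟩ := hy
    have h1 : Φ (Submodule.Quotient.mk t) = 0 := h
    rw [hΦ, Submodule.Quotient.mk_eq_zero, hR] at h1
    have h2 : (t : primeLocalGaloisGroup w → M) ∈ coboundaries₁ M :=
      (mem_coboundaries₁_iff_apply_frob hM t.2.2 ht hφ hγ).2 h1
    apply Subtype.ext
    exact (Submodule.Quotient.mk_eq_zero _).2 h2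
  have h1 : Module.finrank k (H1ur w M) ≤ Module.finrank k (M ⧸ R) :=
    LinearMap.finrank_le_finrank_of_injective hinj
  have e1 := Submodule.finrank_quotient_add_finrank R
  have e2 := LinearMap.finrank_range_add_finrank_ker (M.ρ γ - 1)
  have h3 : LinearMap.ker (M.ρ γ - 1) ≤ M.ρ.invariants := by
    intro m hm
    rw [LinearMap.mem_ker, LinearMap.sub_apply, Module.End.one_apply, sub_eq_zero] at hm
    exact mem_invariants_of_frob hM hφ hγ hm
  have h4 := Submodule.finrank_mono h3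
  have e3 : Module.finrank k R = Module.finrank k (LinearMap.range (M.ρ γ - 1)) := rfl
  show Module.finrank k (H1ur w M) ≤ Module.finrank k (M.ρ.invariants)
  omega

end Local

/-! ### Global statements -/

section Global

variable {S : Finset Nat.Primes} {N : Rep.{0} k GQ}

/-- A module discrete at level `S` restricts to an unramified module at every `w ∉ S`. -/
theorem isDisc_urLevel_res (hN : IsDisc (globalLevel S) N) {w : Nat.Primes} (hw : w ∉ S) :
    IsDisc (urLevel w) (Rep.res (primeLocalToGlobal w) N) := by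
  obtain ⟨_, ⟨F, hF, rfl⟩, h⟩ := hN
  exact ⟨_, ⟨S, F, hw, hF, rfl⟩, fun s hs m => h _ hs m⟩

/-- The restriction of a 1-cocycle to the local group at `w` is a 1-cocycle. -/
theorem res₁_mem_cocycles₁ {c : GQ → N} (hc : c ∈ cocycles₁ N) (w : Nat.Primes) :
    res₁ (fun w : Nat.Primes => primeLocalToGlobal w) N w c
      ∈ cocycles₁ (Rep.res (primeLocalToGlobal w) N) := by
  have h := (mem_cocycles₁_iff c).1 hc
  refine (mem_cocycles₁_iff _).2 fun g h' => ?_
  simp only [res₁_apply, map_mul]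
  exact h _ _

/-- Conjugating `φ` does not change the condition `c φ ∈ (φ - 1) N` (one direction). -/
theorem exists_eq_sub_conj {c : GQ → N} (hc : c ∈ cocycles₁ N) (g φ : GQ)
    (h : ∃ m : N, c φ = N.ρ φ m - m) :
    ∃ m : N, c (g * φ * g⁻¹) = N.ρ (g * φ * g⁻¹) m - m := by
  obtain ⟨m, hm⟩ := h
  have hcc := (mem_cocycles₁_iff c).1 hc
  have hinv : N.ρ g (c g⁻¹) = -c g := cocycles₁_map_inv (⟨c, hc⟩ : cocycles₁ N) g
  refine ⟨N.ρ g m - c g, ?_⟩
  have e1 : c (g * φ * g⁻¹) = N.ρ g (N.ρ φ (c g⁻¹)) + N.ρ g (c φ) + c g := by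
    rw [mul_assoc, hcc g (φ * g⁻¹), hcc φ g⁻¹, map_add]
  have e2 : N.ρ (g * φ * g⁻¹) (N.ρ g m - c g) =
      N.ρ g (N.ρ φ m) + N.ρ g (N.ρ φ (c g⁻¹)) := by
    rw [map_mul, map_mul, Module.End.mul_apply, Module.End.mul_apply, map_sub, map_sub,
      map_sub]
    have e3 : N.ρ g⁻¹ (N.ρ g m) = m := by
      rw [← Module.End.mul_apply, ← map_mul, inv_mul_cancel, map_one, Module.End.one_apply]
    have e4 : N.ρ g⁻¹ (c g) = -c g⁻¹ := by
      have := cocycles₁_map_inv (⟨c, hc⟩ : cocycles₁ N) g⁻¹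
      rw [inv_inv] at this
      exact this
    rw [e3, e4, map_neg, map_neg, sub_neg_eq_add]
  rw [e1, e2, hm, map_sub]
  abel

/-- The condition `c φ ∈ (φ - 1) N` is invariant under conjugation of `φ`. -/
theorem exists_eq_sub_conj_iff {c : GQ → N} (hc : c ∈ cocycles₁ N) (g φ : GQ) :
    (∃ m : N, c (g * φ * g⁻¹) = N.ρ (g * φ * g⁻¹) m - m) ↔ ∃ m : N, c φ = N.ρ φ m - m := by
  refine ⟨fun h => ?_, exists_eq_sub_conj hc g φ⟩
  have h1 := exists_eq_sub_conj hc g⁻¹ (g * φ * g⁻¹) h
  have e : g⁻¹ * (g * φ * g⁻¹) * g⁻¹⁻¹ = φ := by group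
  rw [e] at h1
  exact h1

/-- **Frobenius criterion.**  Let `N` be discrete at level `S`, `w ∉ S`, `c` a 1-cocycle of
level `S` and `φ` a Frobenius element at a valuation subring `A` above `w`.  The restriction of
`c` to the local group at `w` is a coboundary iff `c φ ∈ (φ - 1) N`. -/
theorem res₁_mem_coboundaries₁_iff (hN : IsDisc (globalLevel S) N) {w : Nat.Primes}
    (hw : w ∉ S) {c : GQ → N} (hc : c ∈ Z1 (globalLevel S) N)
    {A : ValuationSubring Qb} (hA : A.LiesOverPrime (w : ℕ)) {φ : GQ}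
    (hφ : A.IsFrobeniusAt φ (w : ℕ)) :
    res₁ (fun w : Nat.Primes => primeLocalToGlobal w) N w c
        ∈ coboundaries₁ (Rep.res (primeLocalToGlobal w) N) ↔
      ∃ m : N, c φ = N.ρ φ m - m := by
  obtain ⟨g, hg⟩ := PlacesAbove.exists_smul_eq w.2 hA
    (UnramLevel.liesOverPrime_primeLocalPlace w)
  have hφ' : (primeLocalPlace w).IsFrobeniusAt (g * φ * g⁻¹) (w : ℕ) := by
    have := Fermat.Agent.S48.Dens.isFrobeniusAt_conj hφ g
    rw [hg] at this
    exact this
  obtain ⟨γ, hγ⟩ : g * φ * g⁻¹ ∈ (primeLocalToGlobal w).range := by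
    rw [LocalRange.range_primeLocalToGlobal]
    exact hφ'.mem_decompositionSubgroup
  rw [← exists_eq_sub_conj_iff hc.2 g φ,
    mem_coboundaries₁_iff_apply_frob (isDisc_urLevel_res hN hw) (res₁_mem_cocycles₁ hc.2 w)
      (res₁_mem_C1_urLevel hc hw) hφ' hγ]
  constructor
  · rintro ⟨m, hm⟩
    refine ⟨m, ?_⟩
    rw [← hγ]
    exact hm
  · rintro ⟨m, hm⟩
    refine ⟨m, ?_⟩
    rw [← hγ] at hm
    exact hm

/-- **Frobenius criterion on `H¹`.**  For `T` any finite set of primes, `v ∈ T`, `v ∉ S`: the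
restriction at `v` of the class of a cocycle `c` of level `S` vanishes iff `c φ ∈ (φ - 1) N`,
`φ` a Frobenius element at any valuation subring above `v`. -/
theorem resT_mk_eq_zero_iff (hN : IsDisc (globalLevel S) N) {T : Finset Nat.Primes} (v : ↥T)
    (hv : v.1 ∉ S) (c : ↥(Z1 (globalLevel T) N)) (hc : (c : GQ → N) ∈ Z1 (globalLevel S) N)
    {A : ValuationSubring Qb} (hA : A.LiesOverPrime (v.1 : ℕ)) {φ : GQ}
    (hφ : A.IsFrobeniusAt φ (v.1 : ℕ)) :
    resT T N v (Submodule.Quotient.mk c) = 0 ↔ ∃ m : N, (c : GQ → N) φ = N.ρ φ m - m := by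
  rw [← res₁_mem_coboundaries₁_iff hN hv hc hA hφ]
  exact Submodule.Quotient.mk_eq_zero _

/-- **`dim H¹_ur(G_w, N) ≤ dim H⁰(G_w, N)`** for a finite-dimensional module discrete at level
`S` and `w ∉ S`. -/
theorem finrank_H1ur_res_le [Module.Finite k N] (hN : IsDisc (globalLevel S) N)
    {w : Nat.Primes} (hw : w ∉ S) :
    Module.finrank k (H1ur w (Rep.res (primeLocalToGlobal w) N)) ≤
      Module.finrank k (Abs.H0 (Rep.res (primeLocalToGlobal w) N)) := by
  haveI : Module.Finite k (Rep.res (primeLocalToGlobal w) N) :=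
    inferInstanceAs (Module.Finite k N)
  exact finrank_H1ur_le (isDisc_urLevel_res hN hw)

end Global

end Fermat.Agent.S56.GW.UrFrob
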