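/-
S56 / brick W + TW interface (helper165): the clause `hkill` of `GW/Assembly.finrank_le_of_kill`.

`S₀ ⊆ T` finite sets of primes, `N : Rep k G_ℚ`.

* `Kills S₀ T hST N` : every class of `H¹(level S₀, N)` whose restriction at every prime of `T`
  outside `S₀` vanishes is zero (for `N = M.dualTwist (cycloChar p)` this is, by `Iff.rfl`, the
  hypothesis `hkill` of `GW/Assembly.finrank_le_of_kill` : `hkill_of_kills`);
* `kills_of_frob` (**Frobenius form**) : if `N` is discrete at level `S₀` and every 1-cocycle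
  `c` of level `S₀` which is not a coboundary has `c φ ∉ (φ - 1) N` for a Frobenius element `φ`
  at some prime of `T` outside `S₀`, then `Kills S₀ T hST N`;
* `kills_iff_frob` : the same as an equivalence, for a chosen Frobenius element at every prime
  of `T` outside `S₀`;
* `kills_of_iso` : `Kills` is invariant under isomorphism of the module;
* `nonempty_iso_dualTwist` : a `χ`-equivariant pairing `N × M → k`, non-degenerate on the left,
  with `dim M ≤ dim N`, identifies `N` with `M.dualTwist χ`;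
* `nonempty_twist_iso_dualTwist` : an invariant non-degenerate form on `M` identifies
  `M.twist χ` with `M.dualTwist χ`;
* `kills_dualTwist_of_pairing`, `kills_dualTwist_of_form` : the resulting transports of `Kills`.
-/
import Fermat.Agent.S56.GW.LevelLower
import Fermat.Agent.S56.GW.UrFrob
import Fermat.Agent.S55.Abs.FunctorIso

set_option autoImplicit false

open CategoryTheory groupCohomology ExtCitation

namespace Fermat.Agent.S56.GW.KillClass

open Fermat.Agent.S55 Fermat.Agent.S55.Abs Fermat.Agent.S55.Count Fermat.Agent.S55.Base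
  Fermat.Agent.S55.Base.EvalQ Fermat.Agent.S56.GW Fermat.Agent.S56.GW.LevelLowerUr
  Fermat.Agent.S56.GW.UrFrob

local notation "Qb" => AlgebraicClosure ℚ

variable {k : Type} [Field k]

/-! ### The clause -/

/-- Every class of `H¹(level S₀, N)` which is locally trivial at all primes of `T` outside `S₀`
is zero. -/
def Kills (S₀ T : Finset Nat.Primes) (hST : S₀ ⊆ T) (N : Rep.{0} k GQ) : Prop :=
  ∀ y : Abs.H1 (globalLevel S₀) N,
    (∀ v : ↥T, v.1 ∉ S₀ → resT T N v (incl1 hST N y) = 0) → y = 0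

theorem kills_iff {S₀ T : Finset Nat.Primes} (hST : S₀ ⊆ T) (N : Rep.{0} k GQ) :
    Kills S₀ T hST N ↔ ∀ y : Abs.H1 (globalLevel S₀) N,
      (∀ v : ↥T, v.1 ∉ S₀ → resT T N v (incl1 hST N y) = 0) → y = 0 := Iff.rfl

/-- `Kills` in the spelling of the counting data `dataS` (the hypothesis `hkill` of
`GW/Assembly.finrank_le_of_kill`, with `hpT := hST hpS₀`, `invT := invS p T`,
`N := M.dualTwist (cycloChar p)`). -/
theorem hkill_of_kills {p : ℕ} [Fact p.Prime] {S₀ T : Finset Nat.Primes} (hST : S₀ ⊆ T)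
    (hpT : pPrime p ∈ T) (invT : InvS p T) {N : Rep.{0} (ZMod p) GQ} (h : Kills S₀ T hST N) :
    ∀ y : Abs.H1 (globalLevel S₀) N,
      (∀ v : ↥T, v.1 ∉ S₀ → (dataS p T hpT invT).r1 N v (incl1 hST N y) = 0) → y = 0 := h

theorem kills_iff_hkill {p : ℕ} [Fact p.Prime] {S₀ T : Finset Nat.Primes} (hST : S₀ ⊆ T)
    (hpT : pPrime p ∈ T) (invT : InvS p T) (N : Rep.{0} (ZMod p) GQ) :
    Kills S₀ T hST N ↔ ∀ y : Abs.H1 (globalLevel S₀) N,
      (∀ v : ↥T, v.1 ∉ S₀ → (dataS p T hpT invT).r1 N v (incl1 hST N y) = 0) → y = 0 :=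
  Iff.rfl

/-! ### Frobenius form -/

/-- **`Kills` from Frobenius elements.**  Let `N` be discrete at level `S₀`.  If every 1-cocycle
`c` of level `S₀` which is not a coboundary satisfies `c φ ∉ (φ - 1) N` for a Frobenius element
`φ` at (a valuation subring above) some prime of `T` outside `S₀`, then the classes of level
`S₀` which are locally trivial at the primes of `T` outside `S₀` vanish. -/
theorem kills_of_frob {S₀ T : Finset Nat.Primes} (hST : S₀ ⊆ T) {N : Rep.{0} k GQ}
    (hN : IsDisc (globalLevel S₀) N)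
    (h : ∀ c : GQ → N, c ∈ Z1 (globalLevel S₀) N → c ∉ coboundaries₁ N →
      ∃ v : ↥T, v.1 ∉ S₀ ∧ ∃ (A : ValuationSubring Qb) (φ : GQ), A.LiesOverPrime (v.1 : ℕ) ∧
        A.IsFrobeniusAt φ (v.1 : ℕ) ∧ ¬ ∃ m : N, c φ = N.ρ φ m - m) :
    Kills S₀ T hST N := by
  intro y hy
  obtain ⟨c, rfl⟩ := Submodule.Quotient.mk_surjective _ y
  by_contra hne
  have hcb : (c : GQ → N) ∉ coboundaries₁ N := fun hcb =>
    hne ((Submodule.Quotient.mk_eq_zero _).2 hcb)
  obtain ⟨v, hv, A, φ, hA, hφ, hno⟩ := h c.1 c.2 hcb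
  have h1 := hy v hv
  rw [incl1_mk] at h1
  exact hno ((resT_mk_eq_zero_iff hN v hv ⟨c.1, Z1_mono hST N c.2⟩ c.2 hA hφ).1 h1)

/-- **`Kills` in terms of chosen Frobenius elements**: for `N` discrete at level `S₀` and a
Frobenius element `φ v` at every prime `v` of `T` outside `S₀`, `Kills S₀ T hST N` says that a
1-cocycle `c` of level `S₀` with `c (φ v) ∈ (φ v - 1) N` for all these `v` is a coboundary. -/
theorem kills_iff_frob {S₀ T : Finset Nat.Primes} (hST : S₀ ⊆ T) {N : Rep.{0} k GQ}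
    (hN : IsDisc (globalLevel S₀) N) (A : ↥T → ValuationSubring Qb) (φ : ↥T → GQ)
    (hA : ∀ v : ↥T, v.1 ∉ S₀ → (A v).LiesOverPrime (v.1 : ℕ))
    (hφ : ∀ v : ↥T, v.1 ∉ S₀ → (A v).IsFrobeniusAt (φ v) (v.1 : ℕ)) :
    Kills S₀ T hST N ↔ ∀ c : GQ → N, c ∈ Z1 (globalLevel S₀) N →
      (∀ v : ↥T, v.1 ∉ S₀ → ∃ m : N, c (φ v) = N.ρ (φ v) m - m) → c ∈ coboundaries₁ N := by
  constructor
  · intro hK c hc hloc
    have h0 : (Submodule.Quotient.mk ⟨c, hc⟩ : Abs.H1 (globalLevel S₀) N) = 0 := by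
      refine hK _ fun v hv => ?_
      rw [incl1_mk]
      exact (resT_mk_eq_zero_iff hN v hv ⟨c, Z1_mono hST N hc⟩ hc (hA v hv) (hφ v hv)).2
        (hloc v hv)
    have h2 := (Submodule.Quotient.mk_eq_zero _).1 h0
    exact h2
  · intro h
    refine kills_of_frob hST hN fun c hc hcb => ?_
    by_contra hno
    refine hcb (h c hc fun v hv => ?_)
    by_contra hv'
    exact hno ⟨v, hv, A v, φ v, hA v hv, hφ v hv, hv'⟩

/-! ### Transport along an isomorphism -/

theorem incl1_H1map {S₀ T : Finset Nat.Primes} (hST : S₀ ⊆ T) {N N' : Rep.{0} k GQ}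
    (f : N ⟶ N') (y : Abs.H1 (globalLevel S₀) N) :
    incl1 hST N' (H1map (globalLevel S₀) f y) = H1map (globalLevel T) f (incl1 hST N y) := by
  obtain ⟨c, rfl⟩ := Submodule.Quotient.mk_surjective _ y
  rfl

theorem resT_H1map (T : Finset Nat.Primes) {N N' : Rep.{0} k GQ} (f : N ⟶ N') (v : ↥T)
    (x : Abs.H1 (globalLevel T) N) :
    resT T N' v (H1map (globalLevel T) f x) =
      H1map (localLevel (primeLocalToGlobal v.1)) (Rep.resMap (primeLocalToGlobal v.1) f)
        (resT T N v x) := by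
  obtain ⟨c, rfl⟩ := Submodule.Quotient.mk_surjective _ x
  rfl

/-- `Kills` is invariant under isomorphism of the module. -/
theorem kills_of_iso {S₀ T : Finset Nat.Primes} (hST : S₀ ⊆ T) {N N' : Rep.{0} k GQ}
    (e : N ≅ N') (h : Kills S₀ T hST N) : Kills S₀ T hST N' := by
  intro y hy
  have h0 : H1map (globalLevel S₀) e.inv y = 0 := by
    refine h _ fun v hv => ?_
    rw [incl1_H1map, resT_H1map, hy v hv, map_zero]
  have h1 := H1map_retract (globalLevel S₀) e.inv e.hom (FunctorIso.hom_inv_apply e) y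
  rw [h0, map_zero] at h1
  exact h1.symm

theorem kills_iff_of_iso {S₀ T : Finset Nat.Primes} (hST : S₀ ⊆ T) {N N' : Rep.{0} k GQ}
    (e : N ≅ N') : Kills S₀ T hST N ↔ Kills S₀ T hST N' :=
  ⟨kills_of_iso hST e, kills_of_iso hST e.symm⟩

/-! ### Pairings and the twisted dual -/

section Pairing

variable {G : Type} [Group G]

/-- A `χ`-equivariant pairing `N × M → k` which is non-degenerate on the left, with
`dim M ≤ dim N`, identifies `N` with the twisted dual `M.dualTwist χ`. -/
theorem nonempty_iso_dualTwist (χ : G →* kˣ) (M N : Rep.{0} k G) [Module.Finite k M]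
    [Module.Finite k N] (B : N →ₗ[k] M →ₗ[k] k)
    (hB : ∀ (g : G) (y : N) (x : M), B (N.ρ g y) (M.ρ g x) = (χ g : k) * B y x)
    (hnd : ∀ y : N, (∀ x : M, B y x = 0) → y = 0)
    (hdim : Module.finrank k M ≤ Module.finrank k N) :
    Nonempty (N ≅ M.dualTwist χ) := by
  have hinj : Function.Injective (B : N →ₗ[k] Module.Dual k M) := by
    rw [← LinearMap.ker_eq_bot, Submodule.eq_bot_iff]
    intro y hy
    refine hnd y fun x => ?_
    rw [LinearMap.mem_ker] at hy
    rw [hy]
    rfl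
  have hle : Module.finrank k N ≤ Module.finrank k (Module.Dual k M) :=
    LinearMap.finrank_le_finrank_of_injective hinj
  have hdual : Module.finrank k (Module.Dual k M) = Module.finrank k M :=
    Subspace.dual_finrank_eq
  have heq : Module.finrank k N = Module.finrank k (Module.Dual k M) :=
    le_antisymm hle (hdual.symm ▸ hdim)
  have hbij : Function.Bijective (B : N →ₗ[k] Module.Dual k M) :=
    ⟨hinj, (LinearMap.injective_iff_surjective_of_finrank_eq_finrank heq).1 hinj⟩
  have hρ : ∀ (g : G) (y : N), B (N.ρ g y) = (M.dualTwist χ).ρ g (B y) := by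
    intro g y
    apply LinearMap.ext
    intro x
    rw [Rep.dualTwist_ρ_apply]
    show B (N.ρ g y) x = (χ g : k) * B y (M.ρ g⁻¹ x)
    rw [← hB g y (M.ρ g⁻¹ x)]
    congr 1
    rw [← Module.End.mul_apply, ← map_mul, mul_inv_cancel, map_one, Module.End.one_apply]
  exact ⟨Rep.mkIso (ρ := N.ρ) (σ := M.ρ.dual.twist χ)
    (Representation.Equiv.mk (LinearEquiv.ofBijective (B : N →ₗ[k] Module.Dual k M) hbij)
      (fun g => LinearMap.ext fun y => hρ g y))⟩

/-- An invariant form on `M`, non-degenerate on the left, identifies `M.twist χ` with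
`M.dualTwist χ`. -/
theorem nonempty_twist_iso_dualTwist (χ : G →* kˣ) (M : Rep.{0} k G) [Module.Finite k M]
    (B : M →ₗ[k] M →ₗ[k] k)
    (hB : ∀ (g : G) (y x : M), B (M.ρ g y) (M.ρ g x) = B y x)
    (hnd : ∀ y : M, (∀ x : M, B y x = 0) → y = 0) :
    Nonempty (M.twist χ ≅ M.dualTwist χ) := by
  have : Module.Finite k (M.twist χ) := inferInstanceAs (Module.Finite k M)
  refine nonempty_iso_dualTwist χ M (M.twist χ) B (fun g y x => ?_) hnd le_rfl
  show B ((χ g : k) • M.ρ g y) (M.ρ g x) = (χ g : k) * B y x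
  rw [map_smul, LinearMap.smul_apply, hB, smul_eq_mul]

end Pairing

/-- Transport of `Kills` to the twisted dual along a pairing. -/
theorem kills_dualTwist_of_pairing {S₀ T : Finset Nat.Primes} (hST : S₀ ⊆ T) (χ : GQ →* kˣ)
    (M N : Rep.{0} k GQ) [Module.Finite k M] [Module.Finite k N] (B : N →ₗ[k] M →ₗ[k] k)
    (hB : ∀ (g : GQ) (y : N) (x : M), B (N.ρ g y) (M.ρ g x) = (χ g : k) * B y x)
    (hnd : ∀ y : N, (∀ x : M, B y x = 0) → y = 0)
    (hdim : Module.finrank k M ≤ Module.finrank k N) (h : Kills S₀ T hST N) :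
    Kills S₀ T hST (M.dualTwist χ) := by
  obtain ⟨e⟩ := nonempty_iso_dualTwist χ M N B hB hnd hdim
  exact kills_of_iso hST e h

/-- Transport of `Kills` from the twist `M.twist χ` to the twisted dual `M.dualTwist χ` along an
invariant non-degenerate form on `M`. -/
theorem kills_dualTwist_of_form {S₀ T : Finset Nat.Primes} (hST : S₀ ⊆ T) (χ : GQ →* kˣ)
    (M : Rep.{0} k GQ) [Module.Finite k M] (B : M →ₗ[k] M →ₗ[k] k)
    (hB : ∀ (g : GQ) (y x : M), B (M.ρ g y) (M.ρ g x) = B y x)
    (hnd : ∀ y : M, (∀ x : M, B y x = 0) → y = 0) (h : Kills S₀ T hST (M.twist χ)) :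
    Kills S₀ T hST (M.dualTwist χ) := by
  obtain ⟨e⟩ := nonempty_twist_iso_dualTwist χ M B hB hnd
  exact kills_of_iso hST e h

end Fermat.Agent.S56.GW.KillClass
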