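/-
S56 / TW interface (helper165): the matrix model of `ad⁰ ρ̄ (1)` and the trace pairing.

`F` a field, `k` a field which is a finite separable `F`-algebra with `2 ≠ 0`, `G` a group,
`ρ : G →* GL₂(k)`.

* `M0 F k` : the trace-zero `2 × 2` matrices over `k`, as an `F`-module;
* `twRep F ρ : Rep F G` : `M0 F k` with the twisted adjoint action
  `g • Y = G.tw (ρ g) Y = det (ρ g) • (ρ g) Y (ρ g)⁻¹` of `S56/G/Bricks.lean`;
* `coe_cocycle`, `trace_coe`, `mem_coboundaries₁_iff`, `exists_eq_sub_iff` : the dictionary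
  between the cocycles of `twRep F ρ` and the matrix cocycles
  `ψ (a b) = ψ a + tw (ρ a) (ψ b)`, `tr ψ = 0` of brick G / TW;
* `exists_field_of_mem_Z1` : a cocycle of level `S` vanishes on the fixer of a finite extension;
* `isDisc_twRep` : `twRep F ρ` is discrete for a level family containing a subgroup on which
  `ρ` is trivial;
* `trB F` : the pairing `(Y, X) ↦ Tr_{k/F} tr (Y X)`; `trB_tw_conj` (equivariance),
  `eq_zero_of_trB` (non-degeneracy on the trace-zero matrices);
* `nonempty_twRep_iso_dualTwist` : if `det ρ = χ` and `M : Rep F G` has an equivariant matrix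
  realisation `mat : M → M₂(k)` (conjugation action) which is a bijection onto the trace-zero
  matrices, then `twRep F ρ ≅ M.dualTwist χ`;
* `kills_dualTwist_of_twRep` : the resulting transport of `KillClass.Kills`.
-/
import Fermat.Agent.S56.GW.KillClass
import Fermat.Agent.S56.G.Bricks

set_option autoImplicit false

open CategoryTheory groupCohomology ExtCitation

namespace Fermat.Agent.S56.GW.TwRep

open Fermat.Agent.S55 Fermat.Agent.S55.Abs Fermat.Agent.S56.G Fermat.Agent.S56.GW
  Fermat.Agent.S56.GW.KillClass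

local notation "Qb" => AlgebraicClosure ℚ
local notation "Mat" => Matrix (Fin 2) (Fin 2)

/-! ### The twisted adjoint action on matrices -/

section Tw

variable {F : Type} [Field F] {k : Type} [Field k] [Algebra F k]

theorem tw_id (X : Mat k) : tw (1 : GL (Fin 2) k) X = X := by
  unfold tw
  simp

theorem tw_comp (g h : GL (Fin 2) k) (X : Mat k) : tw (g * h) X = tw g (tw h X) := by
  unfold tw
  rw [_root_.mul_inv_rev, Units.val_mul, Units.val_mul, Matrix.det_mul, Matrix.mul_smul,
    Matrix.smul_mul, smul_smul]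
  congr 1
  simp only [Matrix.mul_assoc]

theorem tw_plus (g : GL (Fin 2) k) (X Y : Mat k) : tw g (X + Y) = tw g X + tw g Y := by
  unfold tw
  rw [Matrix.mul_add, Matrix.add_mul, smul_add]

theorem tw_minus (g : GL (Fin 2) k) (X Y : Mat k) : tw g (X - Y) = tw g X - tw g Y := by
  unfold tw
  rw [Matrix.mul_sub, Matrix.sub_mul, smul_sub]

theorem tw_scal (g : GL (Fin 2) k) (a : F) (X : Mat k) : tw g (a • X) = a • tw g X := by
  unfold tw
  rw [Matrix.mul_smul, Matrix.smul_mul, smul_comm]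

theorem tw_trace (g : GL (Fin 2) k) (X : Mat k) : (tw g X).trace = g.val.det * X.trace := by
  unfold tw
  rw [Matrix.trace_smul, smul_eq_mul, Matrix.trace_mul_cycle, ← Units.val_mul, inv_mul_cancel,
    Units.val_one, Matrix.one_mul]

end Tw

/-! ### The module and the representation -/

section Model

variable (F : Type) [Field F] (k : Type) [Field k] [Algebra F k]

/-- The trace-zero `2 × 2` matrices over `k`, as an `F`-module. -/
def M0 : Submodule F (Mat k) where
  carrier := {X | X.trace = 0}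
  add_mem' := fun {a b} ha hb => by
    show (a + b).trace = 0
    rw [Matrix.trace_add, show a.trace = 0 from ha, show b.trace = 0 from hb, add_zero]
  zero_mem' := Matrix.trace_zero (Fin 2) k
  smul_mem' := fun c {a} ha => by
    show (c • a).trace = 0
    rw [Matrix.trace_smul, show a.trace = 0 from ha, smul_zero]

variable {F k}

theorem mem_M0 (X : Mat k) : X ∈ M0 F k ↔ X.trace = 0 := Iff.rfl

variable {G : Type} [Group G]

variable (F) in
/-- The twisted adjoint representation of `G` on the trace-zero matrices, through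
`ρ : G →* GL₂(k)`. -/
def twRho (ρ : G →* GL (Fin 2) k) : Representation F G ↥(M0 F k) where
  toFun g :=
    { toFun := fun Y => ⟨tw (ρ g) Y.1, by
        show (tw (ρ g) Y.1).trace = 0
        rw [tw_trace, show Y.1.trace = 0 from Y.2, mul_zero]⟩
      map_add' := fun X Y => Subtype.ext (tw_plus (ρ g) X.1 Y.1)
      map_smul' := fun a X => Subtype.ext (tw_scal (ρ g) a X.1) }
  map_one' := by
    apply LinearMap.ext
    intro Y
    apply Subtype.ext
    show tw (ρ 1) Y.1 = Y.1
    rw [map_one, tw_id]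
  map_mul' := fun g h => by
    apply LinearMap.ext
    intro Y
    apply Subtype.ext
    show tw (ρ (g * h)) Y.1 = tw (ρ g) (tw (ρ h) Y.1)
    rw [map_mul, tw_comp]

variable (F) in
/-- The matrix model of `ad⁰ ρ (1)`: trace-zero matrices with `g • Y = det (ρ g) • ρ g Y ρ g⁻¹`. -/
noncomputable abbrev twRep (ρ : G →* GL (Fin 2) k) : Rep.{0} F G := Rep.of (twRho F ρ)

theorem twRep_ρ_coe (ρ : G →* GL (Fin 2) k) (g : G) (Y : twRep F ρ) :
    (((twRep F ρ).ρ g Y : ↥(M0 F k)) : Mat k) = tw (ρ g) (Y : ↥(M0 F k)).1 := rfl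

theorem finite_M0 [Module.Finite F k] : Module.Finite F ↥(M0 F k) :=
  Module.Finite.of_injective (M0 F k).subtype Subtype.val_injective

theorem finite_twRep [Module.Finite F k] (ρ : G →* GL (Fin 2) k) :
    Module.Finite F (twRep F ρ) :=
  finite_M0

/-! ### The cocycle dictionary -/

/-- The matrix values of a function to `twRep F ρ`. -/
def toMat (ρ : G →* GL (Fin 2) k) (c : G → twRep F ρ) (a : G) : Mat k :=
  (c a : ↥(M0 F k)).1

theorem trace_toMat (ρ : G →* GL (Fin 2) k) (c : G → twRep F ρ) (a : G) :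
    (toMat ρ c a).trace = 0 :=
  (c a : ↥(M0 F k)).2

/-- A 1-cocycle of `twRep F ρ` is a matrix cocycle in the sense of brick G. -/
theorem toMat_mul (ρ : G →* GL (Fin 2) k) {c : G → twRep F ρ} (hc : c ∈ cocycles₁ (twRep F ρ))
    (a b : G) : toMat ρ c (a * b) = toMat ρ c a + tw (ρ a) (toMat ρ c b) := by
  have h := (mem_cocycles₁_iff c).1 hc a b
  have h2 : (c (a * b) : ↥(M0 F k)).1 =
      (((twRep F ρ).ρ a (c b) : ↥(M0 F k)) : Mat k) + (c a : ↥(M0 F k)).1 :=
    congrArg (fun Y : ↥(M0 F k) => Y.1) h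
  rw [twRep_ρ_coe, add_comm] at h2
  exact h2

/-- Coboundaries of `twRep F ρ` in matrix form. -/
theorem mem_coboundaries₁_iff (ρ : G →* GL (Fin 2) k) (c : G → twRep F ρ) :
    c ∈ coboundaries₁ (twRep F ρ) ↔
      ∃ Y : Mat k, Y.trace = 0 ∧ ∀ a, toMat ρ c a = tw (ρ a) Y - Y := by
  constructor
  · rintro ⟨m, rfl⟩
    exact ⟨(m : ↥(M0 F k)).1, (m : ↥(M0 F k)).2, fun a => rfl⟩
  · rintro ⟨Y, hY, h⟩
    refine ⟨(⟨Y, hY⟩ : ↥(M0 F k)), ?_⟩
    funext a
    exact Subtype.ext (h a).symm

/-- The condition `c φ ∈ (φ - 1) N` in matrix form. -/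
theorem exists_eq_sub_iff (ρ : G →* GL (Fin 2) k) (c : G → twRep F ρ) (φ : G) :
    (∃ m : twRep F ρ, c φ = (twRep F ρ).ρ φ m - m) ↔
      ∃ Y : Mat k, Y.trace = 0 ∧ toMat ρ c φ = tw (ρ φ) Y - Y := by
  constructor
  · rintro ⟨m, hm⟩
    exact ⟨(m : ↥(M0 F k)).1, (m : ↥(M0 F k)).2, congrArg (fun Y : ↥(M0 F k) => Y.1) hm⟩
  · rintro ⟨Y, hY, h⟩
    exact ⟨(⟨Y, hY⟩ : ↥(M0 F k)), Subtype.ext h⟩

/-- `twRep F ρ` is discrete for a level family containing a subgroup on which `ρ` is trivial. -/
theorem isDisc_twRep (𝒰 : LevelFamily G) (ρ : G →* GL (Fin 2) k)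
    (h : ∃ U ∈ 𝒰.sets, ∀ s ∈ U, ρ s = 1) : IsDisc 𝒰 (twRep F ρ) := by
  obtain ⟨U, hU, hρ⟩ := h
  refine ⟨U, hU, fun s hs m => ?_⟩
  apply Subtype.ext
  show tw (ρ s) (m : ↥(M0 F k)).1 = (m : ↥(M0 F k)).1
  rw [hρ s hs, tw_id]

end Model

/-! ### Cocycles of finite level over `ℚ` -/

/-- A 1-cocycle of level `S` vanishes on the fixer of a finite extension of `ℚ`. -/
theorem exists_field_of_mem_Z1 {F : Type} [Field F] {S : Finset Nat.Primes} {N : Rep.{0} F GQ}
    {c : GQ → N} (hc : c ∈ Z1 (globalLevel S) N) :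
    ∃ L : IntermediateField ℚ Qb, FiniteDimensional ℚ L ∧
      ∀ σ : GQ, (∀ x ∈ L, σ x = x) → c σ = 0 := by
  obtain ⟨⟨_, ⟨L, hL, rfl⟩, hcU⟩, hcoc⟩ := hc
  have hcc := (mem_cocycles₁_iff c).1 hcoc
  have h1 : c 1 = 0 := by
    have h := hcc 1 1
    rw [mul_one, map_one, Module.End.one_apply] at h
    have h2 : c 1 + c 1 = c 1 + 0 := by rw [add_zero]; exact h.symm
    exact add_left_cancel h2
  refine ⟨L, hL.1, fun σ hσ => ?_⟩
  have h := hcU 1 σ ((IntermediateField.mem_fixingSubgroup_iff L σ).2 hσ)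
  rw [one_mul] at h
  rw [h, h1]

/-! ### The trace pairing -/

section Pairing

variable (F : Type) [Field F] {k : Type} [Field k] [Algebra F k]

/-- The pairing `(Y, X) ↦ Tr_{k/F} tr (Y X)` on `2 × 2` matrices. -/
noncomputable def trB : Mat k →ₗ[F] Mat k →ₗ[F] F :=
  LinearMap.mk₂ F (fun Y X => Algebra.trace F k (Y * X).trace)
    (fun Y Y' X => by rw [Matrix.add_mul, Matrix.trace_add, map_add])
    (fun a Y X => by rw [Matrix.smul_mul, Matrix.trace_smul, map_smul])
    (fun Y X X' => by rw [Matrix.mul_add, Matrix.trace_add, map_add])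
    (fun a Y X => by rw [Matrix.mul_smul, Matrix.trace_smul, map_smul])

variable {F}

theorem trB_apply (Y X : Mat k) : trB F Y X = Algebra.trace F k (Y * X).trace := rfl

/-- Equivariance: `B (tw g Y, g X g⁻¹) = Tr_{k/F} (det g · tr (Y X))`. -/
theorem trB_tw_conj (g : GL (Fin 2) k) (a : F) (ha : g.val.det = algebraMap F k a)
    (Y X : Mat k) :
    trB F (tw g Y) (g.val * X * (g⁻¹ : GL (Fin 2) k).val) = a * trB F Y X := by
  have h1 : tw g Y * (g.val * X * (g⁻¹ : GL (Fin 2) k).val) =
      g.val.det • (g.val * (Y * X) * (g⁻¹ : GL (Fin 2) k).val) := by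
    unfold tw
    rw [Matrix.smul_mul]
    congr 1
    have h2 : (g⁻¹ : GL (Fin 2) k).val * g.val = 1 := by
      rw [← Units.val_mul, inv_mul_cancel, Units.val_one]
    calc g.val * Y * (g⁻¹ : GL (Fin 2) k).val * (g.val * X * (g⁻¹ : GL (Fin 2) k).val)
        = g.val * Y * ((g⁻¹ : GL (Fin 2) k).val * g.val) * X * (g⁻¹ : GL (Fin 2) k).val := by
          simp only [Matrix.mul_assoc]
      _ = g.val * (Y * X) * (g⁻¹ : GL (Fin 2) k).val := by
          rw [h2, Matrix.mul_one]
          simp only [Matrix.mul_assoc]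
  have h3 : (g.val * (Y * X) * (g⁻¹ : GL (Fin 2) k).val).trace = (Y * X).trace := by
    rw [Matrix.trace_mul_cycle, ← Units.val_mul, inv_mul_cancel, Units.val_one, Matrix.one_mul]
  rw [trB_apply, trB_apply, h1, Matrix.trace_smul, h3, ha, smul_eq_mul, ← Algebra.smul_def,
    map_smul, smul_eq_mul]

/-- Non-degeneracy of the trace pairing on the trace-zero matrices (`2 ≠ 0`, `k / F` finite
separable). -/
theorem eq_zero_of_trB [FiniteDimensional F k] [Algebra.IsSeparable F k] (h2 : (2 : k) ≠ 0)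
    (Y : Mat k) (hY : Y.trace = 0) (h : ∀ X : Mat k, X.trace = 0 → trB F Y X = 0) : Y = 0 := by
  have hnd := traceForm_nondegenerate F k
  have key : ∀ y : k, (∀ z : k, Algebra.trace F k (y * z) = 0) → y = 0 := fun y hy =>
    hnd.1 y fun z => by rw [Algebra.traceForm_apply]; exact hy z
  have htr : Y 0 0 + Y 1 1 = 0 := by
    rw [Matrix.trace_fin_two] at hY
    exact hY
  -- the lower left entry
  have h10 : Y 1 0 = 0 := key _ fun z => by
    have hX : (!![0, z; 0, 0] : Mat k).trace = 0 := by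
      rw [Matrix.trace_fin_two]
      simp
    have := h _ hX
    rw [trB_apply, Matrix.trace_fin_two] at this
    simpa [Matrix.mul_apply, Fin.sum_univ_two] using this
  -- the upper right entry
  have h01 : Y 0 1 = 0 := key _ fun z => by
    have hX : (!![0, 0; z, 0] : Mat k).trace = 0 := by
      rw [Matrix.trace_fin_two]
      simp
    have := h _ hX
    rw [trB_apply, Matrix.trace_fin_two] at this
    simpa [Matrix.mul_apply, Fin.sum_univ_two] using this
  -- the diagonal
  have h00 : Y 0 0 = 0 := by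
    have h5 : (2 : k) * Y 0 0 = 0 := key _ fun z => by
      have hX : (!![z, 0; 0, -z] : Mat k).trace = 0 := by
        rw [Matrix.trace_fin_two]
        simp
      have := h _ hX
      rw [trB_apply, Matrix.trace_fin_two] at this
      have h6 : Y 1 1 = -Y 0 0 := eq_neg_of_add_eq_zero_right htr
      have h7 : (Y * !![z, 0; 0, -z]) 0 0 + (Y * !![z, 0; 0, -z]) 1 1 = 2 * Y 0 0 * z := by
        simp only [Matrix.mul_apply, Fin.sum_univ_two, Matrix.of_apply, Matrix.cons_val',
          Matrix.cons_val_zero, Matrix.cons_val_one, Matrix.cons_val_fin_one]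
        rw [h6]
        ring
      rw [h7] at this
      exact this
    exact (mul_eq_zero.1 h5).resolve_left h2
  have h11 : Y 1 1 = 0 := by
    rw [h00, zero_add] at htr
    exact htr
  ext i j
  fin_cases i <;> fin_cases j
  · exact h00
  · exact h01
  · exact h10
  · exact h11

end Pairing

/-! ### `twRep F ρ` is the twisted dual of any model of `ad⁰ ρ` -/

section Dual

variable {F : Type} [Field F] {k : Type} [Field k] [Algebra F k] {G : Type} [Group G]

/-- **The trace pairing identifies `ad⁰ ρ (1)` with the twisted dual of `ad⁰ ρ`.**  Let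
`det ρ = χ` and let `M : Rep F G` have an `F`-linear matrix realisation `mat : M → M₂(k)`,
equivariant for the conjugation action through `ρ`, which is a bijection onto the trace-zero
matrices.  Then `twRep F ρ ≅ M.dualTwist χ`. -/
theorem nonempty_twRep_iso_dualTwist [FiniteDimensional F k] [Algebra.IsSeparable F k]
    (h2 : (2 : k) ≠ 0) (ρ : G →* GL (Fin 2) k) (χ : G →* Fˣ)
    (hdet : ∀ g, (ρ g).val.det = algebraMap F k (χ g : F)) (M : Rep.{0} F G)
    [Module.Finite F M] (mat : M →ₗ[F] Mat k) (hinj : Function.Injective mat)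
    (htr : ∀ x, (mat x).trace = 0) (hsurj : ∀ X : Mat k, X.trace = 0 → ∃ x, mat x = X)
    (heq : ∀ g x, mat (M.ρ g x) = (ρ g).val * mat x * ((ρ g)⁻¹ : GL (Fin 2) k).val) :
    Nonempty (twRep F ρ ≅ M.dualTwist χ) := by
  have hfin : Module.Finite F (twRep F ρ) := finite_twRep ρ
  have hfin0 : Module.Finite F ↥(M0 F k) := finite_M0
  let B : twRep F ρ →ₗ[F] M →ₗ[F] F := (trB F).compl₁₂ (M0 F k).subtype mat
  have hBapp : ∀ (Y : twRep F ρ) (x : M), B Y x = trB F (Y : ↥(M0 F k)).1 (mat x) := fun _ _ => rfl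
  refine nonempty_iso_dualTwist χ M (twRep F ρ) B (fun g Y x => ?_) (fun Y hY => ?_) ?_
  · show trB F (tw (ρ g) (Y : ↥(M0 F k)).1) (mat (M.ρ g x)) =
      (χ g : F) * trB F (Y : ↥(M0 F k)).1 (mat x)
    rw [heq]
    exact trB_tw_conj (ρ g) (χ g : F) (hdet g) _ _
  · apply Subtype.ext
    refine eq_zero_of_trB (F := F) h2 _ (Y : ↥(M0 F k)).2 fun X hX => ?_
    obtain ⟨x, rfl⟩ := hsurj X hX
    exact hY x
  · let f : M →ₗ[F] ↥(M0 F k) := mat.codRestrict (M0 F k) htr
    have hf : Function.Injective f := fun a b hab => hinj (congrArg (fun Y : ↥(M0 F k) => Y.1) hab)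
    exact (LinearMap.finrank_le_finrank_of_injective hf :
      Module.finrank F M ≤ Module.finrank F ↥(M0 F k))

end Dual

/-- Transport of `Kills` from the matrix model `twRep (ZMod p) ρ` of `ad⁰ ρ (1)` to the twisted
dual `M.dualTwist χ` of any model `M` of `ad⁰ ρ`. -/
theorem kills_dualTwist_of_twRep {F : Type} [Field F] {k : Type} [Field k] [Algebra F k]
    [FiniteDimensional F k] [Algebra.IsSeparable F k] (h2 : (2 : k) ≠ 0)
    {S₀ T : Finset Nat.Primes} (hST : S₀ ⊆ T) (ρ : GQ →* GL (Fin 2) k) (χ : GQ →* Fˣ)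
    (hdet : ∀ g, (ρ g).val.det = algebraMap F k (χ g : F)) (M : Rep.{0} F GQ)
    [Module.Finite F M] (mat : M →ₗ[F] Mat k) (hinj : Function.Injective mat)
    (htr : ∀ x, (mat x).trace = 0) (hsurj : ∀ X : Mat k, X.trace = 0 → ∃ x, mat x = X)
    (heq : ∀ g x, mat (M.ρ g x) = (ρ g).val * mat x * ((ρ g)⁻¹ : GL (Fin 2) k).val)
    (h : Kills S₀ T hST (twRep F ρ)) : Kills S₀ T hST (M.dualTwist χ) := by
  obtain ⟨e⟩ := nonempty_twRep_iso_dualTwist h2 ρ χ hdet M mat hinj htr hsurj heq
  exact kills_of_iso hST e h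

end Fermat.Agent.S56.GW.TwRep
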