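/-
S56 / SEL junction (helper165): the level of `ρbar` in the vocabulary of `S55/Abs`
(`globalLevel`, `IsUnramifiedOutside`), and its determinant.

* `exists_field_le_ker` : a homomorphism `f : G_ℚ →* H` of finite level which is trivial on the
  inertia subgroups at all primes outside `S₀` is trivial on `Fix(F)` for a finite extension `F`
  unramified outside `S₀` (FACT-1 of `S55/Base/Fact.lean`); `exists_globalSet_le_ker` : the same
  with a member of `(globalLevel S₀).sets`;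
* `isUnramifiedAt_of_notMem` : under `Contract.Hyp`, `ρbar` is unramified at every prime outside
  `Smin`;
* `exists_field_rhoGL`, `exists_field_matOfBasisRes`, `exists_globalSet_rhoGL` : the matrices of
  `ρbar` are trivial on `Fix(F)`, `F` unramified outside any `S₀ ⊇ Smin`;
* `isDisc_twRep_of_hyp` : the matrix model `twRep F (rhoGL ρbar b0)` of `ad⁰ ρbar (1)` is
  discrete at every level `S₀ ⊇ Smin`;
* `cycloChar_pow`, `det_rhoGL` : `det ρbar = cycloChar p` in `k`.
-/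
import Fermat.Agent.S55.Base.Fact
import Fermat.Agent.S56.TW.RhoHyp
import Fermat.Agent.S56.GW.TwRep

set_option autoImplicit false

open CategoryTheory groupCohomology ExtCitation

namespace Fermat.Agent.S56.GW.RhoLevel

open IsLocalRing
open Fermat.Agent.S56.Contract Fermat.Agent.S56.TW.RhoHyp Fermat.Agent.S55.Abs
  Fermat.Agent.S56.GW.TwRep Fermat.Agent.S53.MatRep

local notation "Qb" => AlgebraicClosure ℚ

/-! ### Generic: finite level + unramified outside `S₀` -/

/-- A homomorphism of finite level, trivial on inertia at all primes outside `S₀`, is trivial on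
the fixer of a finite extension unramified outside `S₀`. -/
theorem exists_field_le_ker {H : Type} [Monoid H] (f : GQ →* H)
    (hf : GaloisFactorsThroughFiniteLevel f) (S₀ : Finset Nat.Primes)
    (hunr : ∀ q : Nat.Primes, q ∉ S₀ → ∀ A : ValuationSubring Qb, A.LiesOverPrime (q : ℕ) →
      ∀ σ ∈ A.inertiaSubgroupIn ℚ, f σ = 1) :
    ∃ F : IntermediateField ℚ Qb, F.IsUnramifiedOutside S₀ ∧
      ∀ s ∈ F.fixingSubgroup, f s = 1 := by
  obtain ⟨L, hL, hL1⟩ := hf
  have hLfd : FiniteDimensional ℚ L := hL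
  have hfix : ∀ s ∈ L.fixingSubgroup, f s = 1 := fun s hs =>
    hL1 s fun x hx => (IntermediateField.mem_fixingSubgroup_iff L s).1 hs x hx
  obtain ⟨F₁, -, hF₁, hF₁c⟩ := Fermat.Agent.S55.Base.Fact.exists_level_of_right_invariant
    (S := S₀) (fun g : GQ => f g) L
    (fun g s hs => by
      show f (g * s) = f g
      rw [map_mul, hfix s hs, mul_one])
    (fun q hq A hA g i hi => by
      show f (g * i) = f g
      rw [map_mul, hunr q hq A hA i hi, mul_one])
  refine ⟨F₁, hF₁, fun s hs => ?_⟩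
  have h1 : f (1 * s) = f 1 := hF₁c 1 s hs
  rw [one_mul] at h1
  rw [h1, map_one]

/-- The same with a member of the level family `globalLevel S₀`. -/
theorem exists_globalSet_le_ker {H : Type} [Monoid H] (f : GQ →* H)
    (hf : GaloisFactorsThroughFiniteLevel f) (S₀ : Finset Nat.Primes)
    (hunr : ∀ q : Nat.Primes, q ∉ S₀ → ∀ A : ValuationSubring Qb, A.LiesOverPrime (q : ℕ) →
      ∀ σ ∈ A.inertiaSubgroupIn ℚ, f σ = 1) :
    ∃ U ∈ (globalLevel S₀).sets, ∀ s ∈ U, f s = 1 := by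
  obtain ⟨F, hF, h⟩ := exists_field_le_ker f hf S₀ hunr
  exact ⟨F.fixingSubgroup, ⟨F, hF, rfl⟩, h⟩

/-! ### `ρbar` under the frozen hypotheses -/

section Hyp

variable {𝒪 : Type} [CommRing 𝒪] [IsLocalRing 𝒪] {p : ℕ}
  {ρbar : ResidualGaloisRep (ResidueField 𝒪)} {S Smin : Finset ℕ}

/-- Under the frozen hypotheses, `ρbar` is unramified at every prime outside `Smin`. -/
theorem isUnramifiedAt_of_notMem (h : Hyp 𝒪 p ρbar S Smin) {q : ℕ} (hq : q.Prime)
    (hqS : q ∉ Smin) : ρbar.IsUnramifiedAt q := by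
  have hqp : q ≠ p := fun hqp => hqS (hqp ▸ h.hpSmin)
  by_contra hnot
  exact hqS ((h.hmin q hq hqp).2 hnot)

/-- `rhoGL ρbar b0` is trivial on `Fix(F)` for some `F` unramified outside `S₀ ⊇ Smin`. -/
theorem exists_field_rhoGL (h : Hyp 𝒪 p ρbar S Smin)
    (b0 : Module.Basis (Fin 2) (ResidueField 𝒪) ρbar.V) (S₀ : Finset Nat.Primes)
    (hS : ∀ q (hq : q.Prime), q ∈ Smin → (⟨q, hq⟩ : Nat.Primes) ∈ S₀) :
    ∃ F : IntermediateField ℚ Qb, F.IsUnramifiedOutside S₀ ∧
      ∀ s ∈ F.fixingSubgroup, rhoGL ρbar b0 s = 1 :=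
  exists_field_le_ker (rhoGL ρbar b0) (finiteLevel_rhoGL ρbar b0) S₀ fun q hq A hA σ hσ => by
    have hur := isUnramifiedAt_of_notMem h q.2 (fun hq' => hq (hS (q : ℕ) q.2 hq'))
    apply Units.ext
    rw [rhoGL_val, hur A hA σ hσ]
    exact LinearMap.toMatrix_one b0

/-- `matOfBasisRes ρbar b0` is trivial on `Fix(F)` for some `F` unramified outside
`S₀ ⊇ Smin`. -/
theorem exists_field_matOfBasisRes (h : Hyp 𝒪 p ρbar S Smin)
    (b0 : Module.Basis (Fin 2) (ResidueField 𝒪) ρbar.V) (S₀ : Finset Nat.Primes)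
    (hS : ∀ q (hq : q.Prime), q ∈ Smin → (⟨q, hq⟩ : Nat.Primes) ∈ S₀) :
    ∃ F : IntermediateField ℚ Qb, F.IsUnramifiedOutside S₀ ∧
      ∀ s ∈ F.fixingSubgroup, matOfBasisRes ρbar b0 s = 1 :=
  exists_field_le_ker (matOfBasisRes ρbar b0) (factors_matOfBasisRes ρbar b0) S₀
    fun q hq A hA σ hσ => by
      have hur := isUnramifiedAt_of_notMem h q.2 (fun hq' => hq (hS (q : ℕ) q.2 hq'))
      rw [matOfBasisRes_eq_toMatrix, hur A hA σ hσ]
      exact LinearMap.toMatrix_one b0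

/-- `rhoGL ρbar b0` is trivial on a member of `globalLevel S₀`, `S₀ ⊇ Smin`. -/
theorem exists_globalSet_rhoGL (h : Hyp 𝒪 p ρbar S Smin)
    (b0 : Module.Basis (Fin 2) (ResidueField 𝒪) ρbar.V) (S₀ : Finset Nat.Primes)
    (hS : ∀ q (hq : q.Prime), q ∈ Smin → (⟨q, hq⟩ : Nat.Primes) ∈ S₀) :
    ∃ U ∈ (globalLevel S₀).sets, ∀ s ∈ U, rhoGL ρbar b0 s = 1 := by
  obtain ⟨F, hF, hF1⟩ := exists_field_rhoGL h b0 S₀ hS
  exact ⟨F.fixingSubgroup, ⟨F, hF, rfl⟩, hF1⟩

/-- The matrix model of `ad⁰ ρbar (1)` is discrete at every level `S₀ ⊇ Smin`. -/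
theorem isDisc_twRep_of_hyp (F : Type) [Field F] [Algebra F (ResidueField 𝒪)]
    (h : Hyp 𝒪 p ρbar S Smin) (b0 : Module.Basis (Fin 2) (ResidueField 𝒪) ρbar.V)
    (S₀ : Finset Nat.Primes)
    (hS : ∀ q (hq : q.Prime), q ∈ Smin → (⟨q, hq⟩ : Nat.Primes) ∈ S₀) :
    IsDisc (globalLevel S₀) (twRep F (rhoGL ρbar b0)) :=
  isDisc_twRep (globalLevel S₀) (rhoGL ρbar b0) (exists_globalSet_rhoGL h b0 S₀ hS)

end Hyp

/-! ### The determinant -/

/-- The defining property of the mod `p` cyclotomic character of the Prelude. -/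
theorem cycloChar_pow (p : ℕ) [Fact p.Prime] (σ : GQ) {x : Qb} (hx : x ^ p = 1) :
    σ x = x ^ ((cycloChar p σ : ZMod p)).val := by
  have hp : p.Prime := Fact.out
  have : NeZero p := ⟨hp.ne_zero⟩
  have hx0 : x ≠ 0 := by
    rintro rfl
    rw [zero_pow hp.ne_zero] at hx
    exact zero_ne_one hx
  have ht : Units.mk0 x hx0 ∈ rootsOfUnity p Qb := by
    rw [mem_rootsOfUnity]
    ext
    simp [hx]
  exact modularCyclotomicCharacter.spec Qb (card_rootsOfUnity_eq_self p)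
    (σ : Qb ≃+* Qb) ht

/-- `det ρbar` is the mod `p` cyclotomic character. -/
theorem det_rhoGL {𝒪 : Type} [CommRing 𝒪] [IsLocalRing 𝒪] {p : ℕ} [Fact p.Prime]
    {ρbar : ResidualGaloisRep (ResidueField 𝒪)} {S Smin : Finset ℕ}
    [Algebra (ZMod p) (ResidueField 𝒪)] (h : Hyp 𝒪 p ρbar S Smin)
    (b0 : Module.Basis (Fin 2) (ResidueField 𝒪) ρbar.V) (σ : GQ) :
    (rhoGL ρbar b0 σ).val.det =
      algebraMap (ZMod p) (ResidueField 𝒪) (cycloChar p σ : ZMod p) := by
  have hp : p.Prime := Fact.out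
  have : NeZero p := ⟨hp.ne_zero⟩
  rw [rhoGL_det, det_eq_of_root h.hdet σ ((cycloChar p σ : ZMod p)).val
    (fun μ hμ => cycloChar_pow p σ hμ)]
  conv_rhs => rw [← ZMod.natCast_zmod_val (cycloChar p σ : ZMod p)]
  rw [map_natCast]

end Fermat.Agent.S56.GW.RhoLevel
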