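/-
S56 / brick W + LOC interface (helper165): inflation–restriction at a prime `w` on the level
cohomology of the local group `Γ = primeLocalGaloisGroup w`, `r = primeLocalToGlobal w`,
`I = r⁻¹ (inertia subgroup of primeLocalPlace w)`.

* `mem_C1_urLevel_of_inertia` : a level-constant 1-cochain of `Γ` which is right-invariant under
  `I` is an unramified cochain (constant modulo `r⁻¹ Fix(ℚ(μ_m))`, `m = w ^ N - 1`; landed
  (UR5) `UnramIntrinsic.exists_inertia_mul_of_fixes_roots`);
* `mem_C1_urLevel_of_cocycle` : a level 1-cocycle vanishing on `I` is an unramified cochain;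
* `apply_inertia_eq_zero_of_ur` : an unramified cocycle vanishes on `I`;
* `mk_mem_H1ur_iff_inertia` : for an unramified module `M`, the class of a level cocycle `t` is
  unramified iff `t` vanishes on `I` (`H¹_ur = ker (H¹(Γ, M) → Hom(I, M))`);
* `res_mk_mem_H1ur_iff_inertia` : the same for `M = Rep.res r N`, `N` discrete at a level `S ∌ w`.
-/
import Fermat.Agent.S56.GW.UrFrob
import Fermat.Agent.S55.Glue.UnramIntrinsic

set_option autoImplicit false

open CategoryTheory groupCohomology ExtCitation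

namespace Fermat.Agent.S56.GW.UrInertia

open Fermat.Agent.S55 Fermat.Agent.S55.Abs Fermat.Agent.S55.Count Fermat.Agent.S55.Base
  Fermat.Agent.S55.Base.EvalQ Fermat.Agent.S55.Glue Fermat.Agent.S56.GW.LevelLowerUr
  Fermat.Agent.S56.GW.UrFrob

local notation "Qb" => AlgebraicClosure ℚ

attribute [local instance] Glue.isAlgebraicQbar_lg Glue.isAlgClosureQbar_lg Glue.normalQbar_lg

variable {k : Type} [Field k] {w : Nat.Primes} {M : Rep.{0} k (primeLocalGaloisGroup w)}

/-- **A level cochain invariant under inertia is unramified.**  A level-constant 1-cochain of the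
local group at `w` which is right-invariant under the preimage of the inertia group of the
distinguished place is constant modulo the preimage of `Fix(ℚ(μ_m))`, `m = w ^ N - 1`. -/
theorem mem_C1_urLevel_of_inertia {t : primeLocalGaloisGroup w → M}
    (ht : t ∈ C1 (localLevel (primeLocalToGlobal w)) M)
    (hI : ∀ g ι, primeLocalToGlobal w ι ∈ (primeLocalPlace w).inertiaSubgroupIn ℚ →
      t (g * ι) = t g) :
    t ∈ C1 (urLevel w) M := by
  classical
  obtain ⟨_, ⟨F₀, hF₀fd, rfl⟩, ht⟩ := ht
  have := hF₀fd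
  -- a finite Galois level
  let L : IntermediateField ℚ Qb := IntermediateField.normalClosure ℚ F₀ Qb
  have hLn : Normal ℚ L := normalClosure.normal ℚ _ _
  have hLF : L.fixingSubgroup ≤ F₀.fixingSubgroup :=
    IntermediateField.fixingSubgroup_antitone (IntermediateField.le_normalClosure F₀)
  obtain ⟨hnorm, hfi⟩ := fixingSubgroup_normal_finiteIndex L
  -- Frobenius and a power of it fixing `L`
  have hA := UnramLevel.liesOverPrime_primeLocalPlace w
  obtain ⟨φ, hφ⟩ := Fermat.Agent.Lib.Frobenius.exists_isFrobeniusAt (primeLocalPlace w) w.2 hA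
  set n : ℕ := L.fixingSubgroup.index with hn
  have hn0 : 0 < n := Nat.pos_of_ne_zero hfi.index_ne_zero
  have hφn : φ ^ n ∈ L.fixingSubgroup := Subgroup.pow_index_mem L.fixingSubgroup φ
  -- the cyclotomic level
  set m : ℕ := (w : ℕ) ^ n - 1 with hm
  have hw2 : 2 ≤ (w : ℕ) ^ n := by
    calc 2 ≤ (w : ℕ) := w.2.two_le
      _ = (w : ℕ) ^ 1 := (pow_one _).symm
      _ ≤ (w : ℕ) ^ n := Nat.pow_le_pow_right w.2.pos hn0
  have hm0 : m ≠ 0 := by omega
  have hcop : Nat.Coprime m (w : ℕ) := UnramLevel.coprime_pow_sub_one w.2.pos n hn0.ne'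
  have hF' : ((⊥ : IntermediateField ℚ Qb) ⊔ cycloField m).IsUnramifiedOutside
      (∅ ∪ UnramLevel.primesDvd m) :=
    UnramLevel.isUnramifiedOutside_sup_cycloField
      (IntermediateField.isUnramifiedOutside_bot ∅) hm0
  have hwT : w ∉ (∅ ∪ UnramLevel.primesDvd m : Finset Nat.Primes) := by
    rw [Finset.empty_union, UnramLevel.mem_primesDvd hm0]
    intro hdvd
    have h1 : (w : ℕ) ∣ Nat.gcd m (w : ℕ) := Nat.dvd_gcd hdvd dvd_rfl
    rw [hcop] at h1
    exact w.2.one_lt.ne' (Nat.dvd_one.1 h1)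
  refine ⟨_, ⟨_, _, hwT, hF', rfl⟩, fun g σ hσ => ?_⟩
  have hσμ : primeLocalToGlobal w σ ∈ (cycloField m).fixingSubgroup :=
    IntermediateField.fixingSubgroup_antitone le_sup_right hσ
  have hσD : primeLocalToGlobal w σ ∈ (primeLocalPlace w).decompositionSubgroup ℚ := by
    rw [← LocalRange.range_primeLocalToGlobal]
    exact ⟨σ, rfl⟩
  obtain ⟨ι, hι, hs⟩ := UnramIntrinsic.exists_inertia_mul_of_fixes_roots (primeLocalPlace w)
    w.2 hA hφ L hn0 hφn hσD hσμ
  obtain ⟨ι', hι'⟩ : ι ∈ (primeLocalToGlobal w).range := by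
    rw [LocalRange.range_primeLocalToGlobal]
    exact UnramIntrinsic.inertia_le_decomposition _ hι
  have h1 : t (g * (σ * ι'⁻¹) * ι') = t (g * (σ * ι'⁻¹)) := hI _ _ (by rw [hι']; exact hι)
  have h2 : t (g * (σ * ι'⁻¹)) = t g := by
    refine ht g _ ?_
    show primeLocalToGlobal w (σ * ι'⁻¹) ∈ F₀.fixingSubgroup
    rw [map_mul, map_inv, hι']
    exact hLF hs
  have e : g * (σ * ι'⁻¹) * ι' = g * σ := by group
  rw [← e, h1, h2]

/-- A level 1-cocycle vanishing on the preimage `I` of the inertia group is an unramified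
cochain. -/
theorem mem_C1_urLevel_of_cocycle
    {t : primeLocalGaloisGroup w → M} (ht : t ∈ Z1 (localLevel (primeLocalToGlobal w)) M)
    (h0 : ∀ ι, primeLocalToGlobal w ι ∈ (primeLocalPlace w).inertiaSubgroupIn ℚ → t ι = 0) :
    t ∈ C1 (urLevel w) M := by
  refine mem_C1_urLevel_of_inertia ht.1 fun g ι hι => ?_
  rw [(mem_cocycles₁_iff t).1 ht.2 g ι, h0 ι hι, map_zero, zero_add]

/-- The preimage of the inertia group acts trivially on an unramified module. -/
theorem apply_inertia_of_isDisc (hM : IsDisc (urLevel w) M) {ι : primeLocalGaloisGroup w}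
    (hι : primeLocalToGlobal w ι ∈ (primeLocalPlace w).inertiaSubgroupIn ℚ) (x : M) :
    M.ρ ι x = x := by
  obtain ⟨_, ⟨T, F, hwT, hF, rfl⟩, h⟩ := hM
  exact h ι (hF.2 w hwT _ (UnramLevel.liesOverPrime_primeLocalPlace w) hι) x

/-- An unramified 1-cocycle vanishes on the preimage of the inertia group. -/
theorem apply_inertia_eq_zero_of_ur {t : primeLocalGaloisGroup w → M} (ht : t ∈ cocycles₁ M)
    (htur : t ∈ C1 (urLevel w) M) {ι : primeLocalGaloisGroup w}
    (hι : primeLocalToGlobal w ι ∈ (primeLocalPlace w).inertiaSubgroupIn ℚ) : t ι = 0 := by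
  obtain ⟨_, ⟨T, F, hwT, hF, rfl⟩, h⟩ := htur
  have h1 := h 1 ι (hF.2 w hwT _ (UnramLevel.liesOverPrime_primeLocalPlace w) hι)
  rw [one_mul] at h1
  rw [h1]
  exact cocycles₁_map_one (⟨t, ht⟩ : cocycles₁ M)

/-- **`H¹_ur` is the kernel of the restriction to inertia.**  For an unramified module `M` of the
local group at `w`, the class of a level 1-cocycle `t` is unramified iff `t` vanishes on the
preimage of the inertia group of the distinguished place. -/
theorem mk_mem_H1ur_iff_inertia (hM : IsDisc (urLevel w) M)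
    (t : ↥(Z1 (localLevel (primeLocalToGlobal w)) M)) :
    (Submodule.Quotient.mk t : Abs.H1 (localLevel (primeLocalToGlobal w)) M) ∈ H1ur w M ↔
      ∀ ι, primeLocalToGlobal w ι ∈ (primeLocalPlace w).inertiaSubgroupIn ℚ →
        (t : primeLocalGaloisGroup w → M) ι = 0 := by
  rw [mk_mem_H1ur_iff]
  constructor
  · rintro ⟨m, hm⟩ ι hι
    have hcoc : (t : primeLocalGaloisGroup w → M) - (d₀₁ M).hom m ∈ cocycles₁ M :=
      Submodule.sub_mem _ t.2.2 (coboundaries₁_le_cocycles₁ M ⟨m, rfl⟩)
    have h1 := apply_inertia_eq_zero_of_ur hcoc hm hι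
    rw [Pi.sub_apply, d₀₁_hom_apply, apply_inertia_of_isDisc hM hι, sub_self, sub_zero] at h1
    exact h1
  · intro h
    refine ⟨0, ?_⟩
    rw [map_zero, sub_zero]
    exact mem_C1_urLevel_of_cocycle t.2 h

/-- The same for the restriction of a global module discrete at a level `S ∌ w`. -/
theorem res_mk_mem_H1ur_iff_inertia {S : Finset Nat.Primes} {N : Rep.{0} k GQ}
    (hN : IsDisc (globalLevel S) N) {w : Nat.Primes} (hw : w ∉ S)
    (t : ↥(Z1 (localLevel (primeLocalToGlobal w)) (Rep.res (primeLocalToGlobal w) N))) :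
    (Submodule.Quotient.mk t :
        Abs.H1 (localLevel (primeLocalToGlobal w)) (Rep.res (primeLocalToGlobal w) N))
      ∈ H1ur w (Rep.res (primeLocalToGlobal w) N) ↔
      ∀ ι, primeLocalToGlobal w ι ∈ (primeLocalPlace w).inertiaSubgroupIn ℚ →
        (t : primeLocalGaloisGroup w → Rep.res (primeLocalToGlobal w) N) ι = 0 :=
  mk_mem_H1ur_iff_inertia (isDisc_urLevel_res hN hw) t

end Fermat.Agent.S56.GW.UrInertia
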