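/-
S56 / brick W + LOC interface (helper165): the unramified classes of a possibly RAMIFIED
module.

`w` a prime, `Γ = primeLocalGaloisGroup w`, `r = primeLocalToGlobal w`,
`I = r⁻¹ (inertia subgroup of primeLocalPlace w)`, `M : Rep k Γ` discrete (no hypothesis on the
action of `I`).

* `mk_mem_H1ur_of_inertia` : a level cocycle which is a coboundary `ι ↦ ι m - m` on `I` has an
  unramified class;
* `finrank_H1ur_le_of_isDisc` : `dim H¹_ur(Γ, M) ≤ dim H⁰(Γ, M)` (an unramified cocycle has
  values in `M ^ I` and is determined by its value at a lift `γ` of Frobenius; the unramified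
  coboundaries contain `d (M ^ I)`, and `ker d ∩ M ^ I = M ^ Γ`);
* `finrank_H1ur_res_le_of_isDisc` : the same for `M = Rep.res r N`, `N` discrete at ANY level
  `S` (the prime `w` may belong to `S`).
-/
import Fermat.Agent.S56.GW.UrInertia

set_option autoImplicit false

open CategoryTheory groupCohomology ExtCitation
open scoped Pointwise

namespace Fermat.Agent.S56.GW.UrRam

open Fermat.Agent.S55 Fermat.Agent.S55.Abs Fermat.Agent.S55.Count Fermat.Agent.S55.Base
  Fermat.Agent.S55.Base.EvalQ Fermat.Agent.S55.Glue Fermat.Agent.S56.GW.LevelLowerUr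
  Fermat.Agent.S56.GW.UrFrob Fermat.Agent.S56.GW.UrInertia

local notation "Qb" => AlgebraicClosure ℚ

variable {k : Type} [Field k] {w : Nat.Primes} {M : Rep.{0} k (primeLocalGaloisGroup w)}

/-- A finite Galois level, unramified at `w`, of an unramified cochain. -/
theorem exists_urField_of_mem {t : primeLocalGaloisGroup w → M} (ht : t ∈ C1 (urLevel w) M) :
    ∃ F : IntermediateField ℚ Qb, FiniteDimensional ℚ F ∧ Normal ℚ F ∧
      (primeLocalPlace w).inertiaSubgroupIn ℚ ≤ F.fixingSubgroup ∧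
      ∀ g s, primeLocalToGlobal w s ∈ F.fixingSubgroup → t (g * s) = t g := by
  obtain ⟨_, ⟨T, F, hw, hF, rfl⟩, ht⟩ := ht
  obtain ⟨F', h1, -, hF', hn⟩ := Glue.exists_normal_isUnramifiedOutside hF hF
  exact ⟨F', hF'.1, hn, hF'.2 w hw _ (UnramLevel.liesOverPrime_primeLocalPlace w),
    fun g s hs => ht g s (IntermediateField.fixingSubgroup_antitone h1 hs)⟩

/-- The preimage of the inertia group is normal in the local group. -/
theorem conj_mem_inertia (g : primeLocalGaloisGroup w) {ι : primeLocalGaloisGroup w}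
    (hι : primeLocalToGlobal w ι ∈ (primeLocalPlace w).inertiaSubgroupIn ℚ) :
    primeLocalToGlobal w (g⁻¹ * ι * g) ∈ (primeLocalPlace w).inertiaSubgroupIn ℚ := by
  have hg : primeLocalToGlobal w g⁻¹ ∈ (primeLocalPlace w).decompositionSubgroup ℚ := by
    rw [← LocalRange.range_primeLocalToGlobal]
    exact ⟨g⁻¹, rfl⟩
  have h1 := Glue.conj_mem_inertiaSubgroupIn hι (primeLocalToGlobal w g⁻¹)
  have h2 : primeLocalToGlobal w g⁻¹ • primeLocalPlace w = primeLocalPlace w :=
    MulAction.mem_stabilizer_iff.mp hg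
  rw [h2] at h1
  have e : primeLocalToGlobal w (g⁻¹ * ι * g) =
      primeLocalToGlobal w g⁻¹ * primeLocalToGlobal w ι * (primeLocalToGlobal w g⁻¹)⁻¹ := by
    rw [map_mul, map_mul, map_inv, inv_inv]
  rw [e]
  exact h1

/-- A level cocycle which is a coboundary on the preimage of the inertia group has an unramified
class (no hypothesis on the module). -/
theorem mk_mem_H1ur_of_inertia (t : ↥(Z1 (localLevel (primeLocalToGlobal w)) M)) (m : M)
    (h : ∀ ι, primeLocalToGlobal w ι ∈ (primeLocalPlace w).inertiaSubgroupIn ℚ →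
      (t : primeLocalGaloisGroup w → M) ι = M.ρ ι m - m)
    (hm : (d₀₁ M).hom m ∈ C1 (localLevel (primeLocalToGlobal w)) M) :
    (Submodule.Quotient.mk t : Abs.H1 (localLevel (primeLocalToGlobal w)) M) ∈ H1ur w M := by
  rw [mk_mem_H1ur_iff]
  refine ⟨m, mem_C1_urLevel_of_cocycle
    ⟨Submodule.sub_mem _ t.2.1 hm,
      Submodule.sub_mem _ t.2.2 (coboundaries₁_le_cocycles₁ M ⟨m, rfl⟩)⟩ fun ι hι => ?_⟩
  rw [Pi.sub_apply, d₀₁_hom_apply, h ι hι, sub_self]

/-- Coboundaries with values in a discrete module are level cochains. -/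
theorem d₀₁_mem_C1_localLevel (hM : IsDisc (localLevel (primeLocalToGlobal w)) M) (m : M) :
    (d₀₁ M).hom m ∈ C1 (localLevel (primeLocalToGlobal w)) M := by
  obtain ⟨U, hU, hU'⟩ := hM
  exact ⟨U, hU, fun g s hs => by
    rw [d₀₁_hom_apply, d₀₁_hom_apply, map_mul, Module.End.mul_apply, hU' s hs m]⟩

/-- **`dim H¹_ur ≤ dim H⁰`** for a finite-dimensional discrete module of the local group at `w`,
ramified or not. -/
theorem finrank_H1ur_le_of_isDisc [Module.Finite k M]
    (hM : IsDisc (localLevel (primeLocalToGlobal w)) M) :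
    Module.finrank k (H1ur w M) ≤ Module.finrank k (Abs.H0 M) := by
  obtain ⟨φ, hφ⟩ := Fermat.Agent.Lib.Frobenius.exists_isFrobeniusAt (primeLocalPlace w) w.2
    (UnramLevel.liesOverPrime_primeLocalPlace w)
  obtain ⟨γ, hγ⟩ : φ ∈ (primeLocalToGlobal w).range := by
    rw [LocalRange.range_primeLocalToGlobal]
    exact hφ.mem_decompositionSubgroup
  -- `M₀ = M ^ I`
  let M₀ : Submodule k M :=
    { carrier := {m | ∀ ι, primeLocalToGlobal w ι ∈ (primeLocalPlace w).inertiaSubgroupIn ℚ →
        M.ρ ι m = m}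
      add_mem' := fun {a b} ha hb ι hι => by rw [map_add, ha ι hι, hb ι hι]
      zero_mem' := fun ι _ => map_zero _
      smul_mem' := fun c m hm ι hι => by rw [map_smul, hm ι hι] }
  have hM₀ : ∀ m : M, m ∈ M₀ ↔ ∀ ι,
      primeLocalToGlobal w ι ∈ (primeLocalPlace w).inertiaSubgroupIn ℚ → M.ρ ι m = m :=
    fun m => Iff.rfl
  -- the unramified level cocycles
  let ZU : Submodule k (primeLocalGaloisGroup w → M) :=
    Z1 (localLevel (primeLocalToGlobal w)) M ⊓ C1 (urLevel w) M
  have hZU : ∀ t : primeLocalGaloisGroup w → M, t ∈ ZU ↔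
      t ∈ Z1 (localLevel (primeLocalToGlobal w)) M ∧ t ∈ C1 (urLevel w) M := fun t => Iff.rfl
  -- (i) values at `γ` lie in `M₀`
  have hval : ∀ t ∈ ZU, t γ ∈ M₀ := by
    intro t ht
    rw [hZU] at ht
    have hc := (mem_cocycles₁_iff t).1 ht.1.2
    have h0 : ∀ ι, primeLocalToGlobal w ι ∈ (primeLocalPlace w).inertiaSubgroupIn ℚ →
        t ι = 0 := fun ι hι => apply_inertia_eq_zero_of_ur ht.1.2 ht.2 hι
    rw [hM₀]
    intro ι hι
    have h1 : t (ι * γ) = M.ρ ι (t γ) := by rw [hc, h0 ι hι, add_zero]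
    have h2 : t (γ * (γ⁻¹ * ι * γ)) = t γ := by
      rw [hc, h0 _ (conj_mem_inertia γ hι), map_zero, zero_add]
    have e : γ * (γ⁻¹ * ι * γ) = ι * γ := by group
    rw [← h1, ← e, h2]
  -- (ii) an unramified cocycle vanishing at `γ` is zero
  have hzero : ∀ t ∈ ZU, t γ = 0 → t = 0 := by
    intro t ht h
    rw [hZU] at ht
    obtain ⟨F, hfd, hn, hI, hinv⟩ := exists_urField_of_mem ht.2
    exact eq_zero_of_apply_frob F hI ht.1.2 hinv hφ hγ h
  -- (iii) coboundaries of elements of `M₀` are unramified cocycles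
  have hd : ∀ m ∈ M₀, (d₀₁ M).hom m ∈ ZU := by
    intro m hm
    rw [hM₀] at hm
    have h1 : (d₀₁ M).hom m ∈ C1 (localLevel (primeLocalToGlobal w)) M :=
      d₀₁_mem_C1_localLevel hM m
    refine ⟨⟨h1, coboundaries₁_le_cocycles₁ M ⟨m, rfl⟩⟩, ?_⟩
    refine mem_C1_urLevel_of_inertia h1 fun g ι hι => ?_
    rw [d₀₁_hom_apply, d₀₁_hom_apply, map_mul, Module.End.mul_apply, hm ι hι]
  -- evaluation at `γ`
  let e : ↥ZU →ₗ[k] ↥M₀ :=
    LinearMap.codRestrict M₀
      ((LinearMap.proj γ : (primeLocalGaloisGroup w → M) →ₗ[k] M) ∘ₗ ZU.subtype)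
      (fun t => hval t.1 t.2)
  have he : Function.Injective e := by
    rw [injective_iff_map_eq_zero]
    intro t ht
    have h1 : (t : primeLocalGaloisGroup w → M) γ = 0 := congrArg Subtype.val ht
    exact Subtype.ext (hzero t.1 t.2 h1)
  have : Module.Finite k ↥ZU := Module.Finite.of_injective e he
  -- coboundaries of `M₀`
  let D : ↥M₀ →ₗ[k] ↥ZU :=
    LinearMap.codRestrict ZU
      (((d₀₁ M).hom : M →ₗ[k] (primeLocalGaloisGroup w → M)) ∘ₗ M₀.subtype)
      (fun m => hd m.1 m.2)
  have hD : ∀ m : ↥M₀, ((D m : ↥ZU) : primeLocalGaloisGroup w → M) = (d₀₁ M).hom (m : M) :=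
    fun m => rfl
  -- the class map
  have hle : ZU ≤ Z1 (localLevel (primeLocalToGlobal w)) M := inf_le_left
  let f : ↥ZU →ₗ[k] Abs.H1 (localLevel (primeLocalToGlobal w)) M :=
    (Submodule.mkQ _) ∘ₗ Submodule.inclusion hle
  have hf : ∀ t : ↥ZU, f t = Submodule.Quotient.mk ⟨t.1, hle t.2⟩ := fun t => rfl
  have hrange : H1ur w M ≤ LinearMap.range f := by
    rintro _ ⟨t, ht, rfl⟩
    exact ⟨⟨t.1, ⟨t.2, ht⟩⟩, rfl⟩
  have hDf : LinearMap.range D ≤ LinearMap.ker f := by
    rintro _ ⟨m, rfl⟩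
    rw [LinearMap.mem_ker, hf]
    exact (Submodule.Quotient.mk_eq_zero _).2 ⟨(m : M), rfl⟩
  -- `ker D` embeds into the invariants
  have hkerD : Module.finrank k (LinearMap.ker D) ≤ Module.finrank k (M.ρ.invariants) := by
    let j : ↥(LinearMap.ker D) →ₗ[k] ↥(M.ρ.invariants) :=
      LinearMap.codRestrict (M.ρ.invariants) (M₀.subtype ∘ₗ (LinearMap.ker D).subtype)
        (fun m => by
          intro τ
          have h1 : D m.1 = 0 := LinearMap.mem_ker.mp m.2
          have h2 : (d₀₁ M).hom ((m.1 : ↥M₀) : M) = 0 := by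
            rw [← hD, h1]
            rfl
          have h3 := congrFun h2 τ
          rw [d₀₁_hom_apply, Pi.zero_apply, sub_eq_zero] at h3
          exact h3)
    refine LinearMap.finrank_le_finrank_of_injective (f := j) ?_
    intro a b hab
    have h1 : ((a : ↥M₀) : M) = ((b : ↥M₀) : M) := by
      have h2 := congrArg (fun x : ↥(M.ρ.invariants) => (x : M)) hab
      exact h2
    exact Subtype.ext (Subtype.ext h1)
  have e1 := LinearMap.finrank_range_add_finrank_ker f
  have e2 := LinearMap.finrank_range_add_finrank_ker D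
  have e3 : Module.finrank k ↥ZU ≤ Module.finrank k ↥M₀ :=
    LinearMap.finrank_le_finrank_of_injective he
  have e4 : Module.finrank k (LinearMap.range D) ≤ Module.finrank k (LinearMap.ker f) :=
    Submodule.finrank_mono hDf
  have e5 : Module.finrank k (H1ur w M) ≤ Module.finrank k (LinearMap.range f) :=
    Submodule.finrank_mono hrange
  show Module.finrank k (H1ur w M) ≤ Module.finrank k (M.ρ.invariants)
  omega

/-- **`dim H¹_ur(G_w, N) ≤ dim H⁰(G_w, N)`** for a finite-dimensional module discrete at any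
level `S` and any prime `w` (in `S` or not). -/
theorem finrank_H1ur_res_le_of_isDisc {S : Finset Nat.Primes} {N : Rep.{0} k GQ}
    [Module.Finite k N] (hN : IsDisc (globalLevel S) N) (w : Nat.Primes) :
    Module.finrank k (H1ur w (Rep.res (primeLocalToGlobal w) N)) ≤
      Module.finrank k (Abs.H0 (Rep.res (primeLocalToGlobal w) N)) := by
  have : Module.Finite k (Rep.res (primeLocalToGlobal w) N) :=
    inferInstanceAs (Module.Finite k N)
  exact finrank_H1ur_le_of_isDisc
    (isDisc_res (globalLevel S) (localLevel (primeLocalToGlobal w)) (primeLocalToGlobal w)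
      (isLevelMap_localLevel (primeLocalToGlobal w) S) hN)

end Fermat.Agent.S56.GW.UrRam
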