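/-
S56 / brick W (helper146): the Greenberg--Wiles inequality in the abstract counting package
`CData` of S55 (route COUNT).

For a finite discrete module `M` with `T(M) ≤ 0` (on main for the data `dataS p S` of every
finite `S ∋ p`: `Count/Top.T_le_zero_of_base`) and ANY family of local conditions
`L v ⊆ H¹(G_v, M)`:

  `dim Sel_L(M) ≤ dim Sel_{L^⊥}(M') + h⁰(M) - h⁰(M') + Σ_v (dim L_v - h⁰(G_v, M)) + χ₂(M')`.

Only reciprocity (`PP1_loc1`), `T_eq`, `(F1)+(C)` for `M'`, `(F2)`, `(F4)` are used; no local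
Euler characteristic and no perfectness of the local pairings (only `≤` is claimed; this is the
direction needed for tangent-space bounds).  `perp_eq_bot_of_eq_top`: where `L v = ⊤` the dual
condition is `⊥` (`pl1_epi`).
-/
import Fermat.Agent.S55.Count.Main
import Fermat.Agent.S55.Count.MonLA

set_option autoImplicit false

open CategoryTheory groupCohomology

namespace Fermat.Agent.S56.GW

open Fermat.Agent.S55.Abs Fermat.Agent.S55.Count

variable {k G : Type} [Field k] [Group G]

/-! ### Linear algebra -/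

section LA

variable {ι : Type} [Fintype ι] [DecidableEq ι]

/-- The linear algebra of the Greenberg--Wiles inequality: if the images of `f` and `g` are
orthogonal for the sum pairing, `S` is contained in the `L`-Selmer subspace of `f` and `S'`
contains the `L^⊥`-Selmer subspace of `g`, then
`dim S + dim H' ≤ dim ker f + Σ dim L_i + dim S'`. -/
theorem la_sel_grp {X Y : ι → Type} [∀ i, AddCommGroup (X i)] [∀ i, Module k (X i)]
    [∀ i, Module.Finite k (X i)] [∀ i, AddCommGroup (Y i)] [∀ i, Module k (Y i)]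
    {H H' : Type} [AddCommGroup H] [Module k H] [Module.Finite k H]
    [AddCommGroup H'] [Module k H'] [Module.Finite k H']
    (f : H →ₗ[k] (∀ i, X i)) (g : H' →ₗ[k] (∀ i, Y i))
    (P : ∀ i, X i →ₗ[k] Y i →ₗ[k] k)
    (hperp : ∀ x y, ∑ i, P i (f x i) (g y i) = 0)
    (L : ∀ i, Submodule k (X i)) (S : Submodule k H) (S' : Submodule k H')
    (hS : ∀ x ∈ S, ∀ i, f x i ∈ L i)
    (hS' : ∀ y, (∀ i, ∀ x ∈ L i, P i x (g y i) = 0) → y ∈ S') :
    Module.finrank k S + Module.finrank k H' ≤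
      Module.finrank k (LinearMap.ker f) + (∑ i, Module.finrank k (L i)) +
        Module.finrank k S' := by
  -- `φ : S → ∏ L_i`
  let φ : ↥S →ₗ[k] (∀ i, ↥(L i)) :=
    LinearMap.pi fun i =>
      LinearMap.codRestrict (L i) ((LinearMap.proj i : (∀ j, X j) →ₗ[k] X i) ∘ₗ f ∘ₗ S.subtype)
        (fun x => hS x.1 x.2 i)
  have hφ : ∀ (s : ↥S) (i : ι), ((φ s i : ↥(L i)) : X i) = f s.1 i := fun s i => rfl
  -- `ψ : H' → (∏ L_i)^*`
  let ψ : H' →ₗ[k] ((∀ i, ↥(L i)) →ₗ[k] k) :=
    (∑ i, ((P i).compl₂ ((LinearMap.proj i : (∀ j, Y j) →ₗ[k] Y i) ∘ₗ g)) ∘ₗ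
      ((L i).subtype ∘ₗ (LinearMap.proj i : (∀ j, ↥(L j)) →ₗ[k] ↥(L i)))).flip
  have hψ : ∀ (y : H') (l : ∀ i, ↥(L i)), ψ y l = ∑ i, P i (l i : X i) (g y i) := by
    intro y l
    simp [ψ, LinearMap.sum_apply]
  -- `ker ψ ≤ S'`
  have hker : LinearMap.ker ψ ≤ S' := by
    intro y hy
    refine hS' y fun i x hx => ?_
    have h1 : ψ y (Pi.single i ⟨x, hx⟩) = 0 := by
      rw [LinearMap.mem_ker.mp hy, LinearMap.zero_apply]
    rw [hψ, Finset.sum_eq_single i] at h1
    · simpa using h1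
    · intro j _ hj
      rw [Pi.single_eq_of_ne hj]
      simp
    · intro hi
      exact absurd (Finset.mem_univ _) hi
  -- `im ψ ≤ (im φ)^⊥`
  have hrange : LinearMap.range ψ ≤ (LinearMap.range φ).dualAnnihilator := by
    rintro _ ⟨y, rfl⟩
    rw [Submodule.mem_dualAnnihilator]
    rintro _ ⟨s, rfl⟩
    rw [hψ]
    simp only [hφ]
    exact hperp s.1 y
  -- `ker φ` embeds into `ker f`
  have hkφ : Module.finrank k (LinearMap.ker φ) ≤ Module.finrank k (LinearMap.ker f) := by
    let j : ↥(LinearMap.ker φ) →ₗ[k] ↥(LinearMap.ker f) :=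
      LinearMap.codRestrict (LinearMap.ker f) (S.subtype ∘ₗ (LinearMap.ker φ).subtype)
        (fun x => by
          rw [LinearMap.mem_ker]
          funext i
          have h1 : φ x.1 = 0 := LinearMap.mem_ker.mp x.2
          have h2 := hφ x.1 i
          rw [h1] at h2
          simpa using h2.symm)
    refine LinearMap.finrank_le_finrank_of_injective (f := j) ?_
    intro a b hab
    have h1 : ((j a : ↥(LinearMap.ker f)) : H) = (j b : ↥(LinearMap.ker f)) := by rw [hab]
    exact Subtype.ext (Subtype.ext h1)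
  have e1 := LinearMap.finrank_range_add_finrank_ker ψ
  have e2 := LinearMap.finrank_range_add_finrank_ker φ
  have e3 := Subspace.finrank_add_finrank_dualAnnihilator_eq (LinearMap.range φ)
  rw [Module.finrank_pi_fintype] at e3
  have e4 := Submodule.finrank_mono hrange
  have e5 := Submodule.finrank_mono hker
  have e6 : Module.finrank k (LinearMap.range ψ) + Module.finrank k (LinearMap.range φ) ≤
      ∑ i, Module.finrank k (L i) := by
    rw [← e3, add_comm]
    exact Nat.add_le_add_left e4 _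
  omega

/-- `la_sel_grp` with all instances at the `AddCommMonoid` level (the form of the instances
carried by the level cohomology groups). -/
theorem la_sel {X Y : ι → Type} [∀ i, AddCommMonoid (X i)] [∀ i, Module k (X i)]
    [∀ i, Module.Finite k (X i)] [∀ i, AddCommMonoid (Y i)] [∀ i, Module k (Y i)]
    {H H' : Type} [AddCommMonoid H] [Module k H] [Module.Finite k H]
    [AddCommMonoid H'] [Module k H'] [Module.Finite k H']
    (f : H →ₗ[k] (∀ i, X i)) (g : H' →ₗ[k] (∀ i, Y i))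
    (P : ∀ i, X i →ₗ[k] Y i →ₗ[k] k)
    (hperp : ∀ x y, ∑ i, P i (f x i) (g y i) = 0)
    (L : ∀ i, Submodule k (X i)) (S : Submodule k H) (S' : Submodule k H')
    (hS : ∀ x ∈ S, ∀ i, f x i ∈ L i)
    (hS' : ∀ y, (∀ i, ∀ x ∈ L i, P i x (g y i) = 0) → y ∈ S') :
    Module.finrank k S + Module.finrank k H' ≤
      Module.finrank k (LinearMap.ker f) + (∑ i, Module.finrank k (L i)) +
        Module.finrank k S' := by
  let _ : ∀ i, AddCommGroup (X i) := fun i => Module.addCommMonoidToAddCommGroup k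
  let _ : ∀ i, AddCommGroup (Y i) := fun i => Module.addCommMonoidToAddCommGroup k
  let _ : AddCommGroup H := Module.addCommMonoidToAddCommGroup k
  let _ : AddCommGroup H' := Module.addCommMonoidToAddCommGroup k
  exact la_sel_grp f g P hperp L S S' hS hS'

end LA

/-! ### Selmer groups in `CData` -/

variable (D : CData k G)

/-- The Selmer group of the local conditions `L`: classes whose restriction at every `v`
lies in `L v`. -/
def Sel (M : Rep.{0} k G) (L : ∀ v, Submodule k (D.LH1 M v)) :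
    Submodule k (S55.Abs.H1 D.𝒰 M) where
  carrier := {x | ∀ v, D.r1 M v x ∈ L v}
  add_mem' := fun {a b} ha hb v => by
    rw [map_add]
    exact (L v).add_mem (ha v) (hb v)
  zero_mem' := fun v => by
    rw [map_zero]
    exact (L v).zero_mem
  smul_mem' := fun c {a} ha v => by
    rw [map_smul]
    exact (L v).smul_mem c (ha v)

theorem mem_Sel {M : Rep.{0} k G} {L : ∀ v, Submodule k (D.LH1 M v)} {x : S55.Abs.H1 D.𝒰 M} :
    x ∈ Sel D M L ↔ ∀ v, D.r1 M v x ∈ L v := Iff.rfl

/-- The dual local conditions: the annihilator of `L v` under the local pairing `PL1`. -/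
def perp {M : Rep.{0} k G} (hM : IsDisc D.𝒰 M) (L : ∀ v, Submodule k (D.LH1 M v)) (v : D.ι) :
    Submodule k (D.LH1 (D.dual M) v) where
  carrier := {y | ∀ x ∈ L v, D.PL1 hM v x y = 0}
  add_mem' := fun {a b} ha hb x hx => by
    rw [map_add, ha x hx, hb x hx, add_zero]
  zero_mem' := fun x _ => by
    rw [map_zero]
  smul_mem' := fun c {a} ha x hx => by
    rw [map_smul, ha x hx, smul_zero]

theorem mem_perp {M : Rep.{0} k G} (hM : IsDisc D.𝒰 M) {L : ∀ v, Submodule k (D.LH1 M v)}
    {v : D.ι} {y : D.LH1 (D.dual M) v} :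
    y ∈ perp D hM L v ↔ ∀ x ∈ L v, D.PL1 hM v x y = 0 := Iff.rfl

/-- Where the local condition is everything, the dual condition is zero (`pl1_epi`). -/
theorem perp_eq_bot_of_eq_top (h : D.LocHyp) {M : Rep.{0} k G} [Module.Finite k M]
    (hM : IsDisc D.𝒰 M) (L : ∀ v, Submodule k (D.LH1 M v)) (v : D.ι) (hv : L v = ⊤)
    {y : D.LH1 (D.dual M) v} (hy : y ∈ perp D hM L v) : y = 0 := by
  by_contra hne
  have hnb : y ∉ (⊥ : Submodule k (D.LH1 (D.dual M) v)) := fun hb =>
    hne ((Submodule.mem_bot k).mp hb)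
  obtain ⟨φ, hφ, -⟩ := MonLA.exists_functional_of_notMem _ hnb
  obtain ⟨x, hx⟩ := h.pl1_epi M hM v φ
  exact hφ ((hx y).trans (hy x (hv ▸ Submodule.mem_top)))

/-- **The Greenberg--Wiles inequality** in the counting package: for `T(M) ≤ 0` and any local
conditions `L`,
`dim Sel_L(M) ≤ dim Sel_{L^⊥}(M') + h⁰(M) - h⁰(M') + Σ_v dim L_v - Σ_v h⁰(G_v, M) + χ₂(M')`. -/
theorem sel_le (h : D.Hyp) (M : Rep.{0} k G) [Module.Finite k M] (hM : IsDisc D.𝒰 M)
    (hT : D.T M ≤ 0) (L : ∀ v, Submodule k (D.LH1 M v)) :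
    (Module.finrank k (Sel D M L) : ℤ) ≤
      (Module.finrank k (Sel D (D.dual M) (perp D hM L)) : ℤ) +
        (Module.finrank k (S55.Abs.H0 M) : ℤ) - (Module.finrank k (S55.Abs.H0 (D.dual M)) : ℤ) +
        ((∑ v, Module.finrank k (L v) : ℕ) : ℤ) -
        ((∑ v, Module.finrank k (D.LH0 M v) : ℕ) : ℤ) + chi2 D.𝒰 (D.dual M) := by
  have hM' : IsDisc D.𝒰 (D.dual M) := D.disc_dual hM
  have := h.fin_H1 M hM
  have := h.fin_H2 M hM
  have := h.fin_H1 (D.dual M) hM'
  have := h.fin_H2 (D.dual M) hM'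
  have : ∀ v, Module.Finite k (D.LH1 M v) := fun v => h.fin1 M hM v
  -- the linear algebra
  have hperp : ∀ (x : S55.Abs.H1 D.𝒰 M) (y : S55.Abs.H1 D.𝒰 (D.dual M)),
      ∑ v, D.PL1 hM v (D.loc1 M x v) (D.loc1 (D.dual M) y v) = 0 := fun x y =>
    (D.PP1_apply hM (D.loc1 M x) (D.loc1 (D.dual M) y)).symm.trans
      (D.PP1_loc1 h.toLocHyp hM x y)
  have key := la_sel (X := fun v => D.LH1 M v) (Y := fun v => D.LH1 (D.dual M) v) (D.loc1 M)
    (D.loc1 (D.dual M)) (fun v => D.PL1 hM v) hperp L (Sel D M L)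
    (Sel D (D.dual M) (perp D hM L)) (fun x hx v => hx v) (fun y hy v x hx => hy v x hx)
  -- numerics
  have e := D.T_eq h M hM
  have f4 := D.F4 h M hM
  have f4' := D.F4 h (D.dual M) hM'
  have hdd1 := D.finrank_sha1_ddual M
  have f2 := D.F2 h.toLocHyp M hM
  have r2' : Module.finrank k (LinearMap.range (D.loc2 (D.dual M))) +
      Module.finrank k (D.sha2 (D.dual M)) = Module.finrank k (S55.Abs.H2 D.𝒰 (D.dual M)) :=
    MonLA.rank_nullity _
  have f1' := D.F1_eq h.toLocHyp (D.dual M) hM' (h.cprop (D.dual M) hM')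
  have hdd := D.finrank_H0_ddual M
  have hl : ∑ v, Module.finrank k (D.LH2 (D.dual M) v) = ∑ v, Module.finrank k (D.LH0 M v) :=
    Finset.sum_congr rfl fun v _ => by
      rw [D.finrank_LH2 h.toLocHyp (D.dual M) hM' v, D.finrank_LH0_ddual M v]
  have hker : Module.finrank k (LinearMap.ker (D.loc1 M)) = Module.finrank k (D.sha1 M) := rfl
  unfold chi2
  omega

/-- Consumer form: if the dual Selmer group vanishes, every subspace `W` of the Selmer group
satisfies `dim W ≤ h⁰(M) - h⁰(M') + Σ_v dim L_v - Σ_v h⁰(G_v, M) + χ₂(M')`. -/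
theorem finrank_le_of_dual_trivial (h : D.Hyp) (M : Rep.{0} k G) [Module.Finite k M]
    (hM : IsDisc D.𝒰 M) (hT : D.T M ≤ 0) (L : ∀ v, Submodule k (D.LH1 M v))
    (hdual : ∀ y ∈ Sel D (D.dual M) (perp D hM L), y = 0)
    (W : Submodule k (S55.Abs.H1 D.𝒰 M)) (hW : W ≤ Sel D M L) :
    (Module.finrank k W : ℤ) ≤
      (Module.finrank k (S55.Abs.H0 M) : ℤ) - (Module.finrank k (S55.Abs.H0 (D.dual M)) : ℤ) +
        ((∑ v, Module.finrank k (L v) : ℕ) : ℤ) -
        ((∑ v, Module.finrank k (D.LH0 M v) : ℕ) : ℤ) + chi2 D.𝒰 (D.dual M) := by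
  have := h.fin_H1 M hM
  have h1 := sel_le D h M hM hT L
  have h2 : Module.finrank k W ≤ Module.finrank k (Sel D M L) := MonLA.finrank_mono hW
  have h3 : Module.finrank k (Sel D (D.dual M) (perp D hM L)) = 0 := by
    have : Subsingleton ↥(Sel D (D.dual M) (perp D hM L)) :=
      ⟨fun a b => Subtype.ext ((hdual a.1 a.2).trans (hdual b.1 b.2).symm)⟩
    exact Module.finrank_zero_of_subsingleton
  omega

end Fermat.Agent.S56.GW
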