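/-
S56 / brick W (helper146): the counting package over `ℚ` is available for EVERY finite `S ∋ p`
(`p` odd), with ONE family of local invariants (`InstAux.invH p`, the same functional at a prime
`q` for every `S`):

* `invS p S`           : the local invariants at the primes of `S`;
* `hyp_invS`           : `(dataS p S hpS (invS p S)).Hyp` (local duality + reciprocity, global
                         finiteness, (C) for every finite discrete module);
* `T_le_zero_invS`     : `T(M) ≤ 0` for every finite discrete module of level `S`;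
* `T_eq_zero_invS`       : `T(M) = 0`;
* `sel_le_invS`          : the Greenberg--Wiles inequality of `GW/SelmerBound` for this data.

Everything is assembled from landed theorems: REC-FINAL (`CFT.Rec.Final.isRec`), (LD)
(`LocHypInst.locHyp_dataS`), (EP) (`Count.Final.epClause`), (BE) (`Count.BE.be_clause`).
-/
import Fermat.Agent.S55.Count.FinalBE
import Fermat.Agent.S55.Count.BE.Assembly
import Fermat.Agent.S56.GW.SelmerBound

set_option autoImplicit false

open CategoryTheory groupCohomology ExtCitation

namespace Fermat.Agent.S56.GW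

open Fermat.Agent.S55.Abs Fermat.Agent.S55.Count

local notation "GQ" => (AlgebraicClosure ℚ ≃ₐ[ℚ] AlgebraicClosure ℚ)

variable (p : ℕ) [Fact p.Prime] (S : Finset Nat.Primes)

/-- The canonical local invariants at the primes of `S` (restriction of the family
`InstAux.invH p` at all primes). -/
noncomputable abbrev invS : InvS p S :=
  Fermat.Agent.S55.Count.LocHypInst.invOf (Fermat.Agent.CFT.Rec.InstAux.invH p)

variable {p} {S}

/-- Local hypotheses (reciprocity + local duality) for the canonical invariants. -/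
theorem locHyp_invS (hp2 : p ≠ 2) (hpS : pPrime p ∈ S) : (dataS p S hpS (invS p S)).LocHyp :=
  Fermat.Agent.S55.Count.LocHypInst.locHyp_dataS hpS _
    (Fermat.Agent.CFT.Rec.Final.isRec p hp2 S hpS)

/-- All hypotheses of the formal counting layer, for every finite `S ∋ p`. -/
theorem hyp_invS (hp2 : p ≠ 2) (hpS : pPrime p ∈ S) : (dataS p S hpS (invS p S)).Hyp := by
  have hloc := locHyp_invS hp2 hpS
  have hep := Fermat.Agent.S55.Count.Final.epClause hp2 hpS (invS p S) hloc
  have hbe : Chain.BEClause p S hpS (invS p S) := fun F hF =>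
    Fermat.Agent.S55.Count.BE.be_clause S hp2 hpS (invS p S) hloc F hF
  have hfin : ∀ (N : Rep.{0} (ZMod p) GQ) [Module.Finite (ZMod p) N],
      IsDisc (globalLevel S) N → Module.Finite (ZMod p) (S55.Abs.H1 (globalLevel S) N) ∧
        Module.Finite (ZMod p) (S55.Abs.H2 (globalLevel S) N) := fun N _ hN =>
    finite_H_of_base hpS (fun K hK hc => ⟨(hep K hK hc).1, (hep K hK hc).2.1⟩) N hN
  exact
    { toLocHyp := hloc
      fin_H1 := fun N _ hN => (hfin N hN).1
      fin_H2 := fun N _ hN => (hfin N hN).2
      cprop := fun N _ hN => cprop_of_base hpS (invS p S) hloc hbe N hN }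

/-- `T(M) ≤ 0` for every finite discrete module of level `S`. -/
theorem T_le_zero_invS (hp2 : p ≠ 2) (hpS : pPrime p ∈ S) (M : Rep.{0} (ZMod p) GQ)
    [Module.Finite (ZMod p) M] (hM : IsDisc (globalLevel S) M) :
    (dataS p S hpS (invS p S)).T M ≤ 0 :=
  T_le_zero_of_base hpS (invS p S) (hyp_invS hp2 hpS)
    (fun K hK hc =>
      (Fermat.Agent.S55.Count.Final.epClause hp2 hpS (invS p S) (locHyp_invS hp2 hpS)
        K hK hc).2.2) M hM

/-- `T(M) = 0`. -/
theorem T_eq_zero_invS (hp2 : p ≠ 2) (hpS : pPrime p ∈ S) (M : Rep.{0} (ZMod p) GQ)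
    [Module.Finite (ZMod p) M] (hM : IsDisc (globalLevel S) M) :
    (dataS p S hpS (invS p S)).T M = 0 :=
  le_antisymm (T_le_zero_invS hp2 hpS M hM)
    ((dataS p S hpS (invS p S)).T_nonneg (hyp_invS hp2 hpS) M hM)

/-- **Greenberg--Wiles inequality over `ℚ`**, level `S`, any local conditions. -/
theorem sel_le_invS (hp2 : p ≠ 2) (hpS : pPrime p ∈ S) (M : Rep.{0} (ZMod p) GQ)
    [Module.Finite (ZMod p) M] (hM : IsDisc (globalLevel S) M)
    (L : ∀ v, Submodule (ZMod p) ((dataS p S hpS (invS p S)).LH1 M v)) :
    (Module.finrank (ZMod p) (Sel (dataS p S hpS (invS p S)) M L) : ℤ) ≤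
      (Module.finrank (ZMod p) (Sel (dataS p S hpS (invS p S))
          ((dataS p S hpS (invS p S)).dual M) (perp (dataS p S hpS (invS p S)) hM L)) : ℤ) +
        (Module.finrank (ZMod p) (S55.Abs.H0 M) : ℤ) -
        (Module.finrank (ZMod p) (S55.Abs.H0 ((dataS p S hpS (invS p S)).dual M)) : ℤ) +
        ((∑ v, Module.finrank (ZMod p) (L v) : ℕ) : ℤ) -
        ((∑ v, Module.finrank (ZMod p) ((dataS p S hpS (invS p S)).LH0 M v) : ℕ) : ℤ) +
        chi2 (globalLevel S) ((dataS p S hpS (invS p S)).dual M) :=
  sel_le (dataS p S hpS (invS p S)) (hyp_invS hp2 hpS) M hM (T_le_zero_invS hp2 hpS M hM) L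

end Fermat.Agent.S56.GW
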