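/-
S56 / brick W (helper146): the Greenberg--Wiles bound in the shape used for Taylor--Wiles sets.

`S₀ ⊆ T` finite sets of primes, `p ∈ S₀` odd, `M` a finite `𝔽_p[G_ℚ]`-module unramified
outside `S₀`, `M' = M^∨(1)`.  Local conditions `L v ⊆ H¹(G_v, M)` for `v ∈ T` with `L v = ⊤`
at the primes of `T` outside `S₀`.  If the primes of `T` outside `S₀` kill `H¹(level S₀, M')`
(no class of level `S₀` restricts to zero at all of them), then every subspace `W` of
`H¹(level T, M)` whose local restrictions lie in `L` satisfies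

  `dim W ≤ h⁰(M) - h⁰(M') + Σ_{v ∈ T} dim L_v - Σ_{v ∈ T} h⁰(G_v, M) + χ₂(level T, M')`.

Inputs: `GW/SelmerBound` (the inequality in the counting package), `GW/DataS` (the package over
`ℚ` for every level set, one family of local invariants), `GW/LevelLower` (classes of level
`T` that are trivial at the primes outside `S₀` have level `S₀`).
-/
import Fermat.Agent.S56.GW.DataS
import Fermat.Agent.S56.GW.LevelLower

set_option autoImplicit false

open CategoryTheory groupCohomology ExtCitation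

namespace Fermat.Agent.S56.GW

open Fermat.Agent.S55.Abs Fermat.Agent.S55.Count

local notation "GQ" => (AlgebraicClosure ℚ ≃ₐ[ℚ] AlgebraicClosure ℚ)

variable {p : ℕ} [Fact p.Prime]

/-- The twisted dual of a module of level `S` has level `S` (`p ∈ S`). -/
theorem isDisc_dualTwist {S : Finset Nat.Primes} (hpS : pPrime p ∈ S) {M : Rep.{0} (ZMod p) GQ}
    (hM : IsDisc (globalLevel S) M) : IsDisc (globalLevel S) (M.dualTwist (cycloChar p)) :=
  (dataS p S hpS (invS p S)).disc_dual hM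

/-- **Greenberg--Wiles bound for Taylor--Wiles sets.** -/
theorem finrank_le_of_kill (hp2 : p ≠ 2) {S₀ T : Finset Nat.Primes} (hST : S₀ ⊆ T)
    (hpS₀ : pPrime p ∈ S₀) (M : Rep.{0} (ZMod p) GQ) [Module.Finite (ZMod p) M]
    (hM : IsDisc (globalLevel S₀) M)
    (L : ∀ v : ↥T, Submodule (ZMod p) ((dataS p T (hST hpS₀) (invS p T)).LH1 M v))
    (hL : ∀ v : ↥T, v.1 ∉ S₀ → L v = ⊤)
    (hkill : ∀ y : S55.Abs.H1 (globalLevel S₀) (M.dualTwist (cycloChar p)),
      (∀ v : ↥T, v.1 ∉ S₀ →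
        (dataS p T (hST hpS₀) (invS p T)).r1 (M.dualTwist (cycloChar p)) v
          (incl1 hST (M.dualTwist (cycloChar p)) y) = 0) → y = 0)
    (W : Submodule (ZMod p) (S55.Abs.H1 (globalLevel T) M))
    (hW : ∀ x ∈ W, ∀ v : ↥T, (dataS p T (hST hpS₀) (invS p T)).r1 M v x ∈ L v) :
    (Module.finrank (ZMod p) W : ℤ) ≤
      (Module.finrank (ZMod p) (S55.Abs.H0 M) : ℤ) -
        (Module.finrank (ZMod p) (S55.Abs.H0 (M.dualTwist (cycloChar p))) : ℤ) +
        ((∑ v, Module.finrank (ZMod p) (L v) : ℕ) : ℤ) -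
        ((∑ v, Module.finrank (ZMod p) ((dataS p T (hST hpS₀) (invS p T)).LH0 M v) : ℕ) : ℤ) +
        chi2 (globalLevel T) (M.dualTwist (cycloChar p)) := by
  have hMT : IsDisc (globalLevel T) M := isDisc_mono hST hM
  have hyp := hyp_invS hp2 (hST hpS₀)
  have hM' : IsDisc (globalLevel S₀) (M.dualTwist (cycloChar p)) := isDisc_dualTwist hpS₀ hM
  refine finrank_le_of_dual_trivial (dataS p T (hST hpS₀) (invS p T)) hyp M hMT
    (T_le_zero_invS hp2 (hST hpS₀) M hMT) L ?_ W (fun x hx v => hW x hx v)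
  intro y hy
  have h0 : ∀ v : ↥T, v.1 ∉ S₀ →
      (dataS p T (hST hpS₀) (invS p T)).r1 (M.dualTwist (cycloChar p)) v y = 0 := fun v hv =>
    perp_eq_bot_of_eq_top (dataS p T (hST hpS₀) (invS p T)) hyp.toLocHyp hMT L v (hL v hv) (hy v)
  obtain ⟨y₀, rfl⟩ := exists_incl1_eq hST (M.dualTwist (cycloChar p)) hM' y h0
  rw [hkill y₀ h0, map_zero]
  rfl

end Fermat.Agent.S56.GW
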