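/-
S56 / brick W, numeric junction (helper146): the Greenberg--Wiles bound of `GW/Assembly` with all
local terms evaluated.

`S₀ ⊆ T` finite sets of primes, `p ∈ S₀` odd, `M` a finite `𝔽_p[G_ℚ]`-module unramified outside
`S₀`, `M' = M^∨(1)`, `W ⊆ H¹(level T, M)`.  Assume that the primes of `T` outside `S₀` are
`≡ 1 mod p` and kill `H¹(level S₀, M')`.

* `finrank_le_of_local_bounds` : if the image of `W` in the local `H¹` at `v ∈ S₀` has dimension
  `≤ h⁰(G_v, M) + a v` and `h⁰(G_v, M) ≤ a v` at the primes `v ∈ T` outside `S₀`, then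
  `dim W ≤ h⁰(M) - h⁰(M') + Σ_{v ∈ T} a v + χ₂(level T, M')`;
* `finrank_le_card_mul` : if moreover `h⁰(M) = 0`, `χ₂(level T, M') ≤ -d`, the image of `W` at `p`
  has dimension `≤ h⁰(G_p, M) + d`, the classes of `W` are unramified at the other primes of `S₀`
  and `h⁰(G_q, M) ≤ d` at the primes `q ∈ T` outside `S₀`, then `dim W ≤ #(T ∖ S₀) · d`.

Inputs: `GW/Assembly.finrank_le_of_kill`, `Loc/TameQ.finrank_H1_le_two_mul_H0` (local term at the
primes `≡ 1 mod p`), `GW/UrRam.finrank_H1ur_res_le_of_isDisc` (helper165: `dim H¹_ur ≤ h⁰`).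
-/
import Fermat.Agent.S56.GW.Assembly
import Fermat.Agent.S56.GW.UrRam
import Fermat.Agent.S56.Loc.TameQ

set_option autoImplicit false

open CategoryTheory groupCohomology ExtCitation

namespace Fermat.Agent.S56.GW

open Fermat.Agent.S55.Abs Fermat.Agent.S55.Count

local notation "GQ" => (AlgebraicClosure ℚ ≃ₐ[ℚ] AlgebraicClosure ℚ)

variable {p : ℕ} [Fact p.Prime]

/-- **Greenberg--Wiles bound with local excesses.**  `a v` bounds the excess
`dim (image of W at v) - h⁰(G_v, M)` at `v ∈ S₀` and `h⁰(G_v, M)` at the primes of `T` outside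
`S₀` (which are `≡ 1 mod p`). -/
theorem finrank_le_of_local_bounds (hp2 : p ≠ 2) {S₀ T : Finset Nat.Primes} (hST : S₀ ⊆ T)
    (hpS₀ : pPrime p ∈ S₀) (M : Rep.{0} (ZMod p) GQ) [Module.Finite (ZMod p) M]
    (hM : IsDisc (globalLevel S₀) M)
    (hkill : ∀ y : S55.Abs.H1 (globalLevel S₀) (M.dualTwist (cycloChar p)),
      (∀ v : ↥T, v.1 ∉ S₀ →
        (dataS p T (hST hpS₀) (invS p T)).r1 (M.dualTwist (cycloChar p)) v
          (incl1 hST (M.dualTwist (cycloChar p)) y) = 0) → y = 0)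
    (W : Submodule (ZMod p) (S55.Abs.H1 (globalLevel T) M))
    (a : ↥T → ℕ)
    (hloc : ∀ v : ↥T, v.1 ∈ S₀ →
      Module.finrank (ZMod p) ↥(W.map ((dataS p T (hST hpS₀) (invS p T)).r1 M v)) ≤
        Module.finrank (ZMod p) ((dataS p T (hST hpS₀) (invS p T)).LH0 M v) + a v)
    (hQ : ∀ v : ↥T, v.1 ∉ S₀ → (v.1 : ℕ) % p = 1 ∧
      Module.finrank (ZMod p) ((dataS p T (hST hpS₀) (invS p T)).LH0 M v) ≤ a v) :
    (Module.finrank (ZMod p) W : ℤ) ≤
      (Module.finrank (ZMod p) (S55.Abs.H0 M) : ℤ) -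
        (Module.finrank (ZMod p) (S55.Abs.H0 (M.dualTwist (cycloChar p))) : ℤ) +
        ((∑ v, a v : ℕ) : ℤ) + chi2 (globalLevel T) (M.dualTwist (cycloChar p)) := by
  classical
  let L : ∀ v : ↥T, Submodule (ZMod p) ((dataS p T (hST hpS₀) (invS p T)).LH1 M v) := fun v =>
    if v.1 ∈ S₀ then W.map ((dataS p T (hST hpS₀) (invS p T)).r1 M v) else ⊤
  have hL : ∀ v : ↥T, v.1 ∉ S₀ → L v = ⊤ := fun v hv => if_neg hv
  have hLpos : ∀ v : ↥T, v.1 ∈ S₀ →
      L v = W.map ((dataS p T (hST hpS₀) (invS p T)).r1 M v) := fun v hv => if_pos hv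
  have hW : ∀ x ∈ W, ∀ v : ↥T, (dataS p T (hST hpS₀) (invS p T)).r1 M v x ∈ L v := by
    intro x hx v
    by_cases hv : v.1 ∈ S₀
    · rw [hLpos v hv]
      exact Submodule.mem_map_of_mem hx
    · rw [hL v hv]
      exact Submodule.mem_top
  have h1 : (Module.finrank (ZMod p) W : ℤ) ≤
      (Module.finrank (ZMod p) (S55.Abs.H0 M) : ℤ) -
        (Module.finrank (ZMod p) (S55.Abs.H0 (M.dualTwist (cycloChar p))) : ℤ) +
        ((∑ v, Module.finrank (ZMod p) (L v) : ℕ) : ℤ) -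
        ((∑ v, Module.finrank (ZMod p) ((dataS p T (hST hpS₀) (invS p T)).LH0 M v) : ℕ) : ℤ) +
        chi2 (globalLevel T) (M.dualTwist (cycloChar p)) :=
    finrank_le_of_kill hp2 hST hpS₀ M hM L hL hkill W hW
  have h2 : ∀ v : ↥T, Module.finrank (ZMod p) (L v) ≤
      Module.finrank (ZMod p) ((dataS p T (hST hpS₀) (invS p T)).LH0 M v) + a v := by
    intro v
    by_cases hv : v.1 ∈ S₀
    · rw [hLpos v hv]
      exact hloc v hv
    · rw [hL v hv, finrank_top]
      have hvp : (v.1 : ℕ) ≠ p := by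
        intro h
        apply hv
        have h' : v.1 = pPrime p := Subtype.ext h
        rw [h']
        exact hpS₀
      have h3 : Module.finrank (ZMod p) ((dataS p T (hST hpS₀) (invS p T)).LH1 M v) ≤
          2 * Module.finrank (ZMod p) ((dataS p T (hST hpS₀) (invS p T)).LH0 M v) :=
        Loc.TameQ.finrank_H1_le_two_mul_H0 v.1 hvp (hQ v hv).1 hv M hM
      have h4 := (hQ v hv).2
      omega
  have h3 : (∑ v, Module.finrank (ZMod p) (L v)) ≤
      (∑ v, Module.finrank (ZMod p) ((dataS p T (hST hpS₀) (invS p T)).LH0 M v)) +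
        ∑ v, a v := by
    rw [← Finset.sum_add_distrib]
    exact Finset.sum_le_sum fun v _ => h2 v
  have h4 : ((∑ v, Module.finrank (ZMod p) (L v) : ℕ) : ℤ) ≤
      ((∑ v, Module.finrank (ZMod p) ((dataS p T (hST hpS₀) (invS p T)).LH0 M v) : ℕ) : ℤ) +
        ((∑ v, a v : ℕ) : ℤ) := by
    exact_mod_cast h3
  linarith

/-- **The Taylor--Wiles count.**  `dim_{𝔽_p} W ≤ #(T ∖ S₀) · d`: the image of `W` at `p` has
excess `≤ d`, the classes of `W` are unramified at the other primes of `S₀`, the primes of `T`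
outside `S₀` are `≡ 1 mod p`, have `h⁰ ≤ d` and kill `H¹(level S₀, M')`, `h⁰(M) = 0` and
`χ₂(level T, M') ≤ -d`. -/
theorem finrank_le_card_mul (hp2 : p ≠ 2) {S₀ T : Finset Nat.Primes} (hST : S₀ ⊆ T)
    (hpS₀ : pPrime p ∈ S₀) (M : Rep.{0} (ZMod p) GQ) [Module.Finite (ZMod p) M]
    (hM : IsDisc (globalLevel S₀) M)
    (hkill : ∀ y : S55.Abs.H1 (globalLevel S₀) (M.dualTwist (cycloChar p)),
      (∀ v : ↥T, v.1 ∉ S₀ →
        (dataS p T (hST hpS₀) (invS p T)).r1 (M.dualTwist (cycloChar p)) v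
          (incl1 hST (M.dualTwist (cycloChar p)) y) = 0) → y = 0)
    (W : Submodule (ZMod p) (S55.Abs.H1 (globalLevel T) M)) (d : ℕ)
    (hH0 : Module.finrank (ZMod p) (S55.Abs.H0 M) = 0)
    (hchi : chi2 (globalLevel T) (M.dualTwist (cycloChar p)) ≤ -(d : ℤ))
    (hp_loc : Module.finrank (ZMod p)
        ↥(W.map ((dataS p T (hST hpS₀) (invS p T)).r1 M ⟨pPrime p, hST hpS₀⟩)) ≤
      Module.finrank (ZMod p)
        ((dataS p T (hST hpS₀) (invS p T)).LH0 M ⟨pPrime p, hST hpS₀⟩) + d)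
    (hur : ∀ v : ↥T, v.1 ∈ S₀ → v.1 ≠ pPrime p → ∀ x ∈ W,
      (dataS p T (hST hpS₀) (invS p T)).r1 M v x ∈
        LevelLowerUr.H1ur v.1 (Rep.res (primeLocalToGlobal v.1) M))
    (hQ : ∀ v : ↥T, v.1 ∉ S₀ → (v.1 : ℕ) % p = 1 ∧
      Module.finrank (ZMod p) ((dataS p T (hST hpS₀) (invS p T)).LH0 M v) ≤ d) :
    Module.finrank (ZMod p) W ≤ (T \ S₀).card * d := by
  classical
  have hMT : IsDisc (globalLevel T) M := isDisc_mono hST hM
  have hyp := hyp_invS (p := p) hp2 (hST hpS₀)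
  -- the excesses
  let a : ↥T → ℕ := fun v => (if v.1 = pPrime p then d else 0) + (if v.1 ∈ S₀ then 0 else d)
  have hloc : ∀ v : ↥T, v.1 ∈ S₀ →
      Module.finrank (ZMod p) ↥(W.map ((dataS p T (hST hpS₀) (invS p T)).r1 M v)) ≤
        Module.finrank (ZMod p) ((dataS p T (hST hpS₀) (invS p T)).LH0 M v) + a v := by
    intro v hv
    by_cases hvp : v.1 = pPrime p
    · have hv' : v = ⟨pPrime p, hST hpS₀⟩ := Subtype.ext hvp
      subst hv'
      have ha : a ⟨pPrime p, hST hpS₀⟩ = d := by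
        show (if pPrime p = pPrime p then d else 0) + (if pPrime p ∈ S₀ then 0 else d) = d
        rw [if_pos rfl, if_pos hpS₀, add_zero]
      rw [ha]
      exact hp_loc
    · have ha : a v = 0 := by
        show (if v.1 = pPrime p then d else 0) + (if v.1 ∈ S₀ then 0 else d) = 0
        rw [if_neg hvp, if_pos hv]
      rw [ha, add_zero]
      have hfin : Module.Finite (ZMod p) ((dataS p T (hST hpS₀) (invS p T)).LH1 M v) :=
        hyp.toLocHyp.fin1 M hMT v
      have hle : W.map ((dataS p T (hST hpS₀) (invS p T)).r1 M v) ≤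
          LevelLowerUr.H1ur v.1 (Rep.res (primeLocalToGlobal v.1) M) := by
        rintro _ ⟨x, hx, rfl⟩
        exact hur v hv hvp x hx
      have h1 : Module.finrank (ZMod p) ↥(W.map ((dataS p T (hST hpS₀) (invS p T)).r1 M v)) ≤
          Module.finrank (ZMod p)
            ↥(LevelLowerUr.H1ur v.1 (Rep.res (primeLocalToGlobal v.1) M)) := by
        have : Module.Finite (ZMod p)
            (S55.Abs.H1 (localLevel (primeLocalToGlobal v.1)) (Rep.res (primeLocalToGlobal v.1) M)) :=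
          hfin
        exact Submodule.finrank_mono hle
      exact h1.trans (UrRam.finrank_H1ur_res_le_of_isDisc hM v.1)
  have hQ' : ∀ v : ↥T, v.1 ∉ S₀ → (v.1 : ℕ) % p = 1 ∧
      Module.finrank (ZMod p) ((dataS p T (hST hpS₀) (invS p T)).LH0 M v) ≤ a v := by
    intro v hv
    refine ⟨(hQ v hv).1, ?_⟩
    have hvp : v.1 ≠ pPrime p := fun h => hv (h ▸ hpS₀)
    have ha : a v = d := by
      show (if v.1 = pPrime p then d else 0) + (if v.1 ∈ S₀ then 0 else d) = d
      rw [if_neg hvp, if_neg hv, zero_add]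
    rw [ha]
    exact (hQ v hv).2
  have h1 := finrank_le_of_local_bounds hp2 hST hpS₀ M hM hkill W a hloc hQ'
  -- the sum of the excesses
  have hsum : (∑ v, a v) = d + (T \ S₀).card * d := by
    show (∑ v : ↥T, ((if v.1 = pPrime p then d else 0) + (if v.1 ∈ S₀ then 0 else d))) = _
    rw [Finset.sum_add_distrib]
    congr 1
    · rw [Finset.sum_eq_single (⟨pPrime p, hST hpS₀⟩ : ↥T)]
      · rw [if_pos rfl]
      · intro v _ hv
        rw [if_neg]
        intro h
        exact hv (Subtype.ext h)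
      · intro h
        exact absurd (Finset.mem_univ _) h
    · rw [Finset.sum_coe_sort T (fun v => if v ∈ S₀ then 0 else d)]
      have e : (T \ S₀) = T.filter (fun v => ¬ v ∈ S₀) := by
        ext v
        simp only [Finset.mem_sdiff, Finset.mem_filter]
      rw [e, Finset.card_filter, Finset.sum_mul]
      refine Finset.sum_congr rfl fun v _ => ?_
      by_cases hv : v ∈ S₀
      · rw [if_pos hv, if_neg (not_not.mpr hv), zero_mul]
      · rw [if_neg hv, if_pos hv, one_mul]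
  rw [hsum, hH0] at h1
  have h2 : (0 : ℤ) ≤ (Module.finrank (ZMod p) (S55.Abs.H0 (M.dualTwist (cycloChar p))) : ℤ) :=
    Int.natCast_nonneg _
  have h3 : (Module.finrank (ZMod p) W : ℤ) ≤ (((T \ S₀).card * d : ℕ) : ℤ) := by
    push_cast at h1 ⊢
    linarith
  exact_mod_cast h3

end Fermat.Agent.S56.GW
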