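/-
S56 / TW interface (helper165): the pigeonhole "one prime per non-zero class".

`S₀` a finite set of primes, `N : Rep k G_ℚ` discrete at level `S₀` with finite
`H¹(level S₀, N)`, `r + 1 = #H¹(level S₀, N)`.

* `exists_kills` : given an oracle which, for every family `c : Fin r → Z¹(level S₀, N)` of
  non-coboundaries, produces primes `qv : Fin r → Nat.Primes` outside `S₀` with a property
  `P qv` and, for every `i`, a Frobenius element `φ` at `qv i` with `c i φ ∉ (φ - 1) N`, there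
  are primes `qv` outside `S₀` with `P qv` and `Kills S₀ (S₀ ∪ {qv i}) N` : every class of
  level `S₀` which is locally trivial at the `qv i` is zero.
* `exists_kills_of_le` : the same for `#H¹(level S₀, N) ≤ r + 1`, when the oracle does not ask
  the `c i` to be non-coboundaries.
-/
import Fermat.Agent.S56.GW.KillClass

set_option autoImplicit false

open CategoryTheory groupCohomology ExtCitation

namespace Fermat.Agent.S56.GW.KillSet

open Fermat.Agent.S55 Fermat.Agent.S55.Abs Fermat.Agent.S55.Count Fermat.Agent.S55.Base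
  Fermat.Agent.S55.Base.EvalQ Fermat.Agent.S56.GW Fermat.Agent.S56.GW.LevelLowerUr
  Fermat.Agent.S56.GW.UrFrob Fermat.Agent.S56.GW.KillClass

local notation "Qb" => AlgebraicClosure ℚ

variable {k : Type} [Field k]

/-- The key step: if every non-zero class is `mk (c i)` for some `i`, and `c i φ ∉ (φ - 1) N`
for a Frobenius element `φ` at `qv i ∉ S₀`, then `Kills S₀ (S₀ ∪ {qv i}) N`. -/
theorem kills_of_family {S₀ : Finset Nat.Primes} {N : Rep.{0} k GQ}
    (hN : IsDisc (globalLevel S₀) N) {r : ℕ} (c : Fin r → ↥(Z1 (globalLevel S₀) N))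
    (hsurj : ∀ y : Abs.H1 (globalLevel S₀) N, y ≠ 0 → ∃ i, Submodule.Quotient.mk (c i) = y)
    (qv : Fin r → Nat.Primes) (hq : ∀ i, qv i ∉ S₀)
    (hfrob : ∀ i, (Submodule.Quotient.mk (c i) : Abs.H1 (globalLevel S₀) N) ≠ 0 →
      ∃ (A : ValuationSubring Qb) (φ : GQ), A.LiesOverPrime (qv i : ℕ) ∧
        A.IsFrobeniusAt φ (qv i : ℕ) ∧ ¬ ∃ m : N, (c i : GQ → N) φ = N.ρ φ m - m) :
    Kills S₀ (S₀ ∪ Finset.univ.image qv) Finset.subset_union_left N := by
  intro y hy
  by_contra hne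
  obtain ⟨i, rfl⟩ := hsurj y hne
  obtain ⟨A, φ, hA, hφ, hno⟩ := hfrob i hne
  have hmem : qv i ∈ S₀ ∪ Finset.univ.image qv :=
    Finset.mem_union_right _ (Finset.mem_image_of_mem _ (Finset.mem_univ i))
  have h1 := hy ⟨qv i, hmem⟩ (hq i)
  rw [incl1_mk] at h1
  exact hno ((resT_mk_eq_zero_iff hN ⟨qv i, hmem⟩ (hq i)
    ⟨(c i).1, Z1_mono Finset.subset_union_left N (c i).2⟩ (c i).2 hA hφ).1 h1)

/-- **One prime per non-zero class.**  `r + 1 = #H¹(level S₀, N)`; an oracle producing, for any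
`r` non-coboundaries of level `S₀`, primes `qv i ∉ S₀` with a property `P` such that the `i`-th
cocycle is non-trivial at a Frobenius element of `qv i`, gives primes with `P` which kill
`H¹(level S₀, N)`. -/
theorem exists_kills {S₀ : Finset Nat.Primes} {N : Rep.{0} k GQ}
    (hN : IsDisc (globalLevel S₀) N) [Finite (Abs.H1 (globalLevel S₀) N)] {r : ℕ}
    (hr : Nat.card (Abs.H1 (globalLevel S₀) N) = r + 1) (P : (Fin r → Nat.Primes) → Prop)
    (horacle : ∀ c : Fin r → GQ → N, (∀ i, c i ∈ Z1 (globalLevel S₀) N) →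
      (∀ i, c i ∉ coboundaries₁ N) →
      ∃ qv : Fin r → Nat.Primes, P qv ∧ (∀ i, qv i ∉ S₀) ∧
        ∀ i, ∃ (A : ValuationSubring Qb) (φ : GQ), A.LiesOverPrime (qv i : ℕ) ∧
          A.IsFrobeniusAt φ (qv i : ℕ) ∧ ¬ ∃ m : N, c i φ = N.ρ φ m - m) :
    ∃ qv : Fin r → Nat.Primes, P qv ∧ (∀ i, qv i ∉ S₀) ∧
      Kills S₀ (S₀ ∪ Finset.univ.image qv) Finset.subset_union_left N := by
  classical
  haveI : Fintype (Abs.H1 (globalLevel S₀) N) := Fintype.ofFinite _
  -- the non-zero classes are in bijection with `Fin r`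
  have hcard : Nat.card {y : Abs.H1 (globalLevel S₀) N // y ≠ 0} = r := by
    rw [Nat.card_eq_fintype_card, Fintype.card_subtype_compl, Fintype.card_subtype_eq,
      ← Nat.card_eq_fintype_card, hr, Nat.add_sub_cancel]
  have e : {y : Abs.H1 (globalLevel S₀) N // y ≠ 0} ≃ Fin r := Finite.equivFinOfCardEq hcard
  -- representatives
  have hrep : ∀ i : Fin r, ∃ c : ↥(Z1 (globalLevel S₀) N),
      (Submodule.Quotient.mk c : Abs.H1 (globalLevel S₀) N) = (e.symm i).1 := fun i =>
    Submodule.Quotient.mk_surjective _ _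
  choose c hc using hrep
  have hne : ∀ i, (Submodule.Quotient.mk (c i) : Abs.H1 (globalLevel S₀) N) ≠ 0 := fun i => by
    rw [hc i]
    exact (e.symm i).2
  have hncb : ∀ i, ((c i : GQ → N)) ∉ coboundaries₁ N := fun i hcb =>
    hne i ((Submodule.Quotient.mk_eq_zero _).2 hcb)
  obtain ⟨qv, hP, hq, hfrob⟩ := horacle (fun i => (c i).1) (fun i => (c i).2) hncb
  refine ⟨qv, hP, hq, kills_of_family hN c (fun y hy => ⟨e ⟨y, hy⟩, ?_⟩) qv hq
    (fun i _ => hfrob i)⟩
  rw [hc, Equiv.symm_apply_apply]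

/-- The same with `#H¹(level S₀, N) ≤ r + 1`, for an oracle which accepts all cocycles of level
`S₀` and answers for the non-coboundaries among them. -/
theorem exists_kills_of_le {S₀ : Finset Nat.Primes} {N : Rep.{0} k GQ}
    (hN : IsDisc (globalLevel S₀) N) [Finite (Abs.H1 (globalLevel S₀) N)] {r : ℕ}
    (hr : Nat.card (Abs.H1 (globalLevel S₀) N) ≤ r + 1) (P : (Fin r → Nat.Primes) → Prop)
    (horacle : ∀ c : Fin r → GQ → N, (∀ i, c i ∈ Z1 (globalLevel S₀) N) →
      ∃ qv : Fin r → Nat.Primes, P qv ∧ (∀ i, qv i ∉ S₀) ∧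
        ∀ i, c i ∉ coboundaries₁ N → ∃ (A : ValuationSubring Qb) (φ : GQ),
          A.LiesOverPrime (qv i : ℕ) ∧ A.IsFrobeniusAt φ (qv i : ℕ) ∧
          ¬ ∃ m : N, c i φ = N.ρ φ m - m) :
    ∃ qv : Fin r → Nat.Primes, P qv ∧ (∀ i, qv i ∉ S₀) ∧
      Kills S₀ (S₀ ∪ Finset.univ.image qv) Finset.subset_union_left N := by
  classical
  haveI : Fintype (Abs.H1 (globalLevel S₀) N) := Fintype.ofFinite _
  have hcard : Nat.card {y : Abs.H1 (globalLevel S₀) N // y ≠ 0} ≤ r := by
    have h1 : Nat.card {y : Abs.H1 (globalLevel S₀) N // y ≠ 0} =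
        Nat.card (Abs.H1 (globalLevel S₀) N) - 1 := by
      rw [Nat.card_eq_fintype_card, Fintype.card_subtype_compl, Fintype.card_subtype_eq,
        ← Nat.card_eq_fintype_card]
    omega
  -- an injection of the non-zero classes into `Fin r`
  obtain ⟨f, hf⟩ : ∃ f : {y : Abs.H1 (globalLevel S₀) N // y ≠ 0} → Fin r,
      Function.Injective f := by
    have e := Finite.equivFin {y : Abs.H1 (globalLevel S₀) N // y ≠ 0}
    exact ⟨fun y => Fin.castLE hcard (e y), fun a b hab =>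
      e.injective (Fin.castLE_injective hcard hab)⟩
  -- representatives: the class `y` at the index `f y`, the zero cocycle elsewhere
  have hrep : ∀ i : Fin r, ∃ c : ↥(Z1 (globalLevel S₀) N),
      ∀ y : {y : Abs.H1 (globalLevel S₀) N // y ≠ 0}, f y = i →
        (Submodule.Quotient.mk c : Abs.H1 (globalLevel S₀) N) = y.1 := by
    intro i
    by_cases hi : ∃ y, f y = i
    · obtain ⟨y, hy⟩ := hi
      obtain ⟨c, hc⟩ := Submodule.Quotient.mk_surjective _ y.1
      exact ⟨c, fun y' hy' => by rw [hc, hf (hy'.trans hy.symm)]⟩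
    · exact ⟨0, fun y hy => absurd ⟨y, hy⟩ hi⟩
  choose c hc using hrep
  obtain ⟨qv, hP, hq, hfrob⟩ := horacle (fun i => (c i).1) (fun i => (c i).2)
  refine ⟨qv, hP, hq, kills_of_family hN c (fun y hy => ⟨f ⟨y, hy⟩, hc _ ⟨y, hy⟩ rfl⟩) qv hq
    (fun i hi => hfrob i fun hcb => hi ((Submodule.Quotient.mk_eq_zero _).2 hcb))⟩

end Fermat.Agent.S56.GW.KillSet
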