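/-
S56 / SEL junction, row UrBig (helper165): the hypothesis `hur` of
`GW/Numeric.finrank_le_card_mul` at the primes of `S_big` outside `Smin` - a class which comes
from a lift to `k[ε]` unramified at `v` is unramified at `v`.

`T` a finite set of primes, `M : Rep F G_ℚ` with an injective additive matrix realisation
`j : M →+ M₂(k)`, `r : G_ℚ →* M₂(k)`, `v ∈ T`.

* `resT_mk_mem_H1ur_of_unramified_lift` : let `z` be a cocycle of level `T` with
  `j (z σ) = c σ * r σ⁻¹` (`TangentAd.adOf r c`), where `r σ + ε c σ` are the matrices of a lift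
  `ρ` to `k[ε]` in a basis `bb`.  If `ρ` is unramified at `v`, then `res_v [z] ∈ H¹_ur(G_v, M)`
  (`TangentAd.eq_one_and_eq_zero_of_isUnramifiedAt` + `GW/UrInertia.mem_C1_urLevel_of_cocycle`);
* `hurBig` : the same for a space `W` of classes in the shape of `Sel/ClassMapCond.ClassBound`
  (`∀ x ∈ W, ∃ c ∈ C, ∃ z, x = [z] ∧ j (z σ) = adOf r c σ`), every non-zero `c ∈ C` having a
  lift unramified at `v`; the conclusion is in the spelling of the counting data `dataS`, i.e.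
  the binder `hur` of `GW/Numeric.finrank_le_card_mul` at `v`;
* `hurBig_of_cond` : the same when every non-zero `c ∈ C` has a lift of type `𝒟` and type `𝒟`
  implies "unramified at `v`";
* `hurBig_condOrd`, `hurBig_condFlat` : the two frozen conditions, `v ∉ Smin ∪ Q`.
-/
import Fermat.Agent.S56.GW.UrInertia
import Fermat.Agent.S56.TangentAd
import Fermat.Agent.S56.Contract

set_option autoImplicit false

open CategoryTheory groupCohomology ExtCitation

namespace Fermat.Agent.S56.GW.UrBig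

open IsLocalRing
open Fermat.Agent.S55 Fermat.Agent.S55.Abs Fermat.Agent.S55.Count Fermat.Agent.S55.Base
  Fermat.Agent.S55.Base.EvalQ Fermat.Agent.S55.Glue Fermat.Agent.S56.GW.LevelLowerUr
  Fermat.Agent.S56.GW.UrInertia Fermat.Agent.S53.MatRep Fermat.Agent.S56.Contract

local notation "Qb" => AlgebraicClosure ℚ
local notation "Mat" => Matrix (Fin 2) (Fin 2)

section Generic

variable {F : Type} [Field F] {k : Type} [Field k]

/-- The restriction at `v` of a class whose representative vanishes on the inertia group of the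
distinguished place above `v` is unramified (inline form of the class-level statement
`GW/UrClass`, kept private: the statement of record is there). -/
private theorem resT_mk_mem_H1ur_aux {T : Finset Nat.Primes} {N : Rep.{0} F GQ}
    (z : ↥(Z1 (globalLevel T) N)) (v : ↥T)
    (h : ∀ τ ∈ (primeLocalPlace v.1).inertiaSubgroupIn ℚ, (z : GQ → N) τ = 0) :
    resT T N v (Submodule.Quotient.mk z) ∈ H1ur v.1 (Rep.res (primeLocalToGlobal v.1) N) := by
  have hZ : res₁ (fun q : ↥T => primeLocalToGlobal q.1) N v (z : GQ → N)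
      ∈ Z1 (localLevel (primeLocalToGlobal v.1)) (Rep.res (primeLocalToGlobal v.1) N) :=
    res₁_mem_Z1 (globalLevel T) (fun q : ↥T => primeLocalToGlobal q.1)
      (fun q : ↥T => localLevel (primeLocalToGlobal q.1))
      (fun q : ↥T => isLevelMap_localLevel (primeLocalToGlobal q.1) T) N v z.2
  exact ⟨⟨_, hZ⟩, mem_C1_urLevel_of_cocycle hZ (fun ι hι => h _ hι), rfl⟩

/-- **An unramified lift gives an unramified class.**  `z` is a cocycle of level `T` whose
matrix realisation is the `ad`-valued cocycle `σ ↦ c σ * r σ⁻¹` of a lift `ρ` to `k[ε]` with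
matrices `r σ + ε c σ` in a basis `bb`.  If `ρ` is unramified at `v ∈ T`, the restriction of
the class of `z` at `v` is unramified. -/
theorem resT_mk_mem_H1ur_of_unramified_lift {T : Finset Nat.Primes} {N : Rep.{0} F GQ}
    (j : N →+ Mat k) (hj : Function.Injective j) (r : GQ →* Mat k) (c : GQ → Mat k)
    (z : ↥(Z1 (globalLevel T) N)) (hz : ∀ σ, j ((z : GQ → N) σ) = TangentAd.adOf r c σ)
    (ρ : GaloisRepAdic (DualNumber k)) (bb : Module.Basis (Fin 2) (DualNumber k) ρ.V)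
    (hmat : ∀ σ : GQ, matOfBasis ρ bb σ = (r σ).map (TrivSqZeroExt.inl : k → DualNumber k)
      + (c σ).map (TrivSqZeroExt.inr : k → DualNumber k))
    (v : ↥T) (hv : ρ.IsUnramifiedAt (v.1 : ℕ)) :
    resT T N v (Submodule.Quotient.mk z) ∈ H1ur v.1 (Rep.res (primeLocalToGlobal v.1) N) := by
  refine resT_mk_mem_H1ur_aux z v fun τ hτ => ?_
  have h0 := (TangentAd.eq_one_and_eq_zero_of_isUnramifiedAt ρ bb hv (primeLocalPlace v.1)
    (UnramLevel.liesOverPrime_primeLocalPlace v.1) τ hτ (r τ) (c τ) (hmat τ)).2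
  apply hj
  rw [hz, map_zero, TangentAd.adOf_apply, h0, zero_mul]

end Generic

section Data

variable {p : ℕ} [Fact p.Prime] {k : Type} [Field k]

/-- **`hur` at a prime where the lifts are unramified** (the binder `hur` of
`GW/Numeric.finrank_le_card_mul` at `v`).  `W` is a space of classes in the shape of
`Sel/ClassMapCond.ClassBound`; every non-zero `c ∈ C` is the `ε`-part of a lift unramified at
`v`.  Then the classes of `W` are unramified at `v`. -/
theorem hurBig {T : Finset Nat.Primes} (hpT : pPrime p ∈ T) (invT : InvS p T)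
    {M : Rep.{0} (ZMod p) GQ} (j : M →+ Mat k) (hj : Function.Injective j) (r : GQ →* Mat k)
    (C : Submodule k (GQ → Mat k)) (W : Submodule (ZMod p) (Abs.H1 (globalLevel T) M))
    (hW : ∀ x ∈ W, ∃ c ∈ C, ∃ z : Z1 (globalLevel T) M, x = Submodule.Quotient.mk z ∧
      ∀ σ : GQ, j ((z : GQ → M) σ) = TangentAd.adOf r c σ)
    (v : ↥T)
    (hlift : ∀ c ∈ C, c ≠ 0 → ∃ ρ : GaloisRepAdic (DualNumber k),
      ρ.IsUnramifiedAt (v.1 : ℕ) ∧ ∃ bb : Module.Basis (Fin 2) (DualNumber k) ρ.V, ∀ σ : GQ,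
        matOfBasis ρ bb σ = (r σ).map (TrivSqZeroExt.inl : k → DualNumber k)
          + (c σ).map (TrivSqZeroExt.inr : k → DualNumber k)) :
    ∀ x ∈ W, (dataS p T hpT invT).r1 M v x ∈ H1ur v.1 (Rep.res (primeLocalToGlobal v.1) M) := by
  intro x hx
  obtain ⟨c, hc, z, rfl, hz⟩ := hW x hx
  by_cases h0 : c = 0
  · refine resT_mk_mem_H1ur_aux z v fun τ _ => ?_
    apply hj
    rw [hz, map_zero, TangentAd.adOf_apply, h0, Pi.zero_apply, zero_mul]
  · obtain ⟨ρ, hρ, bb, hmat⟩ := hlift c hc h0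
    exact resT_mk_mem_H1ur_of_unramified_lift j hj r c z hz ρ bb hmat v hρ

end Data

section Cond

variable {𝒪 : Type} [CommRing 𝒪] [IsLocalRing 𝒪] {p : ℕ} [Fact p.Prime]

/-- `hur` at `v` for a deformation condition `𝒟` which implies "unramified at `v`": clause 4 of
`Sel/ClassMapCond.ClassBound` (lifts of type `𝒟`) is the hypothesis, verbatim. -/
theorem hurBig_of_cond
    (𝒟 : ∀ ⦃A : Type⦄ [CommRing A] [IsLocalRing A] [Algebra 𝒪 A], GaloisRepAdic A → Prop)
    {T : Finset Nat.Primes} (hpT : pPrime p ∈ T) (invT : InvS p T)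
    {M : Rep.{0} (ZMod p) GQ} (j : M →+ Mat (ResidueField 𝒪)) (hj : Function.Injective j)
    (r : GQ →* Mat (ResidueField 𝒪))
    (C : Submodule (ResidueField 𝒪) (GQ → Mat (ResidueField 𝒪)))
    (W : Submodule (ZMod p) (Abs.H1 (globalLevel T) M))
    (hW : ∀ x ∈ W, ∃ c ∈ C, ∃ z : Z1 (globalLevel T) M, x = Submodule.Quotient.mk z ∧
      ∀ σ : GQ, j ((z : GQ → M) σ) = TangentAd.adOf r c σ)
    (hlift : ∀ c ∈ C, c ≠ 0 → ∃ ρ : GaloisRepAdic (DualNumber (ResidueField 𝒪)), 𝒟 ρ ∧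
      ∃ bb : Module.Basis (Fin 2) (DualNumber (ResidueField 𝒪)) ρ.V, ∀ σ : GQ,
        matOfBasis ρ bb σ
          = (r σ).map (TrivSqZeroExt.inl : ResidueField 𝒪 → DualNumber (ResidueField 𝒪))
            + (c σ).map (TrivSqZeroExt.inr : ResidueField 𝒪 → DualNumber (ResidueField 𝒪)))
    (v : ↥T)
    (hv : ∀ ρ : GaloisRepAdic (DualNumber (ResidueField 𝒪)), 𝒟 ρ →
      ρ.IsUnramifiedAt (v.1 : ℕ)) :
    ∀ x ∈ W, (dataS p T hpT invT).r1 M v x ∈ H1ur v.1 (Rep.res (primeLocalToGlobal v.1) M) :=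
  hurBig hpT invT j hj r C W hW v fun c hc h0 => by
    obtain ⟨ρ, hρ, bb, hmat⟩ := hlift c hc h0
    exact ⟨ρ, hv ρ hρ, bb, hmat⟩

/-- `hur` at `v ∉ Smin ∪ Q` for the frozen strict-ordinary condition of level `Smin ∪ Q`. -/
theorem hurBig_condOrd (Smin : Finset ℕ) {n : ℕ} (qv : Fin n → ℕ)
    {T : Finset Nat.Primes} (hpT : pPrime p ∈ T) (invT : InvS p T)
    {M : Rep.{0} (ZMod p) GQ} (j : M →+ Mat (ResidueField 𝒪)) (hj : Function.Injective j)
    (r : GQ →* Mat (ResidueField 𝒪))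
    (C : Submodule (ResidueField 𝒪) (GQ → Mat (ResidueField 𝒪)))
    (W : Submodule (ZMod p) (Abs.H1 (globalLevel T) M))
    (hW : ∀ x ∈ W, ∃ c ∈ C, ∃ z : Z1 (globalLevel T) M, x = Submodule.Quotient.mk z ∧
      ∀ σ : GQ, j ((z : GQ → M) σ) = TangentAd.adOf r c σ)
    (hlift : ∀ c ∈ C, c ≠ 0 → ∃ ρ : GaloisRepAdic (DualNumber (ResidueField 𝒪)),
      condOrd 𝒪 p Smin qv ρ ∧
      ∃ bb : Module.Basis (Fin 2) (DualNumber (ResidueField 𝒪)) ρ.V, ∀ σ : GQ,
        matOfBasis ρ bb σ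
          = (r σ).map (TrivSqZeroExt.inl : ResidueField 𝒪 → DualNumber (ResidueField 𝒪))
            + (c σ).map (TrivSqZeroExt.inr : ResidueField 𝒪 → DualNumber (ResidueField 𝒪)))
    (v : ↥T) (hv : (v.1 : ℕ) ∉ Smin ∪ Finset.univ.image qv) :
    ∀ x ∈ W, (dataS p T hpT invT).r1 M v x ∈ H1ur v.1 (Rep.res (primeLocalToGlobal v.1) M) :=
  hurBig_of_cond (condOrd 𝒪 p Smin qv) hpT invT j hj r C W hW hlift v
    fun _ hρ => hρ.1.2.2 (v.1 : ℕ) v.1.2 hv

/-- `hur` at `v ∉ Smin ∪ Q` for the frozen flat condition of level `Smin ∪ Q`. -/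
theorem hurBig_condFlat (Smin : Finset ℕ) {n : ℕ} (qv : Fin n → ℕ)
    {T : Finset Nat.Primes} (hpT : pPrime p ∈ T) (invT : InvS p T)
    {M : Rep.{0} (ZMod p) GQ} (j : M →+ Mat (ResidueField 𝒪)) (hj : Function.Injective j)
    (r : GQ →* Mat (ResidueField 𝒪))
    (C : Submodule (ResidueField 𝒪) (GQ → Mat (ResidueField 𝒪)))
    (W : Submodule (ZMod p) (Abs.H1 (globalLevel T) M))
    (hW : ∀ x ∈ W, ∃ c ∈ C, ∃ z : Z1 (globalLevel T) M, x = Submodule.Quotient.mk z ∧
      ∀ σ : GQ, j ((z : GQ → M) σ) = TangentAd.adOf r c σ)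
    (hlift : ∀ c ∈ C, c ≠ 0 → ∃ ρ : GaloisRepAdic (DualNumber (ResidueField 𝒪)),
      condFlat 𝒪 p Smin qv ρ ∧
      ∃ bb : Module.Basis (Fin 2) (DualNumber (ResidueField 𝒪)) ρ.V, ∀ σ : GQ,
        matOfBasis ρ bb σ
          = (r σ).map (TrivSqZeroExt.inl : ResidueField 𝒪 → DualNumber (ResidueField 𝒪))
            + (c σ).map (TrivSqZeroExt.inr : ResidueField 𝒪 → DualNumber (ResidueField 𝒪)))
    (v : ↥T) (hv : (v.1 : ℕ) ∉ Smin ∪ Finset.univ.image qv) :
    ∀ x ∈ W, (dataS p T hpT invT).r1 M v x ∈ H1ur v.1 (Rep.res (primeLocalToGlobal v.1) M) :=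
  hurBig_of_cond (condFlat 𝒪 p Smin qv) hpT invT j hj r C W hW hlift v
    fun _ hρ => hρ.1.2.2 (v.1 : ℕ) v.1.2 hv

end Cond

end Fermat.Agent.S56.GW.UrBig
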