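/-
S56 / brick W, unramified classes from cocycles (helper146): the `hur` input of
`GW/Numeric.finrank_le_card_mul` in cocycle form.

`T` a finite set of primes, `N` a module discrete at level `T`, `f` a level-`T` cocycle, `v ∈ T`.
If `f τ = τ m - m` for all `τ` in the inertia subgroup of the distinguished place above `v`
(for one `m ∈ N`), then the restriction at `v` of the class of `f` is an unramified class.

* `resT_mk_mem_H1ur_of_inertia`, `resT_mk_mem_H1ur_of_vanish` (`m = 0`);
* `r1_mk_mem_H1ur_of_inertia`, `r1_mk_mem_H1ur_of_vanish` : the same for the restriction maps of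
  the counting data `dataS`.

Inputs: `GW/UrRam.mk_mem_H1ur_of_inertia` (helper165).
-/
import Fermat.Agent.S56.GW.UrRam

set_option autoImplicit false

open CategoryTheory groupCohomology ExtCitation

namespace Fermat.Agent.S56.GW.UrClass

open Fermat.Agent.S55 Fermat.Agent.S55.Abs Fermat.Agent.S55.Count Fermat.Agent.S55.Base
  Fermat.Agent.S55.Base.EvalQ Fermat.Agent.S56.GW.LevelLowerUr

local notation "Qb" => AlgebraicClosure ℚ

variable {k : Type} [Field k] {T : Finset Nat.Primes} {N : Rep.{0} k GQ}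

/-- If a level-`T` cocycle `f` agrees with the coboundary of `m` on the inertia subgroup of the
distinguished place above `v ∈ T`, the restriction at `v` of its class is unramified. -/
theorem resT_mk_mem_H1ur_of_inertia (hN : IsDisc (globalLevel T) N) (v : ↥T)
    (f : ↥(Z1 (globalLevel T) N)) (m : N)
    (h : ∀ τ : GQ, τ ∈ (primeLocalPlace v.1).inertiaSubgroupIn ℚ →
      (f : GQ → N) τ = N.ρ τ m - m) :
    resT T N v (Submodule.Quotient.mk f) ∈ H1ur v.1 (Rep.res (primeLocalToGlobal v.1) N) := by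
  have hM : IsDisc (localLevel (primeLocalToGlobal v.1)) (Rep.res (primeLocalToGlobal v.1) N) :=
    isDisc_res (globalLevel T) (localLevel (primeLocalToGlobal v.1)) (primeLocalToGlobal v.1)
      (isLevelMap_localLevel (primeLocalToGlobal v.1) T) hN
  obtain ⟨t, ht, htf⟩ : ∃ t : ↥(Z1 (localLevel (primeLocalToGlobal v.1))
        (Rep.res (primeLocalToGlobal v.1) N)),
      Submodule.Quotient.mk t = resT T N v (Submodule.Quotient.mk f) ∧
      ∀ g, (t : primeLocalGaloisGroup v.1 → Rep.res (primeLocalToGlobal v.1) N) g =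
        (f : GQ → N) (primeLocalToGlobal v.1 g) :=
    ⟨_, rfl, fun _ => rfl⟩
  rw [← ht]
  exact UrRam.mk_mem_H1ur_of_inertia t m (fun ι hι => by rw [htf]; exact h _ hι)
    (UrRam.d₀₁_mem_C1_localLevel hM m)

/-- If a level-`T` cocycle `f` vanishes on the inertia subgroup of the distinguished place above
`v ∈ T`, the restriction at `v` of its class is unramified. -/
theorem resT_mk_mem_H1ur_of_vanish (hN : IsDisc (globalLevel T) N) (v : ↥T)
    (f : ↥(Z1 (globalLevel T) N))
    (h : ∀ τ : GQ, τ ∈ (primeLocalPlace v.1).inertiaSubgroupIn ℚ → (f : GQ → N) τ = 0) :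
    resT T N v (Submodule.Quotient.mk f) ∈ H1ur v.1 (Rep.res (primeLocalToGlobal v.1) N) :=
  resT_mk_mem_H1ur_of_inertia hN v f 0 fun τ hτ => by rw [h τ hτ, map_zero, sub_zero]

section Data

variable {p : ℕ} [Fact p.Prime] {T : Finset Nat.Primes} {N : Rep.{0} (ZMod p) GQ}

/-- The same for the restriction maps of the counting data. -/
theorem r1_mk_mem_H1ur_of_inertia (hpT : pPrime p ∈ T) (invT : InvS p T)
    (hN : IsDisc (globalLevel T) N) (v : ↥T) (f : ↥(Z1 (globalLevel T) N)) (m : N)
    (h : ∀ τ : GQ, τ ∈ (primeLocalPlace v.1).inertiaSubgroupIn ℚ →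
      (f : GQ → N) τ = N.ρ τ m - m) :
    (dataS p T hpT invT).r1 N v (Submodule.Quotient.mk f)
      ∈ H1ur v.1 (Rep.res (primeLocalToGlobal v.1) N) :=
  resT_mk_mem_H1ur_of_inertia hN v f m h

theorem r1_mk_mem_H1ur_of_vanish (hpT : pPrime p ∈ T) (invT : InvS p T)
    (hN : IsDisc (globalLevel T) N) (v : ↥T) (f : ↥(Z1 (globalLevel T) N))
    (h : ∀ τ : GQ, τ ∈ (primeLocalPlace v.1).inertiaSubgroupIn ℚ → (f : GQ → N) τ = 0) :
    (dataS p T hpT invT).r1 N v (Submodule.Quotient.mk f)
      ∈ H1ur v.1 (Rep.res (primeLocalToGlobal v.1) N) :=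
  resT_mk_mem_H1ur_of_vanish hN v f h

end Data

end Fermat.Agent.S56.GW.UrClass
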