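/-
S56 / brick W, level of a cocycle (helper146): a 1-cocycle of `G_ℚ` of finite level (it vanishes
on the fixing subgroup of a finite extension) with values in a module unramified outside `T`,
vanishing on the inertia subgroups of the distinguished places above all primes outside `T`, is
a level-`T` cocycle.

* `mem_Z1_of_finite_level` : the statement above (`Lib/FiniteRamification` + the level lowering of
  `GW/LevelLower`);
* `mem_Z1_of_finite_level'` : the same with the vanishing hypothesis at every place above every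
  prime outside `T` (the form given by an unramified lift).
-/
import Fermat.Agent.S56.GW.LevelLower
import Fermat.Agent.Lib.FiniteRamification

set_option autoImplicit false

open CategoryTheory groupCohomology ExtCitation

namespace Fermat.Agent.S56.GW

open Fermat.Agent.S55.Abs Fermat.Agent.S55.Count Fermat.Agent.S55.Glue

local notation "Qb" => AlgebraicClosure ℚ
local notation "GQ" => (AlgebraicClosure ℚ ≃ₐ[ℚ] AlgebraicClosure ℚ)

variable {k : Type} [Field k]

/-- **Finite level + unramified outside `T` ⇒ level `T`.**  `N` is unramified outside `T`, `f` is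
a 1-cocycle vanishing on the fixing subgroup of a finite extension `L` and on the inertia
subgroup of the distinguished place above every prime outside `T`. -/
theorem mem_Z1_of_finite_level {T : Finset Nat.Primes} (N : Rep.{0} k GQ)
    (hN : IsDisc (globalLevel T) N) (f : GQ → N) (hf : f ∈ cocycles₁ N)
    (hlev : ∃ L : IntermediateField ℚ Qb, FiniteDimensional ℚ L ∧
      ∀ σ : GQ, (∀ x ∈ L, σ x = x) → f σ = 0)
    (hvan : ∀ q : Nat.Primes, q ∉ T →
      ∀ τ : GQ, τ ∈ (primeLocalPlace q).inertiaSubgroupIn ℚ → f τ = 0) :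
    f ∈ Z1 (globalLevel T) N := by
  obtain ⟨L, hLfd, hL⟩ := hlev
  obtain ⟨S', hS'⟩ := Fermat.Agent.Lib.FiniteRamification.exists_finset_isUnramifiedOutside L
  have hc : ∀ g h : GQ, f (g * h) = N.ρ g (f h) + f g := (mem_cocycles₁_iff f).1 hf
  have hf' : f ∈ Z1 (globalLevel S') N := by
    refine ⟨⟨_, ⟨L, hS', rfl⟩, fun g s hs => ?_⟩, hf⟩
    have h0 : f s = 0 := hL s fun x hx => (IntermediateField.mem_fixingSubgroup_iff L s).1 hs x hx
    rw [hc, h0, map_zero, zero_add]
  exact mem_Z1_of_inertia_vanish N hN f hf' fun q _ hq τ hτ => hvan q hq τ hτ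

/-- The same with the vanishing on inertia assumed at every place above every prime outside
`T`. -/
theorem mem_Z1_of_finite_level' {T : Finset Nat.Primes} (N : Rep.{0} k GQ)
    (hN : IsDisc (globalLevel T) N) (f : GQ → N) (hf : f ∈ cocycles₁ N)
    (hlev : ∃ L : IntermediateField ℚ Qb, FiniteDimensional ℚ L ∧
      ∀ σ : GQ, (∀ x ∈ L, σ x = x) → f σ = 0)
    (hvan : ∀ q : ℕ, q.Prime → (∀ q' ∈ T, (q' : ℕ) ≠ q) →
      ∀ P : ValuationSubring Qb, P.LiesOverPrime q →
        ∀ τ : GQ, τ ∈ P.inertiaSubgroupIn ℚ → f τ = 0) :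
    f ∈ Z1 (globalLevel T) N :=
  mem_Z1_of_finite_level N hN f hf hlev fun q hq τ hτ =>
    hvan (q : ℕ) q.2 (fun q' hq' h => hq (by rwa [← Subtype.ext h]))
      (primeLocalPlace q) (S55.Base.Fact.liesOverPrime_primeLocalPlace q) τ hτ

end Fermat.Agent.S56.GW
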