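/-
S56 / SEL junction, row UrBig (helper165): second names for the theorems of `GW/UrBig.lean`.

History: `GW/UrBig.lean` was overwritten and restored within three minutes of its landing, and
a note was posted in between which names the theorems in the namespace `UrBigCond`.  So that
both spellings compile, this file states the five theorems again, verbatim, in the namespace
`Fermat.Agent.S56.GW.UrBigCond`; each is proved by the theorem of `GW/UrBig.lean`.

* `resT_mk_mem_H1ur_of_lift` = `UrBig.resT_mk_mem_H1ur_of_unramified_lift`;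
* `hurBig`, `hurBig_of_cond`, `hurBig_condOrd`, `hurBig_condFlat` = the theorems of the same
  names in `UrBig`: the hypothesis `hur` of `GW/Numeric.finrank_le_card_mul` at a prime `v`
  where the lifts are unramified, for a space `W` of classes in the shape of
  `Sel/ClassMapCond.ClassBound`.
-/
import Fermat.Agent.S56.GW.UrBig

set_option autoImplicit false

open CategoryTheory groupCohomology ExtCitation

namespace Fermat.Agent.S56.GW.UrBigCond

open IsLocalRing
open Fermat.Agent.S55 Fermat.Agent.S55.Abs Fermat.Agent.S55.Count Fermat.Agent.S55.Base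
  Fermat.Agent.S55.Base.EvalQ Fermat.Agent.S55.Glue Fermat.Agent.S56.GW.LevelLowerUr
  Fermat.Agent.S56.GW.UrInertia Fermat.Agent.S53.MatRep Fermat.Agent.S56.Contract

local notation "Qb" => AlgebraicClosure ℚ
local notation "Mat" => Matrix (Fin 2) (Fin 2)

section Generic

variable {F : Type} [Field F] {k : Type} [Field k]

/-- **An unramified lift gives an unramified class** (additive matrix realisation).  `z` is a
cocycle of level `T` whose matrix realisation is the `ad`-valued cocycle `σ ↦ c σ * r σ⁻¹` of a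
lift `ρ` to `k[ε]` with matrices `r σ + ε c σ` in a basis `bb`.  If `ρ` is unramified at
`v ∈ T`, the restriction of the class of `z` at `v` is unramified. -/
theorem resT_mk_mem_H1ur_of_lift {T : Finset Nat.Primes} {N : Rep.{0} F GQ}
    (j : N →+ Mat k) (hj : Function.Injective j) (r : GQ →* Mat k) (c : GQ → Mat k)
    (z : ↥(Z1 (globalLevel T) N)) (hz : ∀ σ, j ((z : GQ → N) σ) = TangentAd.adOf r c σ)
    (ρ : GaloisRepAdic (DualNumber k)) (bb : Module.Basis (Fin 2) (DualNumber k) ρ.V)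
    (hmat : ∀ σ : GQ, matOfBasis ρ bb σ = (r σ).map (TrivSqZeroExt.inl : k → DualNumber k)
      + (c σ).map (TrivSqZeroExt.inr : k → DualNumber k))
    (v : ↥T) (hv : ρ.IsUnramifiedAt (v.1 : ℕ)) :
    resT T N v (Submodule.Quotient.mk z) ∈ H1ur v.1 (Rep.res (primeLocalToGlobal v.1) N) :=
  UrBig.resT_mk_mem_H1ur_of_unramified_lift j hj r c z hz ρ bb hmat v hv

end Generic

section Data

variable {p : ℕ} [Fact p.Prime] {k : Type} [Field k]

/-- **`hur` at a prime where the lifts are unramified** (the binder `hur` of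
`GW/Numeric.finrank_le_card_mul` at `v`).  `W` is a space of classes in the shape of
`Sel/ClassMapCond.ClassBound`; every non-zero `c ∈ C` is the `ε`-part of a lift unramified at
`v`.  Then the classes of `W` are unramified at `v`. -/
theorem hurBig {T : Finset Nat.Primes} (hpT : pPrime p ∈ T) (invT : InvS p T)
    {M : Rep.{0} (ZMod p) GQ} (j : M →+ Mat k) (hj : Function.Injective j) (r : GQ →* Mat k)
    (C : Submodule k (GQ → Mat k)) (W : Submodule (ZMod p) (Abs.H1 (globalLevel T) M))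
    (hW : ∀ x ∈ W, ∃ c ∈ C, ∃ z : Z1 (globalLevel T) M, x = Submodule.Quotient.mk z ∧
      ∀ σ : GQ, j ((z : GQ → M) σ) = TangentAd.adOf r c σ)
    (v : ↥T)
    (hlift : ∀ c ∈ C, c ≠ 0 → ∃ ρ : GaloisRepAdic (DualNumber k),
      ρ.IsUnramifiedAt (v.1 : ℕ) ∧ ∃ bb : Module.Basis (Fin 2) (DualNumber k) ρ.V, ∀ σ : GQ,
        matOfBasis ρ bb σ = (r σ).map (TrivSqZeroExt.inl : k → DualNumber k)
          + (c σ).map (TrivSqZeroExt.inr : k → DualNumber k)) :
    ∀ x ∈ W, (dataS p T hpT invT).r1 M v x ∈ H1ur v.1 (Rep.res (primeLocalToGlobal v.1) M) :=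
  UrBig.hurBig hpT invT j hj r C W hW v hlift

end Data

section Cond

variable {𝒪 : Type} [CommRing 𝒪] [IsLocalRing 𝒪] {p : ℕ} [Fact p.Prime]

/-- `hur` at `v` for a deformation condition `𝒟` which implies "unramified at `v`": clause 4 of
`Sel/ClassMapCond.ClassBound` (lifts of type `𝒟`) is the hypothesis, verbatim. -/
theorem hurBig_of_cond
    (𝒟 : ∀ ⦃A : Type⦄ [CommRing A] [IsLocalRing A] [Algebra 𝒪 A], GaloisRepAdic A → Prop)
    {T : Finset Nat.Primes} (hpT : pPrime p ∈ T) (invT : InvS p T)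
    {M : Rep.{0} (ZMod p) GQ} (j : M →+ Mat (ResidueField 𝒪)) (hj : Function.Injective j)
    (r : GQ →* Mat (ResidueField 𝒪))
    (C : Submodule (ResidueField 𝒪) (GQ → Mat (ResidueField 𝒪)))
    (W : Submodule (ZMod p) (Abs.H1 (globalLevel T) M))
    (hW : ∀ x ∈ W, ∃ c ∈ C, ∃ z : Z1 (globalLevel T) M, x = Submodule.Quotient.mk z ∧
      ∀ σ : GQ, j ((z : GQ → M) σ) = TangentAd.adOf r c σ)
    (hlift : ∀ c ∈ C, c ≠ 0 → ∃ ρ : GaloisRepAdic (DualNumber (ResidueField 𝒪)), 𝒟 ρ ∧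
      ∃ bb : Module.Basis (Fin 2) (DualNumber (ResidueField 𝒪)) ρ.V, ∀ σ : GQ,
        matOfBasis ρ bb σ
          = (r σ).map (TrivSqZeroExt.inl : ResidueField 𝒪 → DualNumber (ResidueField 𝒪))
            + (c σ).map (TrivSqZeroExt.inr : ResidueField 𝒪 → DualNumber (ResidueField 𝒪)))
    (v : ↥T)
    (hv : ∀ ρ : GaloisRepAdic (DualNumber (ResidueField 𝒪)), 𝒟 ρ →
      ρ.IsUnramifiedAt (v.1 : ℕ)) :
    ∀ x ∈ W, (dataS p T hpT invT).r1 M v x ∈ H1ur v.1 (Rep.res (primeLocalToGlobal v.1) M) :=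
  UrBig.hurBig_of_cond 𝒟 hpT invT j hj r C W hW hlift v hv

/-- `hur` at `v ∉ Smin ∪ Q` for the frozen strict-ordinary condition of level `Smin ∪ Q`. -/
theorem hurBig_condOrd (Smin : Finset ℕ) {n : ℕ} (qv : Fin n → ℕ)
    {T : Finset Nat.Primes} (hpT : pPrime p ∈ T) (invT : InvS p T)
    {M : Rep.{0} (ZMod p) GQ} (j : M →+ Mat (ResidueField 𝒪)) (hj : Function.Injective j)
    (r : GQ →* Mat (ResidueField 𝒪))
    (C : Submodule (ResidueField 𝒪) (GQ → Mat (ResidueField 𝒪)))
    (W : Submodule (ZMod p) (Abs.H1 (globalLevel T) M))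
    (hW : ∀ x ∈ W, ∃ c ∈ C, ∃ z : Z1 (globalLevel T) M, x = Submodule.Quotient.mk z ∧
      ∀ σ : GQ, j ((z : GQ → M) σ) = TangentAd.adOf r c σ)
    (hlift : ∀ c ∈ C, c ≠ 0 → ∃ ρ : GaloisRepAdic (DualNumber (ResidueField 𝒪)),
      condOrd 𝒪 p Smin qv ρ ∧
      ∃ bb : Module.Basis (Fin 2) (DualNumber (ResidueField 𝒪)) ρ.V, ∀ σ : GQ,
        matOfBasis ρ bb σ
          = (r σ).map (TrivSqZeroExt.inl : ResidueField 𝒪 → DualNumber (ResidueField 𝒪))
            + (c σ).map (TrivSqZeroExt.inr : ResidueField 𝒪 → DualNumber (ResidueField 𝒪)))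
    (v : ↥T) (hv : (v.1 : ℕ) ∉ Smin ∪ Finset.univ.image qv) :
    ∀ x ∈ W, (dataS p T hpT invT).r1 M v x ∈ H1ur v.1 (Rep.res (primeLocalToGlobal v.1) M) :=
  UrBig.hurBig_condOrd Smin qv hpT invT j hj r C W hW hlift v hv

/-- `hur` at `v ∉ Smin ∪ Q` for the frozen flat condition of level `Smin ∪ Q`. -/
theorem hurBig_condFlat (Smin : Finset ℕ) {n : ℕ} (qv : Fin n → ℕ)
    {T : Finset Nat.Primes} (hpT : pPrime p ∈ T) (invT : InvS p T)
    {M : Rep.{0} (ZMod p) GQ} (j : M →+ Mat (ResidueField 𝒪)) (hj : Function.Injective j)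
    (r : GQ →* Mat (ResidueField 𝒪))
    (C : Submodule (ResidueField 𝒪) (GQ → Mat (ResidueField 𝒪)))
    (W : Submodule (ZMod p) (Abs.H1 (globalLevel T) M))
    (hW : ∀ x ∈ W, ∃ c ∈ C, ∃ z : Z1 (globalLevel T) M, x = Submodule.Quotient.mk z ∧
      ∀ σ : GQ, j ((z : GQ → M) σ) = TangentAd.adOf r c σ)
    (hlift : ∀ c ∈ C, c ≠ 0 → ∃ ρ : GaloisRepAdic (DualNumber (ResidueField 𝒪)),
      condFlat 𝒪 p Smin qv ρ ∧
      ∃ bb : Module.Basis (Fin 2) (DualNumber (ResidueField 𝒪)) ρ.V, ∀ σ : GQ,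
        matOfBasis ρ bb σ
          = (r σ).map (TrivSqZeroExt.inl : ResidueField 𝒪 → DualNumber (ResidueField 𝒪))
            + (c σ).map (TrivSqZeroExt.inr : ResidueField 𝒪 → DualNumber (ResidueField 𝒪)))
    (v : ↥T) (hv : (v.1 : ℕ) ∉ Smin ∪ Finset.univ.image qv) :
    ∀ x ∈ W, (dataS p T hpT invT).r1 M v x ∈ H1ur v.1 (Rep.res (primeLocalToGlobal v.1) M) :=
  UrBig.hurBig_condFlat Smin qv hpT invT j hj r C W hW hlift v hv

end Cond

end Fermat.Agent.S56.GW.UrBigCond
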